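import Fermat.Agent.LT.Period.Local

/-!
# The Asai series near `s = 1`: lower bound

`b : ℕ → ℝ` multiplicative with split and inert local factors; the only analytic hypothesis is an upper
bound `C/(s-1)` for the finite products of Rankin-Selberg factors.  Conclusion: absolute convergence for
`s > 1` and `|D(s)| ≥ exp (Σ a(p) p^{-s} - 1/2 log (1/(s-1)) - C')`.
-/

set_option autoImplicit false

open Filter Topology Finset

namespace Fermat.Agent.LT.Period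

/-- Data of an Asai series. -/
structure AsaiData where
  b : ℕ → ℝ
  x : ℕ → ℝ
  y : ℕ → ℝ
  Sp : Set ℕ
  In : Set ℕ
  zero : b 0 = 0
  one : b 1 = 1
  mul : ∀ {m n : ℕ}, m.Coprime n → b (m * n) = b m * b n
  split : ∀ p : ℕ, p.Prime → p ∈ Sp → ∀ k, b (p ^ k) = ch (x p) k * ch (y p) k
  inert : ∀ p : ℕ, p.Prime → p ∈ In → ∀ k, b (p ^ k) = ch (x p) k
  inert' : ∀ p : ℕ, p.Prime → p ∈ In → x p = 0 ∨ x p = 2
  bad : ∀ p : ℕ, p.Prime → p ∉ Sp → p ∉ In → ∀ k, b (p ^ (k + 1)) = 0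
  disj : ∀ p, p ∈ Sp → p ∉ In
  C : ℝ
  C1 : 1 ≤ C
  bound : ∀ s : ℝ, 1 < s → s ≤ 2 → ∀ T : Finset Nat.Primes, (∀ p ∈ T, (p : ℕ) ∈ Sp) → ∀ M : ℕ,
    ∏ p ∈ T, ((∑ k ∈ range M, ch (x p) k ^ 2 * (((p : ℕ) : ℝ) ^ (-s)) ^ k) *
      (∑ k ∈ range M, ch (y p) k ^ 2 * (((p : ℕ) : ℝ) ^ (-s)) ^ k)) ≤ C / (s - 1)

lemma rpow_bounds (p : Nat.Primes) {s : ℝ} (hs : 1 ≤ s) :
    0 < ((p : ℕ) : ℝ) ^ (-s) ∧ ((p : ℕ) : ℝ) ^ (-s) ≤ 1 / 2 := by
  have h2 : (2 : ℝ) ≤ (p : ℕ) := by exact_mod_cast p.2.two_le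
  refine ⟨by positivity, ?_⟩
  calc ((p : ℕ) : ℝ) ^ (-s) ≤ ((p : ℕ) : ℝ) ^ (-1 : ℝ) :=
        Real.rpow_le_rpow_of_exponent_le (by linarith) (by linarith)
    _ = ((p : ℕ) : ℝ)⁻¹ := Real.rpow_neg_one _
    _ ≤ 2⁻¹ := inv_anti₀ (by norm_num) h2
    _ = 1 / 2 := by norm_num

namespace AsaiData

variable (A : AsaiData)

lemma summable_xy {s : ℝ} (hs : 1 < s) (hs2 : s ≤ 2) (p : Nat.Primes) (hp : (p : ℕ) ∈ A.Sp) :
    Summable (fun k => ch (A.x p) k ^ 2 * (((p : ℕ) : ℝ) ^ (-s)) ^ k) ∧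
    Summable (fun k => ch (A.y p) k ^ 2 * (((p : ℕ) : ℝ) ^ (-s)) ^ k) := by
  have hT := (rpow_bounds p hs.le).1
  set T := ((p : ℕ) : ℝ) ^ (-s) with hTdef
  have hnn : ∀ z : ℝ, ∀ k, 0 ≤ ch z k ^ 2 * T ^ k := fun z k =>
    mul_nonneg (sq_nonneg _) (pow_nonneg hT.le _)
  have hone : ∀ z : ℝ, ∀ M : ℕ, 1 ≤ ∑ k ∈ range (M + 1), ch z k ^ 2 * T ^ k := by
    intro z M
    rw [sum_range_succ']
    have : 0 ≤ ∑ k ∈ range M, ch z (k + 1) ^ 2 * T ^ (k + 1) := sum_nonneg fun k _ => hnn z _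
    simp only [ch_zero, pow_zero]
    linarith
  have hb : ∀ M : ℕ, (∑ k ∈ range (M + 1), ch (A.x p) k ^ 2 * T ^ k) *
      (∑ k ∈ range (M + 1), ch (A.y p) k ^ 2 * T ^ k) ≤ A.C / (s - 1) := by
    intro M
    have := A.bound s hs hs2 {p} (by simpa using hp) (M + 1)
    simpa using this
  have hmono : ∀ z : ℝ, ∀ M : ℕ, ∑ k ∈ range M, ch z k ^ 2 * T ^ k ≤
      ∑ k ∈ range (M + 1), ch z k ^ 2 * T ^ k := fun z M => by
    rw [sum_range_succ]; linarith [hnn z M]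
  constructor
  · refine summable_of_sum_range_le (c := A.C / (s - 1)) (hnn _) fun M => ?_
    refine (hmono _ M).trans (le_trans ?_ (hb M))
    have h1 := hone (A.x p) M
    have h2 := hone (A.y p) M
    nlinarith
  · refine summable_of_sum_range_le (c := A.C / (s - 1)) (hnn _) fun M => ?_
    refine (hmono _ M).trans (le_trans ?_ (hb M))
    have h1 := hone (A.x p) M
    have h2 := hone (A.y p) M
    nlinarith

/-- the Rankin-Selberg factor -/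
noncomputable def S (z : ℝ) (p : ℕ) (s : ℝ) : ℝ := ∑' k, ch z k ^ 2 * (((p : ℕ) : ℝ) ^ (-s)) ^ k

lemma prod_S_le {s : ℝ} (hs : 1 < s) (hs2 : s ≤ 2) (T : Finset Nat.Primes)
    (hT : ∀ p ∈ T, (p : ℕ) ∈ A.Sp) :
    ∏ p ∈ T, (S (A.x p) p s * S (A.y p) p s) ≤ A.C / (s - 1) := by
  have ht : Tendsto (fun M : ℕ => ∏ p ∈ T, ((∑ k ∈ range M, ch (A.x p) k ^ 2 *
      (((p : ℕ) : ℝ) ^ (-s)) ^ k) * (∑ k ∈ range M, ch (A.y p) k ^ 2 * (((p : ℕ) : ℝ) ^ (-s)) ^ k)))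
      atTop (𝓝 (∏ p ∈ T, (S (A.x p) p s * S (A.y p) p s))) := by
    refine tendsto_finsetProd T fun p hp => ?_
    obtain ⟨h1, h2⟩ := A.summable_xy hs hs2 p (hT p hp)
    exact (h1.hasSum.tendsto_sum_nat).mul (h2.hasSum.tendsto_sum_nat)
  exact le_of_tendsto' ht (fun M => A.bound s hs hs2 T hT M)

/-- `x² + y²`. -/
noncomputable def w (p : ℕ) : ℝ := A.x p ^ 2 + A.y p ^ 2

lemma w_nonneg (p : ℕ) : 0 ≤ A.w p := by unfold w; positivity

lemma exp_le_prod_S {s : ℝ} (hs : 1 < s) (hs2 : s ≤ 2) (T : Finset Nat.Primes)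
    (hT : ∀ p ∈ T, (p : ℕ) ∈ A.Sp) :
    Real.exp (∑ p ∈ T, (A.w p * ((p : ℕ) : ℝ) ^ (-s) - 2 * A.w p * (((p : ℕ) : ℝ) ^ (-s)) ^ 2)) ≤
      A.C / (s - 1) := by
  refine le_trans ?_ (A.prod_S_le hs hs2 T hT)
  rw [Real.exp_sum]
  refine prod_le_prod (fun p _ => (Real.exp_pos _).le) fun p hp => ?_
  obtain ⟨h1, h2⟩ := A.summable_xy hs hs2 p (hT p hp)
  obtain ⟨hT0, hT1⟩ := rpow_bounds p hs.le
  obtain ⟨a1, a2⟩ := tsum_ch_sq hT0 (by linarith) h1
  obtain ⟨b1, b2⟩ := tsum_ch_sq hT0 (by linarith) h2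
  have := mul_le_mul a2 b2 (Real.exp_pos _).le (by linarith)
  rw [← Real.exp_add] at this
  refine le_trans (Real.exp_le_exp.mpr (le_of_eq ?_)) this
  unfold w
  ring

lemma sum_w_two_le (T : Finset Nat.Primes) (hT : ∀ p ∈ T, (p : ℕ) ∈ A.Sp) :
    ∑ p ∈ T, A.w p * ((p : ℕ) : ℝ) ^ (-2 : ℝ) ≤ 2 * Real.log A.C := by
  have h := A.exp_le_prod_S (s := 2) one_lt_two le_rfl T hT
  rw [show (2 : ℝ) - 1 = 1 by norm_num, div_one] at h
  have h2 := (Real.le_log_iff_exp_le (by linarith [A.C1])).mpr h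
  have h3 : ∀ p ∈ T, 1 / 2 * (A.w p * ((p : ℕ) : ℝ) ^ (-2 : ℝ)) ≤
      A.w p * ((p : ℕ) : ℝ) ^ (-2 : ℝ) - 2 * A.w p * (((p : ℕ) : ℝ) ^ (-2 : ℝ)) ^ 2 := by
    intro p hp
    have hp2 : (2 : ℝ) ≤ (p : ℕ) := by exact_mod_cast p.2.two_le
    have hT0 : 0 < ((p : ℕ) : ℝ) ^ (-2 : ℝ) := by positivity
    have hT1 : ((p : ℕ) : ℝ) ^ (-2 : ℝ) ≤ 1 / 4 := by
      rw [Real.rpow_neg (by positivity)]
      rw [show (2 : ℝ) = ((2 : ℕ) : ℝ) by norm_num, Real.rpow_natCast]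
      rw [show (1 : ℝ) / 4 = 4⁻¹ by norm_num]
      exact inv_anti₀ (by norm_num) (by nlinarith)
    have hw := A.w_nonneg p
    nlinarith [mul_nonneg hw hT0.le, mul_nonneg (mul_nonneg hw hT0.le) (sub_nonneg.mpr hT1)]
  have h4 := sum_le_sum h3
  rw [← mul_sum] at h4
  linarith

lemma rpow_sq_le (p : Nat.Primes) {s : ℝ} (hs : 1 ≤ s) :
    (((p : ℕ) : ℝ) ^ (-s)) ^ 2 ≤ ((p : ℕ) : ℝ) ^ (-2 : ℝ) := by
  have h2 : (2 : ℝ) ≤ (p : ℕ) := by exact_mod_cast p.2.two_le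
  rw [← Real.rpow_natCast, ← Real.rpow_mul (by positivity)]
  exact Real.rpow_le_rpow_of_exponent_le (by linarith) (by push_cast; linarith)

lemma sum_w_sq_le (T : Finset Nat.Primes) (hT : ∀ p ∈ T, (p : ℕ) ∈ A.Sp) {s : ℝ} (hs : 1 ≤ s) :
    ∑ p ∈ T, A.w p * (((p : ℕ) : ℝ) ^ (-s)) ^ 2 ≤ 2 * Real.log A.C :=
  (sum_le_sum fun p _ => mul_le_mul_of_nonneg_left (rpow_sq_le p hs) (A.w_nonneg p)).trans
    (A.sum_w_two_le T hT)

lemma sum_w_le {s : ℝ} (hs : 1 < s) (hs2 : s ≤ 2) (T : Finset Nat.Primes)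
    (hT : ∀ p ∈ T, (p : ℕ) ∈ A.Sp) :
    ∑ p ∈ T, A.w p * ((p : ℕ) : ℝ) ^ (-s) ≤ Real.log (1 / (s - 1)) + 5 * Real.log A.C := by
  have h := A.exp_le_prod_S hs hs2 T hT
  have hs1 : 0 < s - 1 := by linarith
  have hC : 0 < A.C := by linarith [A.C1]
  have h2 := (Real.le_log_iff_exp_le (by positivity)).mpr h
  have h3 : A.C / (s - 1) = A.C * (1 / (s - 1)) := by ring
  rw [h3, Real.log_mul hC.ne' (by positivity), sum_sub_distrib] at h2
  have h4 := A.sum_w_sq_le T hT hs.le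
  have h5 : ∑ p ∈ T, 2 * A.w p * (((p : ℕ) : ℝ) ^ (-s)) ^ 2 =
      2 * ∑ p ∈ T, A.w p * (((p : ℕ) : ℝ) ^ (-s)) ^ 2 := by
    rw [mul_sum]
    exact sum_congr rfl fun p _ => by ring
  rw [h5] at h2
  linarith

/-! ### Absolute convergence -/

/-- the term `b(m) m^{-s}` -/
noncomputable def f (s : ℝ) (m : ℕ) : ℝ := A.b m * (m : ℝ) ^ (-s)

lemma f_pow (s : ℝ) (p : Nat.Primes) (k : ℕ) :
    A.f s ((p : ℕ) ^ k) = A.b ((p : ℕ) ^ k) * (((p : ℕ) : ℝ) ^ (-s)) ^ k := by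
  unfold f
  congr 1
  push_cast
  rw [← Real.rpow_natCast, ← Real.rpow_natCast, ← Real.rpow_mul (by positivity),
    ← Real.rpow_mul (by positivity)]
  ring_nf

lemma f_one (s : ℝ) : A.f s 1 = 1 := by simp [f, A.one]

lemma f_zero (s : ℝ) : A.f s 0 = 0 := by simp [f, A.zero]

lemma f_mul (s : ℝ) {m n : ℕ} (h : m.Coprime n) : A.f s (m * n) = A.f s m * A.f s n := by
  unfold f
  rw [A.mul h]
  push_cast
  rw [Real.mul_rpow (by positivity) (by positivity)]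
  ring

open scoped Classical in
/-- An upper bound for the local sums. -/
lemma local_norm {s : ℝ} (hs : 1 < s) (hs2 : s ≤ 2) (p : Nat.Primes) :
    Summable (fun k => |A.f s ((p : ℕ) ^ k)|) ∧
    ∑' k, |A.f s ((p : ℕ) ^ k)| ≤ 1 + ((if (p : ℕ) ∈ A.Sp then 1 / 2 * ((S (A.x p) p s - 1) +
      (S (A.y p) p s - 1)) else 0) + 8 * ((p : ℕ) : ℝ) ^ (-s)) := by
  obtain ⟨hT0, hT1⟩ := rpow_bounds p hs.le
  set T := ((p : ℕ) : ℝ) ^ (-s) with hTdef
  have habs : ∀ k, |A.f s ((p : ℕ) ^ k)| = |A.b ((p : ℕ) ^ k)| * T ^ k := fun k => by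
    rw [A.f_pow, abs_mul, abs_of_nonneg (pow_nonneg hT0.le k)]
  by_cases hsp : (p : ℕ) ∈ A.Sp
  · obtain ⟨h1, h2⟩ := A.summable_xy hs hs2 p hsp
    rw [← hTdef] at h1 h2
    have hle : ∀ k, |A.f s ((p : ℕ) ^ k)| ≤ 1 / 2 * (ch (A.x p) k ^ 2 * T ^ k +
        ch (A.y p) k ^ 2 * T ^ k) := by
      intro k
      rw [habs, A.split p p.2 hsp, abs_mul]
      have h3 : |ch (A.x p) k| * |ch (A.y p) k| ≤ 1 / 2 * (ch (A.x p) k ^ 2 + ch (A.y p) k ^ 2) := by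
        nlinarith [sq_nonneg (|ch (A.x p) k| - |ch (A.y p) k|), sq_abs (ch (A.x p) k),
          sq_abs (ch (A.y p) k)]
      calc _ ≤ 1 / 2 * (ch (A.x p) k ^ 2 + ch (A.y p) k ^ 2) * T ^ k :=
            mul_le_mul_of_nonneg_right h3 (pow_nonneg hT0.le k)
        _ = _ := by ring
    have hs3 := (h1.add h2).mul_left (1 / 2 : ℝ)
    have hsum := Summable.of_nonneg_of_le (fun k => abs_nonneg _) hle hs3
    refine ⟨hsum, (hsum.tsum_le_tsum hle hs3).trans ?_⟩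
    rw [tsum_mul_left, h1.tsum_add h2, if_pos hsp]
    unfold S
    rw [← hTdef]
    linarith
  · rw [if_neg hsp]
    by_cases hin : (p : ℕ) ∈ A.In
    · obtain ⟨h1, h2⟩ := summable_two hT0 (by linarith : T < 1)
      have hle : ∀ k : ℕ, |A.f s ((p : ℕ) ^ k)| ≤ ((k : ℝ) + 1) * T ^ k := by
        intro k
        rw [habs, A.inert p p.2 hin]
        refine mul_le_mul_of_nonneg_right ?_ (pow_nonneg hT0.le k)
        rcases A.inert' p p.2 hin with h | h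
        · rw [h]
          exact (abs_ch_zero_le k).trans (by linarith [(Nat.cast_nonneg k : (0 : ℝ) ≤ k)])
        · rw [h, ch_two_eq, abs_of_nonneg (by positivity)]
      have hsum := Summable.of_nonneg_of_le (fun k => abs_nonneg _) hle h1
      refine ⟨hsum, (hsum.tsum_le_tsum hle h1).trans ?_⟩
      rw [h2, div_le_iff₀ (by nlinarith)]
      nlinarith [mul_nonneg hT0.le (sub_nonneg.mpr hT1), mul_nonneg hT0.le hT0.le,
        mul_nonneg (mul_nonneg hT0.le hT0.le) hT0.le]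
    · have h0 : ∀ k, k ≠ 0 → |A.f s ((p : ℕ) ^ k)| = 0 := by
        intro k hk
        obtain ⟨j, rfl⟩ := Nat.exists_eq_succ_of_ne_zero hk
        rw [habs, A.bad p p.2 hsp hin]
        simp
      refine ⟨summable_of_ne_finset_zero (s := {0}) fun k hk => h0 k (by simpa using hk), ?_⟩
      rw [tsum_eq_single 0 (fun k hk => h0 k hk)]
      rw [pow_zero, A.f_one]
      simp
      positivity

lemma sum_sub_one_le_prod {ι : Type*} (T : Finset ι) (a : ι → ℝ) (ha : ∀ i ∈ T, 1 ≤ a i) :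
    1 + ∑ i ∈ T, (a i - 1) ≤ ∏ i ∈ T, a i := by
  classical
  induction T using Finset.induction with
  | empty => simp
  | insert i T hi ih =>
    rw [sum_insert hi, prod_insert hi]
    have h1 := ih fun j hj => ha j (mem_insert_of_mem hj)
    have h2 := ha i (mem_insert_self i T)
    have h3 : 0 ≤ ∑ j ∈ T, (a j - 1) := sum_nonneg fun j hj => by
      linarith [ha j (mem_insert_of_mem hj)]
    nlinarith

lemma summable_f {s : ℝ} (hs : 1 < s) (hs2 : s ≤ 2) : Summable (fun m => |A.f s m|) := by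
  classical
  have hsum : ∀ {p : ℕ}, p.Prime → Summable (fun n : ℕ => ‖|A.f s (p ^ n)|‖) := by
    intro p hp
    simpa using (A.local_norm hs hs2 ⟨p, hp⟩).1
  have hmul : ∀ {m n : ℕ}, m.Coprime n → |A.f s (m * n)| = |A.f s m| * |A.f s n| := by
    intro m n h
    rw [A.f_mul s h, abs_mul]
  have hone : |A.f s 1| = 1 := by rw [A.f_one]; simp
  -- the bound
  have hpr : Summable fun p : Nat.Primes => ((p : ℕ) : ℝ) ^ (-s) :=
    Nat.Primes.summable_rpow.mpr (by linarith)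
  set B : ℝ := A.C / (s - 1) + 8 * ∑' p : Nat.Primes, ((p : ℕ) : ℝ) ^ (-s) with hB
  have hprod : ∀ T : Finset Nat.Primes, ∏ p ∈ T, ∑' k, |A.f s ((p : ℕ) ^ k)| ≤ Real.exp B := by
    intro T
    set ε : Nat.Primes → ℝ := fun p => (if (p : ℕ) ∈ A.Sp then 1 / 2 * ((S (A.x p) p s - 1) +
      (S (A.y p) p s - 1)) else 0) + 8 * ((p : ℕ) : ℝ) ^ (-s) with hε
    have hS1 : ∀ p : Nat.Primes, (p : ℕ) ∈ A.Sp → 1 ≤ S (A.x p) p s ∧ 1 ≤ S (A.y p) p s := by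
      intro p hp
      obtain ⟨h1, h2⟩ := A.summable_xy hs hs2 p hp
      obtain ⟨hT0, hT1⟩ := rpow_bounds p hs.le
      exact ⟨(tsum_ch_sq hT0 (by linarith) h1).1, (tsum_ch_sq hT0 (by linarith) h2).1⟩
    have hε0 : ∀ p, 0 ≤ ε p := by
      intro p
      have : 0 ≤ ((p : ℕ) : ℝ) ^ (-s) := (rpow_bounds p hs.le).1.le
      simp only [hε]
      split_ifs with hp
      · obtain ⟨h1, h2⟩ := hS1 p hp
        linarith
      · linarith
    have h1 : ∏ p ∈ T, ∑' k, |A.f s ((p : ℕ) ^ k)| ≤ ∏ p ∈ T, (1 + ε p) :=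
      prod_le_prod (fun p _ => tsum_nonneg fun k => abs_nonneg _) fun p _ =>
        (A.local_norm hs hs2 p).2
    refine h1.trans ((Real.prod_one_add_le_exp_sum T hε0).trans (Real.exp_le_exp.mpr ?_))
    rw [hε, sum_add_distrib, hB]
    refine add_le_add ?_ ?_
    · rw [← sum_filter]
      set T' := T.filter fun p : Nat.Primes => (p : ℕ) ∈ A.Sp with hT'
      have hT'' : ∀ p ∈ T', (p : ℕ) ∈ A.Sp := fun p hp => (mem_filter.mp hp).2
      have h2 := A.prod_S_le hs hs2 T' hT''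
      have h3 := sum_sub_one_le_prod T' (fun p => S (A.x p) p s * S (A.y p) p s) fun p hp => by
        obtain ⟨h1, h2⟩ := hS1 p (hT'' p hp)
        nlinarith
      have h4 : ∑ p ∈ T', 1 / 2 * ((S (A.x p) p s - 1) + (S (A.y p) p s - 1)) ≤
          ∑ p ∈ T', (S (A.x p) p s * S (A.y p) p s - 1) := by
        refine sum_le_sum fun p hp => ?_
        obtain ⟨h1, h2⟩ := hS1 p (hT'' p hp)
        nlinarith
      linarith
    · rw [← mul_sum]
      exact mul_le_mul_of_nonneg_left (hpr.sum_le_tsum T fun p _ => (rpow_bounds p hs.le).1.le)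
        (by norm_num)
  refine summable_of_sum_le (c := Real.exp B) (fun m => abs_nonneg _) fun F => ?_
  -- a finite set is contained in the factored numbers
  obtain ⟨n, hn⟩ : ∃ n, ∀ m ∈ F, m < n := ⟨F.sup id + 1, fun m hm =>
    Nat.lt_succ_of_le (le_sup (f := id) hm)⟩
  set P := Nat.primesBelow n with hP
  have hfac := EulerProduct.summable_and_hasSum_factoredNumbers_prod_filter_prime_tsum
    (f := fun m => |A.f s m|) hone (fun {m n} h => hmul h) hsum P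
  have hfil : P.filter Nat.Prime = P := filter_true_of_mem fun p hp => Nat.prime_of_mem_primesBelow hp
  have hle : ∑ m ∈ F, |A.f s m| ≤ ∏ p ∈ P with p.Prime, ∑' k, |A.f s (p ^ k)| := by
    rw [← hfac.2.tsum_eq]
    have h0 : ∑ m ∈ F, |A.f s m| = ∑ m ∈ F.filter (· ≠ 0), |A.f s m| := by
      rw [sum_filter_of_ne]
      intro m _ hm h0
      rw [h0, A.f_zero] at hm
      simp at hm
    rw [h0]
    have hmem : ∀ m ∈ F.filter (· ≠ 0), m ∈ Nat.factoredNumbers P := by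
      intro m hm
      rw [mem_filter] at hm
      rw [Nat.mem_factoredNumbers]
      refine ⟨hm.2, fun p hp => ?_⟩
      rw [hP, Nat.mem_primesBelow]
      exact ⟨lt_of_le_of_lt (Nat.le_of_mem_primeFactorsList hp) (hn m hm.1),
        Nat.prime_of_mem_primeFactorsList hp⟩
    have hS : Summable fun m : Nat.factoredNumbers P => |A.f s m| := by simpa using hfac.1
    rw [← sum_attach]
    have := hS.sum_le_tsum ((F.filter (· ≠ 0)).attach.map
      ⟨fun m => (⟨m.1, hmem m.1 m.2⟩ : Nat.factoredNumbers P), fun a b h => by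
        apply Subtype.ext; exact congrArg (fun z : Nat.factoredNumbers P => (z : ℕ)) h⟩)
      (fun _ _ => abs_nonneg _)
    rw [sum_map] at this
    exact this
  refine hle.trans ?_
  rw [hfil]
  have := hprod (P.attach.map ⟨fun p => (⟨p.1, Nat.prime_of_mem_primesBelow p.2⟩ : Nat.Primes),
    fun a b h => by apply Subtype.ext; exact congrArg (fun z : Nat.Primes => (z : ℕ)) h⟩)
  rw [prod_map] at this
  rw [← prod_attach]
  exact this

/-! ### The lower bound -/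

/-- The Asai series. -/
noncomputable def D (s : ℝ) : ℝ := ∑' m, A.f s m

lemma hasProd_D {s : ℝ} (hs : 1 < s) (hs2 : s ≤ 2) :
    HasProd (fun p : Nat.Primes => ∑' k, A.f s ((p : ℕ) ^ k)) (A.D s) :=
  EulerProduct.eulerProduct_hasProd (A.f_one s) (fun {m n} h => A.f_mul s h)
    (by simpa using A.summable_f hs hs2) (A.f_zero s)

open scoped Classical in
/-- Local lower bound. -/
lemma local_lower {s : ℝ} (hs : 1 < s) (hs2 : s ≤ 2) (p : Nat.Primes) (a : ℝ)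
    (ha : (p : ℕ) ∈ A.Sp ∧ a = 8 ∧ (A.x p = 2 ∨ A.x p = -2) ∧ A.y p = A.x p ∨
      (p : ℕ) ∈ A.In ∧ a = 2 ∧ A.x p = 2 ∨ a = 0) :
    Real.exp ((if (p : ℕ) ∈ A.Sp then (-(1 / 2 * (A.w p) * ((p : ℕ) : ℝ) ^ (-s))
      - 3 / 2 * A.w p * (((p : ℕ) : ℝ) ^ (-s)) ^ 2) else 0) - 5 * (((p : ℕ) : ℝ) ^ (-s)) ^ 2
      + a * ((p : ℕ) : ℝ) ^ (-s)) ≤ |∑' k, A.f s ((p : ℕ) ^ k)| := by
  obtain ⟨hT0, hT1⟩ := rpow_bounds p hs.le
  have hf : ∀ k, A.f s ((p : ℕ) ^ k) = A.b ((p : ℕ) ^ k) * (((p : ℕ) : ℝ) ^ (-s)) ^ k := A.f_pow s p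
  simp only [hf]
  set T := ((p : ℕ) : ℝ) ^ (-s) with hTdef
  have hT2 : 0 ≤ T ^ 2 := sq_nonneg _
  by_cases hsp : (p : ℕ) ∈ A.Sp
  · rw [if_pos hsp]
    obtain ⟨h1, h2⟩ := A.summable_xy hs hs2 p hsp
    rw [← hTdef] at h1 h2
    have hb : ∀ k, A.b ((p : ℕ) ^ k) = ch (A.x p) k * ch (A.y p) k := A.split p p.2 hsp
    simp only [hb]
    rcases ha with ⟨-, ha8, hx, hy⟩ | ⟨hin, -⟩ | ha0
    · rw [hy]
      refine le_trans (Real.exp_le_exp.mpr ?_) (exp_le_tsum_two hx hT0 hT1 h1)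
      have hw : A.w p = 8 := by
        unfold w
        rw [hy]
        rcases hx with h | h <;> rw [h] <;> norm_num
      rw [hw, ha8]
      nlinarith
    · exact absurd hin (A.disj p hsp)
    · refine le_trans (Real.exp_le_exp.mpr (le_of_eq ?_)) (exp_le_abs_tsum_ch_mul_ch hT0 hT1 h1 h2)
      rw [ha0]
      unfold w
      ring
  · rw [if_neg hsp]
    by_cases hin : (p : ℕ) ∈ A.In
    · have hb : ∀ k, A.b ((p : ℕ) ^ k) = ch (A.x p) k := A.inert p p.2 hin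
      simp only [hb]
      rcases ha with ⟨h, -⟩ | ⟨-, ha2, hx⟩ | ha0
      · exact absurd h hsp
      · rw [hx, ha2]
        refine le_trans (Real.exp_le_exp.mpr ?_) (exp_le_tsum_inert_two hT0 hT1).2
        linarith
      · rw [ha0]
        rcases A.inert' p p.2 hin with h | h
        · rw [h]
          refine le_trans (Real.exp_le_exp.mpr ?_) (exp_le_tsum_inert_zero hT0 hT1).2
          linarith
        · rw [h]
          refine le_trans (Real.exp_le_exp.mpr ?_) (exp_le_tsum_inert_two hT0 hT1).2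
          linarith
    · have h0 : ∑' k, A.b ((p : ℕ) ^ k) * T ^ k = 1 := by
        rw [tsum_eq_single 0]
        · simp [A.one]
        · intro k hk
          obtain ⟨j, rfl⟩ := Nat.exists_eq_succ_of_ne_zero hk
          rw [A.bad p p.2 hsp hin]
          simp
      rw [h0, abs_one, Real.exp_le_one_iff]
      rcases ha with ⟨h, -⟩ | ⟨h, -⟩ | ha0
      · exact absurd h hsp
      · exact absurd h hin
      · rw [ha0]
        linarith

/-- **Lower bound for the Asai series.** -/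
theorem lower (a : ℕ → ℝ) (ha : ∀ p : ℕ, p.Prime → (p ∈ A.Sp ∧ a p = 8 ∧ (A.x p = 2 ∨ A.x p = -2) ∧
      A.y p = A.x p ∨ p ∈ A.In ∧ a p = 2 ∧ A.x p = 2 ∨ a p = 0)) :
    ∃ B : ℝ, ∀ s : ℝ, 1 < s → s ≤ 2 →
      Real.exp ((∑' p : Nat.Primes, a p * ((p : ℕ) : ℝ) ^ (-s)) - 1 / 2 * Real.log (1 / (s - 1)) - B) ≤
        |A.D s| := by
  classical
  have h2 : Summable fun p : Nat.Primes => ((p : ℕ) : ℝ) ^ (-2 : ℝ) :=
    Nat.Primes.summable_rpow.mpr (by norm_num)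
  refine ⟨6 * Real.log A.C + 5 * ∑' p : Nat.Primes, ((p : ℕ) : ℝ) ^ (-2 : ℝ), fun s hs hs2 => ?_⟩
  have ha' : ∀ p : Nat.Primes, 0 ≤ a p ∧ a p ≤ 8 := by
    intro p
    rcases ha p p.2 with ⟨-, h, -⟩ | ⟨-, h, -⟩ | h <;> rw [h] <;> norm_num
  have hpr : Summable fun p : Nat.Primes => ((p : ℕ) : ℝ) ^ (-s) :=
    Nat.Primes.summable_rpow.mpr (by linarith)
  have has : Summable fun p : Nat.Primes => a p * ((p : ℕ) : ℝ) ^ (-s) := by
    refine Summable.of_nonneg_of_le (fun p => ?_) (fun p => ?_) (hpr.mul_left 8)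
    · exact mul_nonneg (ha' p).1 (rpow_bounds p hs.le).1.le
    · exact mul_le_mul_of_nonneg_right (ha' p).2 (rpow_bounds p hs.le).1.le
  have hlimr : Tendsto (fun T : Finset Nat.Primes => |∏ p ∈ T, ∑' k, A.f s ((p : ℕ) ^ k)|) atTop
      (𝓝 |A.D s|) := by
    have h := A.hasProd_D hs hs2
    rw [HasProd, SummationFilter.unconditional_filter] at h
    exact h.abs
  have hliml : Tendsto (fun T : Finset Nat.Primes => Real.exp ((∑ p ∈ T, a p * ((p : ℕ) : ℝ) ^ (-s))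
      - 1 / 2 * Real.log (1 / (s - 1)) -
        (6 * Real.log A.C + 5 * ∑' p : Nat.Primes, ((p : ℕ) : ℝ) ^ (-2 : ℝ)))) atTop
      (𝓝 (Real.exp ((∑' p : Nat.Primes, a p * ((p : ℕ) : ℝ) ^ (-s))
      - 1 / 2 * Real.log (1 / (s - 1)) -
        (6 * Real.log A.C + 5 * ∑' p : Nat.Primes, ((p : ℕ) : ℝ) ^ (-2 : ℝ))))) :=
    (Real.continuous_exp.tendsto _).comp ((has.hasSum.sub_const _).sub_const _)
  refine le_of_tendsto_of_tendsto' hliml hlimr fun T => ?_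
  rw [abs_prod]
  have hstep := prod_le_prod (s := T) (fun p _ => (Real.exp_pos _).le)
    (fun p _ => A.local_lower hs hs2 p (a p) (ha p p.2))
  rw [← Real.exp_sum] at hstep
  refine le_trans (Real.exp_le_exp.mpr ?_) hstep
  rw [sum_add_distrib, sum_sub_distrib, ← sum_filter]
  set T' := T.filter fun p : Nat.Primes => (p : ℕ) ∈ A.Sp with hT'
  have hT'' : ∀ p ∈ T', (p : ℕ) ∈ A.Sp := fun p hp => (mem_filter.mp hp).2
  rw [sum_sub_distrib]
  have e1 := A.sum_w_le hs hs2 T' hT''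
  have e2 := A.sum_w_sq_le T' hT'' hs.le
  have e3 : ∑ p ∈ T', -(1 / 2 * A.w p * ((p : ℕ) : ℝ) ^ (-s)) =
      -(1 / 2) * ∑ p ∈ T', A.w p * ((p : ℕ) : ℝ) ^ (-s) := by
    rw [mul_sum]; exact sum_congr rfl fun p _ => by ring
  have e4 : ∑ p ∈ T', 3 / 2 * A.w p * (((p : ℕ) : ℝ) ^ (-s)) ^ 2 =
      3 / 2 * ∑ p ∈ T', A.w p * (((p : ℕ) : ℝ) ^ (-s)) ^ 2 := by
    rw [mul_sum]; exact sum_congr rfl fun p _ => by ring
  have e5 : ∑ p ∈ T, 5 * (((p : ℕ) : ℝ) ^ (-s)) ^ 2 ≤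
      5 * ∑' p : Nat.Primes, ((p : ℕ) : ℝ) ^ (-2 : ℝ) := by
    rw [← mul_sum]
    refine mul_le_mul_of_nonneg_left ?_ (by norm_num)
    exact (sum_le_sum fun p _ => rpow_sq_le p hs.le).trans
      (h2.sum_le_tsum T fun p _ => by positivity)
  rw [e3, e4]
  have hlogC : 0 ≤ Real.log A.C := Real.log_nonneg A.C1
  linarith

/-- **The Asai series is unbounded near `s = 1`.** -/
theorem tendsto_abs_D (a : ℕ → ℝ) (ha : ∀ p : ℕ, p.Prime → (p ∈ A.Sp ∧ a p = 8 ∧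
      (A.x p = 2 ∨ A.x p = -2) ∧ A.y p = A.x p ∨ p ∈ A.In ∧ a p = 2 ∧ A.x p = 2 ∨ a p = 0))
    {δ : ℝ} (hδ : 1 / 2 < δ)
    (hdens : Tendsto (fun s : ℝ => (∑' p : Nat.Primes, a p * ((p : ℕ) : ℝ) ^ (-s)) /
      Real.log (1 / (s - 1))) (𝓝[>] 1) (𝓝 δ)) :
    Tendsto (fun s => |A.D s|) (𝓝[>] 1) atTop := by
  obtain ⟨B, hB⟩ := A.lower a ha
  have hlog : Tendsto (fun s : ℝ => Real.log (1 / (s - 1))) (𝓝[>] 1) atTop := by
    have h1 : Tendsto (fun s : ℝ => s - 1) (𝓝[>] 1) (𝓝[>] 0) := by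
      refine tendsto_nhdsWithin_iff.mpr ⟨?_, ?_⟩
      · have : Tendsto (fun s : ℝ => s - 1) (𝓝 1) (𝓝 (1 - 1)) := (continuous_id.sub continuous_const).tendsto 1
        rw [sub_self] at this
        exact this.mono_left nhdsWithin_le_nhds
      · filter_upwards [self_mem_nhdsWithin] with s hs
        simpa using hs
    have h2 : Tendsto (fun s : ℝ => 1 / (s - 1)) (𝓝[>] 1) atTop := by
      have h3 : Tendsto (fun s : ℝ => (s - 1)⁻¹) (𝓝[>] 1) atTop := tendsto_inv_nhdsGT_zero.comp h1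
      simpa only [one_div] using h3
    exact Real.tendsto_log_atTop.comp h2
  set η := (δ - 1 / 2) / 2 with hη
  have hη0 : 0 < η := by rw [hη]; linarith
  have hev : ∀ᶠ s in 𝓝[>] (1 : ℝ), η * Real.log (1 / (s - 1)) - B ≤
      (∑' p : Nat.Primes, a p * ((p : ℕ) : ℝ) ^ (-s)) - 1 / 2 * Real.log (1 / (s - 1)) - B := by
    have h1 := hdens.eventually (lt_mem_nhds (show 1 / 2 + η < δ by rw [hη]; linarith))
    filter_upwards [h1, hlog.eventually (eventually_gt_atTop 0)] with s hs hl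
    have := (lt_div_iff₀ hl).mp hs
    linarith
  have hmain : Tendsto (fun s : ℝ => Real.exp (η * Real.log (1 / (s - 1)) - B)) (𝓝[>] 1) atTop := by
    refine Real.tendsto_exp_atTop.comp ?_
    exact tendsto_atTop_add_const_right _ (-B) (hlog.const_mul_atTop hη0)
  refine tendsto_atTop_mono' _ ?_ hmain
  have h2 : ∀ᶠ s in 𝓝[>] (1 : ℝ), s ∈ Set.Ioc (1 : ℝ) 2 := Ioc_mem_nhdsGT one_lt_two
  filter_upwards [hev, h2] with s hs hs2
  exact (Real.exp_le_exp.mpr hs).trans (hB s hs2.1 hs2.2)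

end AsaiData

end Fermat.Agent.LT.Period
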