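import Fermat.Agent.LT.Period.Cheb
import Fermat.Agent.LT.Period.Log

/-!
# The weight function on primes for the lower bound of the Asai series
-/

set_option autoImplicit false

open Filter Topology Matrix WeierstrassCurve
open scoped Classical

namespace Fermat.Agent.LT.Period

open Fermat.Agent.FrobDensity Fermat.Agent.Frob

local notation "G3" => GL (Fin 2) (ZMod 3)
local notation "GQ" => (AlgebraicClosure ℚ ≃ₐ[ℚ] AlgebraicClosure ℚ)

lemma tendsto_log_inv : Tendsto (fun s : ℝ => Real.log (1 / (s - 1))) (𝓝[>] 1) atTop := by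
  have h1 : Tendsto (fun s : ℝ => s - 1) (𝓝[>] 1) (𝓝[>] 0) := by
    refine tendsto_nhdsWithin_iff.mpr ⟨?_, ?_⟩
    · have : Tendsto (fun s : ℝ => s - 1) (𝓝 1) (𝓝 (1 - 1)) :=
        (continuous_id.sub continuous_const).tendsto 1
      rw [sub_self] at this
      exact this.mono_left nhdsWithin_le_nhds
    · filter_upwards [self_mem_nhdsWithin] with s hs
      simpa using hs
  have h2 : Tendsto (fun s : ℝ => 1 / (s - 1)) (𝓝[>] 1) atTop := by
    have h3 : Tendsto (fun s : ℝ => (s - 1)⁻¹) (𝓝[>] 1) atTop := tendsto_inv_nhdsGT_zero.comp h1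
    simpa only [one_div] using h3
  exact Real.tendsto_log_atTop.comp h2

/-- The weights: `8` if `ρ(Frob_p) = ±1`, `2` if it is a reflection, `0` otherwise or if `p ∣ N`. -/
noncomputable def aw (ρ : GQ →* G3) (N : ℕ) (p : ℕ) : ℝ :=
  if p ∣ N then 0 else (if p ∈ FrobIn ρ pmOne then 8 else if p ∈ FrobIn ρ refl3 then 2 else 0)

/-- The two sets are disjoint. -/
lemma not_mem_both {ρ : GQ →* G3} {p : ℕ} (h1 : p ∈ FrobIn ρ pmOne) (h2 : p ∈ FrobIn ρ refl3) :
    False := by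
  obtain ⟨hp, A, hA, hI, σ, hσ, h⟩ := h1
  have h3 := (mem_FrobIn_iff ρ refl3_conj hp hA hI hσ).mp h2
  have hd : (ρ σ).1.det = -1 := h3.2
  rcases h with h | h
  · rw [h] at hd
    simp at hd
    revert hd
    decide
  · rw [h] at hd
    simp at hd
    revert hd
    decide

variable {ρ : GQ →* G3}

theorem tendsto_aw (hρ : Continuous ρ) (hsurj : Function.Surjective ρ) {N : ℕ} (hN : N ≠ 0) :
    Tendsto (fun s : ℝ => (∑' p : Nat.Primes, aw ρ N p * ((p : ℕ) : ℝ) ^ (-s)) /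
      Real.log (1 / (s - 1))) (𝓝[>] 1) (𝓝 (5 / 6)) := by
  have h1 := tendsto_pmOne hρ hsurj
  have h2 := tendsto_refl3 hρ hsurj
  set a₁ : ℕ → ℝ := fun p => if p ∈ FrobIn ρ pmOne then 1 else 0 with ha₁
  set a₂ : ℕ → ℝ := fun p => if p ∈ FrobIn ρ refl3 then 1 else 0 with ha₂
  have hb₁ : ∀ n, |8 * a₁ n| ≤ 10 := fun n => by
    simp only [ha₁]; split_ifs <;> norm_num
  have hb₂ : ∀ n, |2 * a₂ n| ≤ 10 := fun n => by
    simp only [ha₂]; split_ifs <;> norm_num
  set a₃ : ℕ → ℝ := fun p => 8 * a₁ p + 2 * a₂ p with ha₃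
  have hb₃ : ∀ n, |a₃ n| ≤ 10 := fun n => by
    simp only [ha₃, ha₁, ha₂]; split_ifs <;> norm_num
  have hb : ∀ n, |aw ρ N n| ≤ 10 := fun n => by
    unfold aw; split_ifs <;> norm_num
  have hPS : ∀ s : ℝ, 1 < s → PS a₃ s = 8 * PS a₁ s + 2 * PS a₂ s := by
    intro s hs
    rw [← PS_const_mul, ← PS_const_mul]
    unfold PS
    rw [← (summable_PS hb₁ hs).tsum_add (summable_PS hb₂ hs)]
    exact tsum_congr fun p => by ring
  obtain ⟨B, hB⟩ := exists_PS_sub_le hb hb₃ (T := N.primeFactors) (fun p hp hpN => by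
    have hpN' : ¬ p ∣ N := fun h => hpN (Nat.mem_primeFactors.mpr ⟨hp, h, hN⟩)
    unfold aw
    rw [if_neg hpN']
    simp only [ha₃, ha₁, ha₂]
    split_ifs with h h'
    · exact (not_mem_both h h').elim
    · norm_num
    · norm_num
    · norm_num)
  have h3 : Tendsto (fun s : ℝ => PS a₃ s / Real.log (1 / (s - 1))) (𝓝[>] 1) (𝓝 (5 / 6)) := by
    have h4 := (h1.const_mul 8).add (h2.const_mul 2)
    rw [show (8 : ℝ) * (1 / 24) + 2 * (1 / 4) = 5 / 6 by norm_num] at h4
    refine h4.congr' ?_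
    filter_upwards [self_mem_nhdsWithin] with s hs
    rw [hPS s hs]
    ring
  have h5 : Tendsto (fun s : ℝ => B / Real.log (1 / (s - 1))) (𝓝[>] 1) (𝓝 0) :=
    tendsto_log_inv.const_div_atTop B
  have h6 : Tendsto (fun s : ℝ => (PS (aw ρ N) s - PS a₃ s) / Real.log (1 / (s - 1))) (𝓝[>] 1)
      (𝓝 0) := by
    refine squeeze_zero_norm' ?_ h5
    filter_upwards [self_mem_nhdsWithin, tendsto_log_inv.eventually (eventually_gt_atTop 0)]
      with s hs hl
    rw [norm_div, Real.norm_eq_abs, Real.norm_eq_abs, abs_of_pos hl]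
    exact div_le_div_of_nonneg_right (hB s hs) hl.le
  have h7 := h3.add h6
  rw [add_zero] at h7
  refine h7.congr fun s => ?_
  change PS a₃ s / _ + (PS (aw ρ N) s - PS a₃ s) / _ = PS (aw ρ N) s / _
  ring

end Fermat.Agent.LT.Period
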