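import Fermat.Agent.LT.Period.IdealCyc
import Fermat.Agent.LT.KForm

/-!
# (P5) for `KForm`
-/

set_option autoImplicit false

open NumberField Ideal IsDedekindDomain

namespace Fermat.Agent.LT.Period

/-- `ℚ(√-3)` is the third cyclotomic field. -/
theorem isCyclotomic_of_sq {K : Type*} [Field K] [NumberField K] (hf : Module.finrank ℚ K = 2)
    {s : K} (hs : s ^ 2 = -3) : IsCyclotomicExtension {3} ℚ K := by
  set ζ : K := (-1 + s) / 2 with hζ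
  have h1 : ζ ^ 2 + ζ + 1 = 0 := by
    rw [hζ]; linear_combination (1 / 4 : K) * hs
  have h3 : ζ ^ 3 = 1 := by linear_combination (ζ - 1) * h1
  have hne : ζ ≠ 1 := by
    intro h
    rw [h] at h1
    norm_num at h1
  have hprim : IsPrimitiveRoot ζ 3 := by
    rw [IsPrimitiveRoot.iff_orderOf]
    exact orderOf_eq_prime h3 hne
  rw [IsCyclotomicExtension.iff_adjoin_eq_top]
  refine ⟨fun n hn _ => ⟨ζ, by rw [Set.mem_singleton_iff.1 hn]; exact hprim⟩, ?_⟩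
  have hsimple : IsSimpleOrder (Subalgebra ℚ K) :=
    Subalgebra.isSimpleOrder_of_finrank_prime ℚ K (by rw [hf]; exact Nat.prime_two)
  rcases hsimple.eq_bot_or_eq_top (Algebra.adjoin ℚ {b : K | ∃ n ∈ ({3} : Set ℕ), n ≠ 0 ∧ b ^ n = 1})
    with h | h
  · exfalso
    have hm : ζ ∈ (⊥ : Subalgebra ℚ K) := by
      rw [← h]
      exact Algebra.subset_adjoin ⟨3, rfl, by norm_num, h3⟩
    obtain ⟨q, hq⟩ := Algebra.mem_bot.1 hm
    rw [← hq] at h1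
    have h2 : (algebraMap ℚ K) (q ^ 2 + q + 1) = 0 := by
      rw [map_add, map_add, map_pow, map_one]; exact h1
    have h4 : q ^ 2 + q + 1 = 0 := (map_eq_zero _).1 h2
    nlinarith [sq_nonneg (q + 1 / 2)]
  · exact h

variable {K : Type} [Field K] [NumberField K]

omit [NumberField K] in
/-- The coefficients of a `KForm` are a Hecke system. -/
theorem KForm_isHecke {σ : K →+* ℂ} {s : 𝓞 K} {N : ℕ} (f : KForm σ s N) :
    IsHecke (N : 𝓞 K) f.lam :=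
  ⟨f.lam_one, f.lam_unit, f.lam_bad, f.lam_hecke₁, f.lam_hecke₂⟩

/-- **(P5)** in the form used by the assembly of the period block. -/
theorem exists_asaiData {σ : K →+* ℂ} {s : 𝓞 K} {N : ℕ} (hK : Module.finrank ℚ K = 2)
    (hs : s ^ 2 = -3) (h3 : 3 ∣ N) (F : KForm σ s N)
    (hin : ∀ p : ℕ, p.Prime → p % 3 = 2 → ¬ p ∣ N → F.lam (p : 𝓞 K) = 0 ∨ F.lam (p : 𝓞 K) = 2)
    (hb : ∃ C : ℝ, 1 ≤ C ∧ ∀ t : ℝ, 1 < t → t ≤ 2 → ∀ T : Finset (𝓞 K),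
      ∑ b ∈ T, F.lam b ^ 2 * (‖σ b‖ ^ 2) ^ (-t) ≤ C / (t - 1)) :
    ∃ A : AsaiData, (∀ m : ℕ, A.b m = F.lam (m : 𝓞 K)) ∧ A.Sp = {p | p % 3 = 1 ∧ ¬ p ∣ N} ∧
      A.In = {p | p % 3 = 2 ∧ ¬ p ∣ N} ∧
      (∀ p : ℕ, p.Prime → p ∈ A.Sp → ∃ ϖ ϖ' : 𝓞 K, Prime ϖ ∧ Prime ϖ' ∧ ϖ * ϖ' = p ∧
        A.x p = F.lam ϖ ∧ A.y p = F.lam ϖ') ∧
      (∀ p : ℕ, p.Prime → p ∈ A.In → A.x p = F.lam (p : 𝓞 K)) := by
  have hs' : (s : K) ^ 2 = -3 := by
    have h := congrArg (algebraMap (𝓞 K) K) hs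
    rw [map_pow, map_neg, map_ofNat] at h
    exact h
  have : IsCyclotomicExtension {3} ℚ K := isCyclotomic_of_sq hK hs'
  obtain ⟨C, hC, hb⟩ := hb
  have hb' : ∀ t : ℝ, 1 < t → t ≤ 2 → ∀ B : Finset (𝓞 K), (∀ b ∈ B, b ≠ 0) →
      ∑ b ∈ B, F.lam b ^ 2 * nmR K b ^ (-t) ≤ C / (t - 1) := by
    intro t ht ht2 B _
    refine le_trans (le_of_eq ?_) (hb t ht ht2 B)
    exact Finset.sum_congr rfl fun b _ => by rw [norm_sq_eq K σ]
  refine ⟨asaiData K (KForm_isHecke F) h3 hin C hC hb', fun m => rfl, rfl, rfl, ?_, ?_⟩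
  · intro p hp hpS
    obtain ⟨h1, h2, -, -, hmul, -, -⟩ := pi_split K hp hpS.1
    exact ⟨pi₁ K p, pi₂ K p, h1, h2, hmul, rfl, rfl⟩
  · intro p hp hpI
    exact asaiData_x_inert K _ _ _ _ _ _ hpI.1

end Fermat.Agent.LT.Period
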