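import Fermat.Agent.LT.Unfold

/-!
# Weights of subgroups of finite index

A weight of a subgroup of finite index `k`, divided by `k`, is a weight of the group.
-/

set_option autoImplicit false

open MeasureTheory ENNReal MulAction

namespace Fermat.Agent.LT.Period

variable {G Z : Type*} [Group G] [MeasurableSpace Z] [MulAction G Z]

lemma tsum_subgroup_weight (H : Subgroup G) {v : Z → ℝ≥0∞} (hv : ∀ z, ∑' h : H, v (h • z) = 1)
    (z : Z) : ∑' g : G, v (g • z) = ENat.card (G ⧸ H) := by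
  rw [← (Equiv.inv G).tsum_eq, ← (IsWeight.cosetEquiv H).tsum_eq, ENNReal.tsum_prod']
  have h1 : ∀ r : G ⧸ H, ∑' h : H, v ((Equiv.inv G (IsWeight.cosetEquiv H (r, h))) • z) = 1 := by
    intro r
    rw [← hv (r.out⁻¹ • z), ← (Equiv.inv H).tsum_eq]
    refine tsum_congr fun h => ?_
    congr 1
    change ((r.out * ((h⁻¹ : H) : G))⁻¹) • z = (h : G) • r.out⁻¹ • z
    rw [mul_inv_rev, mul_smul, Subgroup.coe_inv, inv_inv]
  rw [tsum_congr h1, ENNReal.tsum_const, mul_one]

/-- Subgroups `P ≤ Q` of an ambient group. -/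
theorem isWeight_div {P Q : Subgroup G} (hPQ : P ≤ Q) (hfin : P.relIndex Q ≠ 0) {v : Z → ℝ≥0∞}
    (hv : IsWeight P v) : IsWeight Q (fun z => (P.relIndex Q : ℝ≥0∞)⁻¹ * v z) where
  meas := hv.meas.const_mul _
  sum_eq z := by
    have h1 : ∀ z, ∑' h : P.subgroupOf Q, v (h • z) = 1 := by
      intro z
      rw [← hv.sum_eq z, ← (Subgroup.subgroupOfEquivOfLe hPQ).toEquiv.tsum_eq]
      rfl
    have h2 := tsum_subgroup_weight (P.subgroupOf Q) h1 z
    rw [ENNReal.tsum_mul_left, h2]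
    have h3 : Nat.card (Q ⧸ P.subgroupOf Q) = P.relIndex Q := rfl
    have hF : Finite (Q ⧸ P.subgroupOf Q) := Nat.finite_of_card_ne_zero (h3 ▸ hfin)
    have h4 : ENat.card (Q ⧸ P.subgroupOf Q) = (P.relIndex Q : ℕ∞) := by
      rw [← h3, ENat.card_eq_coe_natCard]
    rw [h4, ENat.toENNReal_coe]
    exact ENNReal.inv_mul_cancel (by exact_mod_cast hfin) (ENNReal.natCast_ne_top _)

end Fermat.Agent.LT.Period
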