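import Fermat.Agent.LT.KForm

/-!
# The Mellin transform of `K₀` and of a series `∑ lam m * y * K₀ (κ m y)`

* `mell s = ∫_0^∞ K₀ t t^(s-1) dt`, `integrableOn_mell` (`0 < s`), `bK0_two_le_mell` (`1 ≤ s`);
* `integral_bK0_mul` : `∫_0^∞ K₀ (c y) y^(s-1) dy = c^(-s) mell s`;
* `integral_tsum_bK0` : `∫_0^∞ (∑ lam m * (y * K₀ (κ m y))) y^(s-2) dy
    = κ^(-s) * mell s * ∑ lam m * m^(-s)`.
-/

set_option autoImplicit false

open MeasureTheory Set Filter Topology

namespace Fermat.Agent.LT.Period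

/-! ### Elementary facts on `K₀` -/

lemma bK0_pos {y : ℝ} (hy : 0 < y) : 0 < bK0 y := half_pos (bkR_pos 0 hy)

lemma bK0_zero : bK0 0 = 0 := by
  have h : (bkr 0 0) = fun _ => (1 : ℝ) := by
    funext t
    simp [bkr]
  rw [bK0, bkR, h, integral_const]
  simp [Measure.real]

lemma bK0_anti {y₀ y : ℝ} (h₀ : 0 < y₀) (h : y₀ ≤ y) : bK0 y ≤ bK0 y₀ :=
  div_le_div_of_nonneg_right (bkR_antitone 0 h₀ h) zero_le_two

lemma continuousOn_bK0 : ContinuousOn bK0 (Ioi 0) := by
  have h1 : bK0 = fun y => (besselK 0 y).re := by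
    funext y
    have h := besselK_ofReal 0 y
    rw [Complex.ofReal_zero] at h
    rw [h, Complex.ofReal_re, bK0]
  rw [h1]
  exact Complex.continuous_re.comp_continuousOn (continuousOn_besselK 0)

lemma integrable_exp_neg_abs {s : ℝ} (hs : 0 < s) : Integrable (fun t : ℝ => Real.exp (-s * |t|)) := by
  rw [← integrableOn_univ, ← Iic_union_Ioi (a := (0 : ℝ)), integrableOn_union]
  constructor
  · refine (integrableOn_exp_mul_Iic hs 0).congr_fun (fun t ht => ?_) measurableSet_Iic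
    simp only [abs_of_nonpos (show t ≤ 0 from ht)]
    ring_nf
  · refine (exp_neg_integrableOn_Ioi 0 hs).congr_fun (fun t ht => ?_) measurableSet_Ioi
    simp only [abs_of_pos (show 0 < t from ht)]

lemma integrable_cosh_rpow {s : ℝ} (hs : 0 < s) :
    Integrable (fun t : ℝ => (1 / Real.cosh t) ^ s) := by
  refine ((integrable_exp_neg_abs hs).const_mul (2 ^ s)).mono' ?_ ?_
  · have hc : Continuous fun t : ℝ => (1 / Real.cosh t) ^ s := by
      apply Continuous.rpow_const
      · exact continuous_const.div Real.continuous_cosh (fun t => (Real.cosh_pos t).ne')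
      · intro t
        exact Or.inr hs.le
    exact hc.aestronglyMeasurable
  · refine ae_of_all _ fun t => ?_
    have h1 : 0 < Real.cosh t := Real.cosh_pos t
    rw [Real.norm_of_nonneg (by positivity)]
    have h2 : 1 / Real.cosh t ≤ 2 * Real.exp (-|t|) := by
      have h3 := exp_abs_half_le_cosh t
      rw [div_le_iff₀ h1, Real.exp_neg]
      have h4 : 0 < Real.exp |t| := Real.exp_pos _
      rw [mul_assoc, inv_mul_eq_div, ← mul_div_assoc, le_div_iff₀ h4]
      linarith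
    calc (1 / Real.cosh t) ^ s ≤ (2 * Real.exp (-|t|)) ^ s :=
          Real.rpow_le_rpow (by positivity) h2 hs.le
      _ = 2 ^ s * Real.exp (-s * |t|) := by
          rw [Real.mul_rpow (by norm_num) (Real.exp_pos _).le, ← Real.exp_mul]
          ring_nf

/-- joint integrability of `y^(s-1) exp (-y cosh t)` -/
lemma integrable_joint {s : ℝ} (hs : 0 < s) :
    Integrable (fun p : ℝ × ℝ => p.1 ^ (s - 1) * Real.exp (-(Real.cosh p.2 * p.1)))
      ((volume.restrict (Ioi (0 : ℝ))).prod volume) := by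
  have hmeas : AEStronglyMeasurable
      (fun p : ℝ × ℝ => p.1 ^ (s - 1) * Real.exp (-(Real.cosh p.2 * p.1)))
      ((volume.restrict (Ioi (0 : ℝ))).prod volume) := by
    apply Measurable.aestronglyMeasurable
    apply Measurable.mul
    · exact measurable_fst.pow_const _
    · exact Real.measurable_exp.comp
        ((Real.measurable_cosh.comp measurable_snd).mul measurable_fst).neg
  rw [integrable_prod_iff' hmeas]
  constructor
  · refine ae_of_all _ fun t => ?_
    have h1 := integrableOn_rpow_mul_exp_neg_mul_rpow (s := s - 1) (p := 1) (b := Real.cosh t)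
      (by linarith) one_pos (Real.cosh_pos t)
    refine h1.congr_fun (fun y _ => ?_) measurableSet_Ioi
    simp only [Real.rpow_one]
    ring_nf
  · have h2 : (fun t : ℝ => ∫ y in Ioi (0 : ℝ),
        ‖y ^ (s - 1) * Real.exp (-(Real.cosh t * y))‖) =
        fun t => (1 / Real.cosh t) ^ s * Real.Gamma s := by
      funext t
      rw [← Real.integral_rpow_mul_exp_neg_mul_Ioi hs (Real.cosh_pos t)]
      refine setIntegral_congr_fun measurableSet_Ioi (fun y hy => ?_)
      have hy0 : 0 < y := hy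
      exact Real.norm_of_nonneg (by positivity)
    simp only
    rw [h2]
    exact (integrable_cosh_rpow hs).mul_const _

/-- **Integrability of `K₀ t t^(s-1)`.** -/
lemma integrableOn_mell {s : ℝ} (hs : 0 < s) :
    IntegrableOn (fun t => bK0 t * t ^ (s - 1)) (Ioi 0) := by
  have h1 := ((integrable_joint hs).integral_prod_left).div_const 2
  refine h1.congr ?_
  refine (ae_restrict_iff' measurableSet_Ioi).mpr (ae_of_all _ fun y _ => ?_)
  change (∫ t : ℝ, y ^ (s - 1) * Real.exp (-(Real.cosh t * y))) / 2 = bK0 y * y ^ (s - 1)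
  rw [integral_const_mul, bK0, bkR, div_mul_eq_mul_div, mul_comm]
  congr 2
  apply integral_congr_ae
  refine ae_of_all _ fun t => ?_
  simp only [bkr]
  congr 1
  ring

/-- The Mellin transform of `K₀`. -/
noncomputable def mell (s : ℝ) : ℝ := ∫ t in Ioi (0 : ℝ), bK0 t * t ^ (s - 1)

lemma mell_nonneg (s : ℝ) : 0 ≤ mell s :=
  setIntegral_nonneg measurableSet_Ioi fun _t ht =>
    mul_nonneg (bK0_pos ht).le (Real.rpow_nonneg (le_of_lt ht) _)

/-- a lower bound for the Mellin transform, uniform in `1 ≤ s` -/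
lemma bK0_two_le_mell {s : ℝ} (hs : 1 ≤ s) : bK0 2 ≤ mell s := by
  have hs0 : 0 < s := by linarith
  have h1 : ∫ _ in Ioc (1 : ℝ) 2, bK0 2 = bK0 2 := by
    rw [setIntegral_const]
    simp only [Measure.real, Real.volume_Ioc, smul_eq_mul]
    norm_num
  rw [← h1, mell]
  have hsub : Ioc (1 : ℝ) 2 ⊆ Ioi 0 := fun t ht => one_pos.trans ht.1
  refine le_trans ?_ (setIntegral_mono_set (integrableOn_mell hs0) ?_ hsub.eventuallyLE)
  · refine setIntegral_mono_on ?_ ((integrableOn_mell hs0).mono_set hsub) measurableSet_Ioc ?_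
    · simp
    · intro t ht
      have ht0 : 0 < t := one_pos.trans ht.1
      have h2 : bK0 2 ≤ bK0 t := bK0_anti ht0 ht.2
      have h3 : 1 ≤ t ^ (s - 1) := Real.one_le_rpow ht.1.le (by linarith)
      have h4 : 0 < bK0 t := bK0_pos ht0
      nlinarith
  · refine (ae_restrict_iff' measurableSet_Ioi).mpr (ae_of_all _ fun t ht => ?_)
    exact mul_nonneg (bK0_pos ht).le (Real.rpow_nonneg (le_of_lt ht) _)

lemma mell_pos {s : ℝ} (hs : 1 ≤ s) : 0 < mell s :=
  (bK0_pos two_pos).trans_le (bK0_two_le_mell hs)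

/-- the integrand after scaling -/
lemma scale_aux {s c y : ℝ} (hc : 0 < c) (hy : 0 < y) :
    bK0 (c * y) * y ^ (s - 1) = c ^ (1 - s) * (bK0 (c * y) * (c * y) ^ (s - 1)) := by
  rw [Real.mul_rpow hc.le hy.le]
  have h1 : c ^ (1 - s) * c ^ (s - 1) = 1 := by
    rw [← Real.rpow_add hc]
    simp
  calc bK0 (c * y) * y ^ (s - 1) = (c ^ (1 - s) * c ^ (s - 1)) * (bK0 (c * y) * y ^ (s - 1)) := by
        rw [h1, one_mul]
    _ = _ := by ring

lemma integrableOn_bK0_mul {s c : ℝ} (hs : 0 < s) (hc : 0 < c) :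
    IntegrableOn (fun y => bK0 (c * y) * y ^ (s - 1)) (Ioi 0) := by
  have h1 := integrableOn_mell hs
  rw [← mul_zero c] at h1
  rw [← integrableOn_Ioi_comp_mul_left_iff _ _ hc] at h1
  have h2 : IntegrableOn (fun y => c ^ (1 - s) * (bK0 (c * y) * (c * y) ^ (s - 1))) (Ioi 0) :=
    h1.const_mul (c ^ (1 - s))
  exact h2.congr_fun (fun y hy => (scale_aux hc hy).symm) measurableSet_Ioi

/-- **Scaling.** -/
theorem integral_bK0_mul (s : ℝ) {c : ℝ} (hc : 0 < c) :
    ∫ y in Ioi (0 : ℝ), bK0 (c * y) * y ^ (s - 1) = c ^ (-s) * mell s := by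
  have h1 : ∫ y in Ioi (0 : ℝ), bK0 (c * y) * y ^ (s - 1) =
      ∫ y in Ioi (0 : ℝ), c ^ (1 - s) * (fun t => bK0 t * t ^ (s - 1)) (c * y) :=
    setIntegral_congr_fun measurableSet_Ioi fun y hy => scale_aux hc hy
  rw [h1, integral_const_mul, integral_comp_mul_left_Ioi (fun t => bK0 t * t ^ (s - 1)) 0 hc,
    mul_zero, smul_eq_mul, mell, ← mul_assoc]
  congr 1
  rw [← Real.rpow_neg_one c, ← Real.rpow_add hc]
  congr 1
  ring

/-! ### The series -/

/-- one term of the series, multiplied by `y ^ (s - 2)` -/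
noncomputable def mterm (lam : ℕ → ℝ) (κ s : ℝ) (m : ℕ) (y : ℝ) : ℝ :=
  lam m * (y * bK0 (κ * m * y)) * y ^ (s - 2)

lemma mterm_eq (lam : ℕ → ℝ) (κ s : ℝ) (m : ℕ) {y : ℝ} (hy : 0 < y) :
    mterm lam κ s m y = lam m * (bK0 (κ * m * y) * y ^ (s - 1)) := by
  have h : y ^ (s - 1) = y * y ^ (s - 2) := by
    rw [show s - 1 = 1 + (s - 2) by ring, Real.rpow_add hy, Real.rpow_one]
  rw [mterm, h]
  ring

lemma integrableOn_mterm (lam : ℕ → ℝ) {κ s : ℝ} (hs : 0 < s) (hκ : 0 < κ) (m : ℕ) :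
    IntegrableOn (mterm lam κ s m) (Ioi 0) := by
  rcases Nat.eq_zero_or_pos m with rfl | hm
  · refine (integrableOn_zero).congr_fun (fun y _ => ?_) measurableSet_Ioi
    simp [mterm, bK0_zero]
  · have hc : 0 < κ * m := by positivity
    have h2 : IntegrableOn (fun y => lam m * (bK0 (κ * m * y) * y ^ (s - 1))) (Ioi 0) :=
      (integrableOn_bK0_mul hs hc).const_mul (lam m)
    exact h2.congr_fun (fun y hy => (mterm_eq lam κ s m hy).symm) measurableSet_Ioi

lemma integral_mterm (lam : ℕ → ℝ) {κ s : ℝ} (hs : 0 < s) (hκ : 0 < κ) (m : ℕ) :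
    ∫ y in Ioi (0 : ℝ), mterm lam κ s m y = κ ^ (-s) * mell s * (lam m * (m : ℝ) ^ (-s)) := by
  rcases Nat.eq_zero_or_pos m with rfl | hm
  · have h1 : ∫ y in Ioi (0 : ℝ), mterm lam κ s 0 y = 0 := by
      simp [mterm, bK0_zero]
    rw [h1, Nat.cast_zero, Real.zero_rpow (by linarith : -s ≠ 0)]
    ring
  · have hc : 0 < κ * m := by positivity
    have h1 : ∫ y in Ioi (0 : ℝ), mterm lam κ s m y =
        ∫ y in Ioi (0 : ℝ), lam m * (bK0 (κ * m * y) * y ^ (s - 1)) :=
      setIntegral_congr_fun measurableSet_Ioi fun y hy => mterm_eq lam κ s m hy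
    rw [h1, integral_const_mul, integral_bK0_mul s hc, Real.mul_rpow hκ.le (Nat.cast_nonneg m)]
    ring

lemma integral_norm_mterm (lam : ℕ → ℝ) {κ s : ℝ} (hs : 0 < s) (hκ : 0 < κ) (m : ℕ) :
    ∫ y in Ioi (0 : ℝ), ‖mterm lam κ s m y‖ =
      κ ^ (-s) * mell s * (|lam m| * (m : ℝ) ^ (-s)) := by
  rw [← integral_mterm (fun m => |lam m|) hs hκ m]
  refine setIntegral_congr_fun measurableSet_Ioi fun y hy => ?_
  have hy0 : 0 < y := hy
  simp only [mterm]
  rw [norm_mul, norm_mul, Real.norm_eq_abs, Real.norm_of_nonneg (Real.rpow_nonneg hy0.le _)]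
  congr 2
  rw [Real.norm_of_nonneg]
  rcases Nat.eq_zero_or_pos m with rfl | hm
  · simp [bK0_zero]
  · exact mul_nonneg hy0.le (bK0_pos (by positivity)).le

/-- **The Mellin transform of `∑ lam m * (y * K₀ (κ m y))`.** -/
theorem hasSum_integral_bK0 {lam : ℕ → ℝ} {κ s : ℝ} (hs : 0 < s) (hκ : 0 < κ)
    (hsum : Summable fun m : ℕ => |lam m| * (m : ℝ) ^ (-s)) :
    HasSum (fun m : ℕ => κ ^ (-s) * mell s * (lam m * (m : ℝ) ^ (-s)))
      (∫ y in Ioi (0 : ℝ), (∑' m : ℕ, lam m * (y * bK0 (κ * m * y))) * y ^ (s - 2)) := by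
  have h1 := hasSum_integral_of_summable_integral_norm
    (μ := volume.restrict (Ioi (0 : ℝ))) (F := mterm lam κ s)
    (fun m => integrableOn_mterm lam hs hκ m) (by
      simp only [integral_norm_mterm lam hs hκ]
      exact hsum.mul_left _)
  simp only [integral_mterm lam hs hκ] at h1
  have h2 : ∀ y : ℝ, ∑' m, mterm lam κ s m y =
      (∑' m : ℕ, lam m * (y * bK0 (κ * m * y))) * y ^ (s - 2) := fun y => tsum_mul_right
  simpa only [h2] using h1

/-- **The Mellin transform of `∑ lam m * (y * K₀ (κ m y))`.** -/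
theorem integral_tsum_bK0 {lam : ℕ → ℝ} {κ s : ℝ} (hs : 0 < s) (hκ : 0 < κ)
    (hsum : Summable fun m : ℕ => |lam m| * (m : ℝ) ^ (-s)) :
    ∫ y in Ioi (0 : ℝ), (∑' m : ℕ, lam m * (y * bK0 (κ * m * y))) * y ^ (s - 2) =
      κ ^ (-s) * mell s * ∑' m : ℕ, lam m * (m : ℝ) ^ (-s) := by
  rw [← (hasSum_integral_bK0 hs hκ hsum).tsum_eq, tsum_mul_left]

/-- finiteness of the double sum -/
lemma lintegral_tsum_mterm_ne_top {lam : ℕ → ℝ} {κ s : ℝ} (hs : 0 < s) (hκ : 0 < κ)
    (hsum : Summable fun m : ℕ => |lam m| * (m : ℝ) ^ (-s)) :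
    ∫⁻ y, ∑' m, ‖mterm lam κ s m y‖ₑ ∂(volume.restrict (Ioi (0 : ℝ))) ≠ ⊤ := by
  rw [lintegral_tsum (fun m => (integrableOn_mterm lam hs hκ m).1.enorm)]
  have h2 : ∀ m, ∫⁻ y, ‖mterm lam κ s m y‖ₑ ∂(volume.restrict (Ioi (0 : ℝ))) =
      ENNReal.ofReal (κ ^ (-s) * mell s * (|lam m| * (m : ℝ) ^ (-s))) := by
    intro m
    rw [← integral_norm_mterm lam hs hκ m,
      ofReal_integral_norm_eq_lintegral_enorm (integrableOn_mterm lam hs hκ m)]
  simp only [h2]
  exact (hsum.mul_left _).tsum_ofReal_ne_top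

/-- for almost every `y > 0` the series converges absolutely -/
theorem ae_summable_bK0 {lam : ℕ → ℝ} {κ s : ℝ} (hs : 0 < s) (hκ : 0 < κ)
    (hsum : Summable fun m : ℕ => |lam m| * (m : ℝ) ^ (-s)) :
    ∀ᵐ y ∂(volume.restrict (Ioi (0 : ℝ))), Summable fun m => ‖mterm lam κ s m y‖ := by
  filter_upwards [ae_lt_top' (AEMeasurable.tsum
    fun m => (integrableOn_mterm lam hs hκ m).1.enorm)
      (lintegral_tsum_mterm_ne_top hs hκ hsum)] with y hy
  exact tsum_enorm_ne_top_iff_summable_norm.mp hy.ne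

/-- the sum of the series is integrable -/
theorem integrableOn_tsum_bK0 {lam : ℕ → ℝ} {κ s : ℝ} (hs : 0 < s) (hκ : 0 < κ)
    (hsum : Summable fun m : ℕ => |lam m| * (m : ℝ) ^ (-s)) :
    IntegrableOn (fun y => (∑' m : ℕ, lam m * (y * bK0 (κ * m * y))) * y ^ (s - 2)) (Ioi 0) := by
  have h2 : (fun y : ℝ => (∑' m : ℕ, lam m * (y * bK0 (κ * m * y))) * y ^ (s - 2)) =
      fun y => ∑' m, mterm lam κ s m y := by
    funext y
    exact tsum_mul_right.symm
  rw [h2]
  refine ⟨?_, ?_⟩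
  · exact (AEMeasurable.tsum fun m =>
      (integrableOn_mterm lam hs hκ m).1.aemeasurable).aestronglyMeasurable
  · exact lt_of_le_of_lt (lintegral_mono fun y => enorm_tsum_le_tsum_enorm)
      (lintegral_tsum_mterm_ne_top hs hκ hsum).lt_top

end Fermat.Agent.LT.Period
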