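import Fermat.Agent.LT.Period.Eisen

/-!
# The mean of a form over horizontal segments in the real plane

`F : KForm σ s N`, `3 ∣ N`, `s ^ 2 = -3`, `[K : ℚ] = 2`:

* `hasSum_int_mean` : `∫_0^1 F (x, y) dx = ∑_{m : ℤ} lam m * (y * K₀ (4 π |m| y / √3))`;
* `hasSum_nat_mean` : the same as `2 * ∑_{m ≥ 1}`.
-/

set_option autoImplicit false
set_option linter.unusedSectionVars false

open NumberField Set MeasureTheory

noncomputable section

namespace Fermat.Agent.LT.Period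

variable {K : Type} [Field K] [NumberField K] {σ : K →+* ℂ} {s : 𝓞 K} {N : ℕ}

/-- The point `(x, y)` of the real plane. -/
def rpt (x y : ℝ) (hy : 0 < y) : H3 := H3.mk (x : ℂ) y hy

lemma countable_ringOfIntegers (σ : K →+* ℂ) (hK : Module.finrank ℚ K = 2) (hs : s ^ 2 = -3) :
    Countable (𝓞 K) := by
  choose u v h using exists_coords σ hK hs
  refine Function.Injective.countable (f := fun b => (u b, v b)) fun a b hab => ?_
  have h1 : σ a = σ b := by
    rw [h a, h b]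
    have := Prod.mk.inj hab
    rw [this.1, this.2]
  exact RingOfIntegers.coe_injective (σ.injective h1)

lemma integral_exp_int (n : ℤ) :
    ∫ x in (0 : ℝ)..1, Complex.exp (2 * Real.pi * Complex.I * ((n * x : ℝ) : ℂ)) =
      if n = 0 then 1 else 0 := by
  split_ifs with h
  · subst h
    simp
  · have hc : (2 * Real.pi * Complex.I * n : ℂ) ≠ 0 := by
      have : (Real.pi : ℂ) ≠ 0 := by exact_mod_cast Real.pi_ne_zero
      have hn : (n : ℂ) ≠ 0 := by exact_mod_cast h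
      simp [this, hn, Complex.I_ne_zero]
    have h1 : (fun x : ℝ => Complex.exp (2 * Real.pi * Complex.I * ((n * x : ℝ) : ℂ))) =
        fun x : ℝ => Complex.exp ((2 * Real.pi * Complex.I * n) * x) := by
      funext x
      congr 1
      push_cast
      ring
    rw [h1, integral_exp_mul_complex hc]
    have h2 : Complex.exp (2 * Real.pi * Complex.I * n * ((1 : ℝ) : ℂ)) = 1 := by
      rw [Complex.ofReal_one, mul_one, mul_comm]
      exact Complex.exp_int_mul_two_pi_mul_I n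
    rw [h2]
    simp

/-- frequencies: `Tr (b / s) ∈ ℤ`, and it vanishes exactly for `b ∈ ℤ`. -/
lemma exists_freq (σ : K →+* ℂ) (hK : Module.finrank ℚ K = 2) (hs : s ^ 2 = -3) (b : 𝓞 K) :
    ∃ n : ℤ, (∀ x : ℝ, 2 * (σ b * (x : ℂ) / σ s).re = n * x) ∧ (n = 0 ↔ ∃ m : ℤ, (m : 𝓞 K) = b) := by
  obtain ⟨u, v, h⟩ := exists_coords σ hK hs b
  have hs3 : (0 : ℝ) < Real.sqrt 3 := Real.sqrt_pos.mpr (by norm_num)
  have key : ∀ x : ℝ, 2 * (σ b * (x : ℂ) / sqrtNeg3).re = v * x := by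
    intro x
    rw [re_div_sqrtNeg3, h]
    simp [om]
    field_simp
  have hv : v = 0 ↔ ∃ m : ℤ, (m : 𝓞 K) = b := by
    constructor
    · intro hv
      refine ⟨u, ?_⟩
      apply RingOfIntegers.coe_injective
      apply σ.injective
      rw [h, hv]
      simp
    · rintro ⟨m, rfl⟩
      have h1 := congrArg Complex.im h
      simp [om] at h1
      exact h1
  rcases sigma_s σ hs with h1 | h1
  · exact ⟨v, fun x => by rw [h1, key], hv⟩
  · refine ⟨-v, fun x => ?_, by rw [neg_eq_zero, hv]⟩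
    rw [h1, div_neg, Complex.neg_re, mul_neg, key]
    push_cast
    ring

/-- the coefficient of the expansion in the plane. -/
def cof (F : KForm σ s N) (b : 𝓞 K) (y : ℝ) : ℝ :=
  F.lam b * (y * bK0 (4 * Real.pi * ‖σ b‖ * y / √3))

omit [NumberField K] in
lemma norm_eTr (b : 𝓞 K) (z : ℂ) : ‖eTr σ s b z‖ = 1 := by
  rw [eTr, show (2 * Real.pi * Complex.I * ((2 * ((σ b * z / σ s).re) : ℝ) : ℂ)) =
    ((2 * Real.pi * (2 * ((σ b * z / σ s).re)) : ℝ) : ℂ) * Complex.I by push_cast; ring,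
    Complex.norm_exp_ofReal_mul_I]

lemma summable_cof (F : KForm σ s N) {y : ℝ} (hy : 0 < y) : Summable fun b => ‖cof F b y‖ := by
  have h := (F.four (H3.mk 0 y hy)).summable.norm
  refine h.congr fun b => ?_
  rw [norm_mul, norm_eTr, mul_one, Complex.norm_real]
  rfl

/-- **The mean over a horizontal segment.** -/
theorem hasSum_int_mean (F : KForm σ s N) (hK : Module.finrank ℚ K = 2) (hs : s ^ 2 = -3) {y : ℝ}
    (hy : 0 < y) : HasSum (fun m : ℤ => ((F.lam (m : 𝓞 K) *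
      (y * bK0 (4 * Real.pi * |(m : ℝ)| * y / √3)) : ℝ) : ℂ))
        (∫ x in (0 : ℝ)..1, F.F (rpt x y hy)) := by
  have := countable_ringOfIntegers (s := s) σ hK hs
  choose n hn hn0 using exists_freq (s := s) σ hK hs
  have he : ∀ (b : 𝓞 K) (x : ℝ), eTr σ s b (x : ℂ) =
      Complex.exp (2 * Real.pi * Complex.I * ((n b * x : ℝ) : ℂ)) := by
    intro b x
    rw [eTr, hn]
  -- termwise integration
  have h1 : HasSum (fun b : 𝓞 K => ∫ x in (0 : ℝ)..1, ((cof F b y : ℝ) : ℂ) * eTr σ s b (x : ℂ))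
      (∫ x in (0 : ℝ)..1, F.F (rpt x y hy)) := by
    refine intervalIntegral.hasSum_integral_of_dominated_convergence
      (fun b _ => ‖cof F b y‖) (fun b => ?_) (fun b => ?_) ?_ ?_ ?_
    · refine Continuous.aestronglyMeasurable ?_
      simp_rw [he]
      fun_prop
    · refine Filter.Eventually.of_forall fun x _ => ?_
      rw [norm_mul, norm_eTr, mul_one, Complex.norm_real]
    · exact Filter.Eventually.of_forall fun x _ => summable_cof F hy
    · exact intervalIntegrable_const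
    · refine Filter.Eventually.of_forall fun x _ => ?_
      exact F.four (rpt x y hy)
  have h2 : ∀ b : 𝓞 K, (∫ x in (0 : ℝ)..1, ((cof F b y : ℝ) : ℂ) * eTr σ s b (x : ℂ)) =
      if n b = 0 then ((cof F b y : ℝ) : ℂ) else 0 := by
    intro b
    rw [intervalIntegral.integral_const_mul]
    simp_rw [he]
    rw [integral_exp_int]
    split_ifs <;> simp
  simp_rw [h2] at h1
  -- restriction to `ℤ`
  have hinj : Function.Injective (fun m : ℤ => (m : 𝓞 K)) := Int.cast_injective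
  have h3 := (hinj.hasSum_iff (f := fun b : 𝓞 K => if n b = 0 then ((cof F b y : ℝ) : ℂ) else 0)
    (a := ∫ x in (0 : ℝ)..1, F.F (rpt x y hy)) ?_).mpr h1
  · refine hasSum_congr' h3 fun m => ?_
    rw [Function.comp_apply, if_pos ((hn0 _).mpr ⟨m, rfl⟩), cof]
    congr 5
    simp
  · intro b hb
    rw [if_neg]
    rw [hn0]
    rintro ⟨m, hm⟩
    exact hb ⟨m, hm⟩

/-- **The mean over a horizontal segment**, as a sum over positive integers. -/
theorem hasSum_nat_mean (F : KForm σ s N) (hK : Module.finrank ℚ K = 2) (hs : s ^ 2 = -3)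
    (h3 : 3 ∣ N) {y : ℝ} (hy : 0 < y) : HasSum (fun m : ℕ => ((2 * (F.lam ((m + 1 : ℕ) : 𝓞 K) *
      (y * bK0 (4 * Real.pi * ((m + 1 : ℕ) : ℝ) * y / √3))) : ℝ) : ℂ))
        (∫ x in (0 : ℝ)..1, F.F (rpt x y hy)) := by
  have h1 := hasSum_int_mean F hK hs hy
  have h0 : F.lam ((0 : ℤ) : 𝓞 K) = 0 := by rw [Int.cast_zero, lam_zero F h3]
  have h2 := h1.nat_add_neg
  rw [h0, zero_mul, Complex.ofReal_zero, add_zero] at h2
  have h4 := (hasSum_nat_add_iff' 1).mpr h2
  rw [Finset.sum_range_one] at h4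
  have hneg : ∀ m : ℤ, F.lam ((-m : ℤ) : 𝓞 K) = F.lam (m : 𝓞 K) := by
    intro m
    have := F.lam_unit (-1) (m : 𝓞 K)
    rw [← this]
    congr 1
    push_cast
    ring
  have h5 : ((F.lam (((0 : ℕ) : ℤ) : 𝓞 K) * (y * bK0 (4 * Real.pi * |(((0 : ℕ) : ℤ) : ℝ)| * y / √3)) :
      ℝ) : ℂ) + ((F.lam ((-((0 : ℕ) : ℤ) : ℤ) : 𝓞 K) *
        (y * bK0 (4 * Real.pi * |((-((0 : ℕ) : ℤ) : ℤ) : ℝ)| * y / √3)) : ℝ) : ℂ) = 0 := by
    rw [hneg, Nat.cast_zero, h0]
    simp
  rw [h5, sub_zero] at h4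
  refine hasSum_congr' h4 fun m => ?_
  rw [hneg]
  have h6 : |((-((m + 1 : ℕ) : ℤ) : ℤ) : ℝ)| = ((m + 1 : ℕ) : ℝ) := by
    rw [Int.cast_neg, abs_neg, Int.cast_natCast, abs_of_nonneg (Nat.cast_nonneg _)]
  have h7 : |(((m + 1 : ℕ) : ℤ) : ℝ)| = ((m + 1 : ℕ) : ℝ) := by
    rw [Int.cast_natCast, abs_of_nonneg (Nat.cast_nonneg _)]
  rw [h6, h7, Int.cast_natCast]
  push_cast
  ring

/-- the same, as an equality of real series over `ℕ`. -/
theorem mean_eq (F : KForm σ s N) (hK : Module.finrank ℚ K = 2) (hs : s ^ 2 = -3)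
    (h3 : 3 ∣ N) {y : ℝ} (hy : 0 < y) : ∫ x in (0 : ℝ)..1, F.F (rpt x y hy) =
      ((2 * ∑' m : ℕ, F.lam (m : 𝓞 K) * (y * bK0 (4 * Real.pi / √3 * m * y)) : ℝ) : ℂ) := by
  have h1 := hasSum_nat_mean F hK hs h3 hy
  rw [← h1.tsum_eq, ← Complex.ofReal_tsum]
  congr 1
  rw [tsum_mul_left]
  set g : ℕ → ℝ := fun m : ℕ => F.lam (m : 𝓞 K) * (y * bK0 (4 * Real.pi / √3 * m * y)) with hg
  have h2 : (fun m : ℕ => F.lam ((m + 1 : ℕ) : 𝓞 K) *
      (y * bK0 (4 * Real.pi * ((m + 1 : ℕ) : ℝ) * y / √3))) = fun m : ℕ => g (m + 1) := by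
    funext m
    rw [hg]
    dsimp only
    congr 3
    ring
  have h3' : Summable fun m : ℕ => g (m + 1) := by
    rw [← h2]
    have h4 := h1.summable
    rw [Complex.summable_ofReal] at h4
    exact (summable_mul_left_iff two_ne_zero).mp h4
  have h5 : Summable g := (summable_nat_add_iff (f := g) 1).mp h3'
  have h6 : g 0 = 0 := by
    rw [hg]
    simp [lam_zero F h3]
  have h7 := h5.tsum_eq_zero_add
  rw [h6, zero_add] at h7
  rw [h2, h7]

end Fermat.Agent.LT.Period
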