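import Fermat.Agent.LT.Period.Eis

/-!
# Eisenstein series with a weight function modulo `N`; behaviour at all cusps (P6)
-/

set_option autoImplicit false

open MeasureTheory Metric Set Module UpperHalfPlane
open scoped MatrixGroups

noncomputable section

namespace Fermat.Agent.LT.Period

/-- `SL₂(ℤ)` acts on row vectors on the right -/
def rowMul (γ : SL(2, ℤ)) (p : ℤ × ℤ) : ℤ × ℤ :=
  (p.1 * γ 0 0 + p.2 * γ 1 0, p.1 * γ 0 1 + p.2 * γ 1 1)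

lemma rowMul_mul (γ δ : SL(2, ℤ)) (p : ℤ × ℤ) : rowMul (γ * δ) p = rowMul δ (rowMul γ p) := by
  simp only [rowMul, Matrix.SpecialLinearGroup.coe_mul, Matrix.mul_apply, Fin.sum_univ_two]
  ext <;> simp only <;> ring

lemma rowMul_one (p : ℤ × ℤ) : rowMul 1 p = p := by
  simp [rowMul]

/-- right multiplication as a permutation of `ℤ × ℤ` -/
def rowEquiv (γ : SL(2, ℤ)) : ℤ × ℤ ≃ ℤ × ℤ where
  toFun := rowMul γ
  invFun := rowMul γ⁻¹
  left_inv p := by rw [← rowMul_mul, mul_inv_cancel, rowMul_one]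
  right_inv p := by rw [← rowMul_mul, inv_mul_cancel, rowMul_one]

lemma term_smul (s : ℝ) (γ : SL(2, ℤ)) (z : ℍ) (p : ℤ × ℤ) :
    term s (γ • z) p = term s z (rowMul γ p) := by
  unfold term
  congr 1
  have hd : (γ 1 0 : ℂ) * z + γ 1 1 ≠ 0 := by
    have := denom_ne_zero (γ : GL (Fin 2) ℝ) z
    simpa [denom] using this
  have h1 : ((γ • z : ℍ) : ℂ) = ((γ 0 0 : ℂ) * z + γ 0 1) / ((γ 1 0 : ℂ) * z + γ 1 1) := by
    rw [UpperHalfPlane.coe_specialLinearGroup_apply]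
    simp
  have h2 : (γ • z).im = z.im / Complex.normSq ((γ 1 0 : ℂ) * z + γ 1 1) := by
    rw [ModularGroup.im_smul_eq_div_normSq, ModularGroup.denom_apply]
  have h3 : (p.1 : ℂ) * ((γ • z : ℍ) : ℂ) + p.2 =
      (((rowMul γ p).1 : ℂ) * z + (rowMul γ p).2) / ((γ 1 0 : ℂ) * z + γ 1 1) := by
    rw [h1, eq_div_iff hd, add_mul, mul_assoc, div_mul_cancel₀ _ hd]
    simp only [rowMul]
    push_cast
    ring
  rw [h3, h2, Complex.normSq_div]
  have h4 : Complex.normSq ((γ 1 0 : ℂ) * z + γ 1 1) ≠ 0 := by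
    rwa [Ne, Complex.normSq_eq_zero]
  rw [div_div_div_cancel_right₀ h4]

variable (N : ℕ) [NeZero N]

/-- division with remainder in both coordinates -/
def dm : ℤ × ℤ ≃ (Fin N × Fin N) × (ℤ × ℤ) :=
  ((Int.divModEquiv N).prodCongr (Int.divModEquiv N)).trans
    ((Equiv.prodProdProdComm _ _ _ _).trans (Equiv.prodComm _ _))

lemma dm_symm (q : (Fin N × Fin N) × (ℤ × ℤ)) :
    (dm N).symm q = ((q.1.1 : ℤ) + N * q.2.1, (q.1.2 : ℤ) + N * q.2.2) := by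
  have h : (dm N).symm q = ((Int.divModEquiv N).symm (q.2.1, q.1.1),
    (Int.divModEquiv N).symm (q.2.2, q.1.2)) := rfl
  rw [h, Int.divModEquiv_symm_apply, Int.divModEquiv_symm_apply]
  ext <;> simp only <;> ring

/-- regrouping a weighted sum by residue classes -/
lemma tsum_regroup (w : ZMod N × ZMod N → ℝ) (f : ℤ × ℤ → ℝ)
    (hs : ∀ q : Fin N × Fin N, Summable fun p : ℤ × ℤ =>
      f ((q.1 : ℤ) + N * p.1, (q.2 : ℤ) + N * p.2)) :
    (Summable fun p : ℤ × ℤ => w (p.1, p.2) * f p) ∧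
    ∑' p : ℤ × ℤ, w (p.1, p.2) * f p = ∑ q : Fin N × Fin N, w ((q.1 : ℕ), (q.2 : ℕ)) *
      ∑' p : ℤ × ℤ, f ((q.1 : ℤ) + N * p.1, (q.2 : ℤ) + N * p.2) := by
  have hfg : ∀ q : (Fin N × Fin N) × (ℤ × ℤ),
      (fun p : ℤ × ℤ => w (p.1, p.2) * f p) ((dm N).symm q) =
        w ((q.1.1 : ℕ), (q.1.2 : ℕ)) * f ((q.1.1 : ℤ) + N * q.2.1, (q.1.2 : ℤ) + N * q.2.2) := by
    intro q
    rw [dm_symm]
    simp
  have hsum : ∀ q : Fin N × Fin N, Summable fun p : ℤ × ℤ =>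
      w ((q.1 : ℕ), (q.2 : ℕ)) * f ((q.1 : ℤ) + N * p.1, (q.2 : ℤ) + N * p.2) := fun q =>
    (hs q).mul_left _
  have hgs : Summable fun q : (Fin N × Fin N) × (ℤ × ℤ) =>
      w ((q.1.1 : ℕ), (q.1.2 : ℕ)) * f ((q.1.1 : ℤ) + N * q.2.1, (q.1.2 : ℤ) + N * q.2.2) := by
    refine Summable.of_abs ?_
    refine (summable_prod_of_nonneg fun q => abs_nonneg _).mpr
      ⟨fun q => (hsum q).abs, (hasSum_fintype _).summable⟩
  refine ⟨?_, ?_⟩
  · rw [← (dm N).symm.summable_iff]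
    exact hgs.congr fun q => (hfg q).symm
  · rw [← (dm N).symm.tsum_eq (fun p : ℤ × ℤ => w (p.1, p.2) * f p), tsum_congr hfg,
      hgs.tsum_prod' hsum, tsum_fintype]
    refine Finset.sum_congr rfl fun q _ => ?_
    rw [← tsum_mul_left]

lemma bound_aux {ι : Type*} [Fintype ι] (a : ι → ℝ) (A B : ι → ℝ) (hA : ∀ i, 0 ≤ A i)
    (hB : ∀ i, 0 ≤ B i) (S : ι → ℝ) (c y : ℝ) (hy : 1 / 2 ≤ y) (s : ℝ)
    (h : ∀ i, |S i - c / (s - 1)| ≤ A i * y ^ B i) :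
    |∑ i, a i * S i - (∑ i, a i) * c / (s - 1)| ≤
      (∑ i, |a i| * (A i * 2 ^ (∑ j, B j))) * y ^ (∑ j, B j) := by
  have hy0 : 0 < y := by linarith
  rw [Finset.sum_mul, Finset.sum_div, ← Finset.sum_sub_distrib]
  refine (Finset.abs_sum_le_sum_abs _ _).trans ?_
  rw [Finset.sum_mul]
  refine Finset.sum_le_sum fun i _ => ?_
  have h4 : a i * S i - a i * c / (s - 1) = a i * (S i - c / (s - 1)) := by ring
  rw [h4, abs_mul, mul_assoc]
  refine mul_le_mul_of_nonneg_left ((h i).trans ?_) (abs_nonneg _)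
  rw [mul_assoc]
  refine mul_le_mul_of_nonneg_left ?_ (hA i)
  have hB' : B i ≤ ∑ j, B j := Finset.single_le_sum (fun j _ => hB j) (Finset.mem_univ i)
  rw [← Real.mul_rpow zero_le_two hy0.le]
  exact (Real.rpow_le_rpow hy0.le (by linarith) (hB i)).trans
    (Real.rpow_le_rpow_of_exponent_le (by linarith) hB')

/-- **Eisenstein series with weights near `s = 1`.** -/
theorem eisW (w : ZMod N × ZMod N → ℝ) : ∃ A B : ℝ, 0 ≤ A ∧ 0 ≤ B ∧ ∀ z : ℍ, |z.re| ≤ 1 →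
    1 / 2 ≤ z.im → ∀ s : ℝ, 1 < s → s ≤ 2 →
      (Summable fun p : ℤ × ℤ => w (p.1, p.2) * term s z p) ∧
      |∑' p : ℤ × ℤ, w (p.1, p.2) * term s z p -
        (∑ q : Fin N × Fin N, w ((q.1 : ℕ), (q.2 : ℕ))) * cN N / (s - 1)| ≤ A * z.im ^ B := by
  choose A B hA hB h using fun q : Fin N × Fin N => eis N (q.1 : ℤ) (q.2 : ℤ)
  refine ⟨∑ q, |w ((q.1 : ℕ), (q.2 : ℕ))| * (A q * 2 ^ (∑ q', B q')), ∑ q, B q,
    Finset.sum_nonneg fun q _ => mul_nonneg (abs_nonneg _)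
      (mul_nonneg (hA q) (Real.rpow_nonneg zero_le_two _)),
    Finset.sum_nonneg fun q _ => hB q, fun z hx hy s hs1 hs2 => ?_⟩
  obtain ⟨h1, h2⟩ := tsum_regroup N w (term s z) fun q => (h q z hx hy s hs1 hs2).1
  refine ⟨h1, ?_⟩
  rw [h2]
  exact bound_aux (fun q : Fin N × Fin N => w ((q.1 : ℕ), (q.2 : ℕ))) A B hA hB _ (cN N) z.im hy s
    fun q => (h q z hx hy s hs1 hs2).2

/-- **Behaviour at all cusps.** -/
theorem eisW_smul (w : ZMod N × ZMod N → ℝ) (γ : SL(2, ℤ)) : ∃ A B : ℝ, 0 ≤ A ∧ 0 ≤ B ∧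
    ∀ z : ℍ, |z.re| ≤ 1 → 1 / 2 ≤ z.im → ∀ s : ℝ, 1 < s → s ≤ 2 →
      (Summable fun p : ℤ × ℤ => w (p.1, p.2) * term s (γ • z) p) ∧
      |∑' p : ℤ × ℤ, w (p.1, p.2) * term s (γ • z) p -
        (∑ q : Fin N × Fin N, w ((q.1 : ℕ), (q.2 : ℕ))) * cN N / (s - 1)| ≤ A * z.im ^ B := by
  -- the transported weight
  set c : ZMod N × ZMod N → ZMod N × ZMod N := fun q =>
    (q.1 * (γ⁻¹ 0 0 : ℤ) + q.2 * (γ⁻¹ 1 0 : ℤ), q.1 * (γ⁻¹ 0 1 : ℤ) + q.2 * (γ⁻¹ 1 1 : ℤ)) with hc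
  set c' : ZMod N × ZMod N → ZMod N × ZMod N := fun q =>
    (q.1 * (γ 0 0 : ℤ) + q.2 * (γ 1 0 : ℤ), q.1 * (γ 0 1 : ℤ) + q.2 * (γ 1 1 : ℤ)) with hc'
  have hcast : ∀ (δ : SL(2, ℤ)) (p : ℤ × ℤ), (((rowMul δ p).1 : ZMod N), ((rowMul δ p).2 : ZMod N)) =
      ((p.1 : ZMod N) * (δ 0 0 : ℤ) + p.2 * (δ 1 0 : ℤ),
        (p.1 : ZMod N) * (δ 0 1 : ℤ) + p.2 * (δ 1 1 : ℤ)) := by
    intro δ p
    simp only [rowMul]
    push_cast
    rfl
  have hinv : Function.LeftInverse c c' := by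
    intro q
    obtain ⟨⟨a, b⟩, rfl⟩ : ∃ p : ℤ × ℤ, ((p.1 : ZMod N), (p.2 : ZMod N)) = q :=
      ⟨((q.1.cast : ℤ), (q.2.cast : ℤ)), by simp⟩
    have h1 := hcast γ (a, b)
    have h2 := hcast γ⁻¹ (rowMul γ (a, b))
    rw [← rowMul_mul, mul_inv_cancel, rowMul_one] at h2
    simp only [hc, hc']
    simp only [Prod.mk.injEq] at h1 h2
    rw [← h1.1, ← h1.2, ← h2.1, ← h2.2]
  have hinj : Function.Injective c' := hinv.injective
  have hbij : Function.Bijective c' := Finite.injective_iff_bijective.mp hinj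
  obtain ⟨A, B, hA, hB, h⟩ := eisW N (w ∘ c)
  refine ⟨A, B, hA, hB, fun z hx hy s hs1 hs2 => ?_⟩
  obtain ⟨h1, h2⟩ := h z hx hy s hs1 hs2
  have key : (fun p : ℤ × ℤ => w (p.1, p.2) * term s (γ • z) p) =
      (fun p : ℤ × ℤ => (w ∘ c) (p.1, p.2) * term s z p) ∘ rowEquiv γ := by
    funext p
    have h3 := hcast γ p
    have h4 : c (((rowMul γ p).1 : ZMod N), ((rowMul γ p).2 : ZMod N)) =
        ((p.1 : ZMod N), (p.2 : ZMod N)) := by
      rw [h3]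
      exact hinv (p.1, p.2)
    change w (p.1, p.2) * term s (γ • z) p =
      w (c (((rowMul γ p).1 : ZMod N), ((rowMul γ p).2 : ZMod N))) * term s z (rowMul γ p)
    rw [h4, term_smul]
  have hsumw : ∀ w' : ZMod N × ZMod N → ℝ, ∑ q : Fin N × Fin N, w' ((q.1 : ℕ), (q.2 : ℕ)) =
      ∑ q : ZMod N × ZMod N, w' q := by
    intro w'
    refine Fintype.sum_bijective (fun q : Fin N × Fin N =>
      (((q.1 : ℕ) : ZMod N), ((q.2 : ℕ) : ZMod N))) ?_ _ _ (fun q => rfl)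
    have hb : Function.Bijective (fun a : Fin N => ((a : ℕ) : ZMod N)) := by
      rw [Fintype.bijective_iff_injective_and_card]
      refine ⟨fun a b hab => ?_, by simp [ZMod.card]⟩
      have h5 := (ZMod.natCast_eq_natCast_iff' _ _ _).mp hab
      rw [Nat.mod_eq_of_lt a.2, Nat.mod_eq_of_lt b.2] at h5
      exact Fin.ext h5
    exact hb.prodMap hb
  refine ⟨?_, ?_⟩
  · rw [key]
    exact (rowEquiv γ).summable_iff.mpr h1
  · have h5 : ∑' p : ℤ × ℤ, w (p.1, p.2) * term s (γ • z) p =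
        ∑' p : ℤ × ℤ, (w ∘ c) (p.1, p.2) * term s z p := by
      rw [← (rowEquiv γ).tsum_eq (fun p : ℤ × ℤ => (w ∘ c) (p.1, p.2) * term s z p)]
      exact tsum_congr fun p => congrFun key p
    have h6 : ∑ q : Fin N × Fin N, w ((q.1 : ℕ), (q.2 : ℕ)) =
        ∑ q : Fin N × Fin N, (w ∘ c) ((q.1 : ℕ), (q.2 : ℕ)) := by
      rw [hsumw w, hsumw (w ∘ c)]
      refine (Fintype.sum_bijective c' hbij _ _ fun q => ?_)
      rw [Function.comp_apply, hinv q]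
    rw [h5, h6]
    exact h2

end Fermat.Agent.LT.Period
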