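import Fermat.Agent.LT.Period.Orbits

/-!
# Integrals over the vertical strip
-/

set_option autoImplicit false

noncomputable section

open MeasureTheory UpperHalfPlane Set
open scoped ENNReal MatrixGroups Modular

namespace Fermat.Agent.LT.Period

/-- the density -/
def densC (w : ℂ) : NNReal := (1 / ‖w.im‖₊) ^ 2

lemma measurable_densC : Measurable densC := by
  unfold densC
  fun_prop

/-- the set of `x + i y` with `0 ≤ x < 1`, `0 < y` -/
def stripC : Set ℂ := Complex.measurableEquivRealProd ⁻¹' (Ico (0 : ℝ) 1 ×ˢ Ioi (0 : ℝ))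

lemma measurableSet_stripC : MeasurableSet stripC :=
  Complex.measurableEquivRealProd.measurable (measurableSet_Ico.prod measurableSet_Ioi)

lemma image_strip : UpperHalfPlane.coe '' strip = stripC := by
  ext w
  constructor
  · rintro ⟨z, ⟨h1, h2⟩, rfl⟩
    exact ⟨⟨h1, h2⟩, z.im_pos⟩
  · rintro ⟨⟨h1, h2⟩, h3⟩
    exact ⟨⟨w, h3⟩, ⟨h1, h2⟩, rfl⟩

lemma map_coe_restrict : ((volume : Measure ℍ).restrict strip).map UpperHalfPlane.coe =
    (volume.restrict stripC).withDensity fun w => (densC w : ℝ≥0∞) := by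
  ext s hs
  rw [Measure.map_apply measurable_coe hs, Measure.restrict_apply (measurable_coe hs),
    volume_eq_lintegral, withDensity_apply _ hs, Measure.restrict_restrict hs]
  have h1 : UpperHalfPlane.coe '' (UpperHalfPlane.coe ⁻¹' s ∩ strip) = s ∩ stripC := by
    rw [← image_strip, Set.inter_comm, Set.image_inter_preimage, Set.inter_comm]
  rw [h1]
  rfl

lemma lintegral_strip_C (f : ℂ → ℝ≥0∞) :
    ∫⁻ z in strip, f z = ∫⁻ w in stripC, (densC w : ℝ≥0∞) * f w := by
  rw [← measurableEmbedding_coe.lintegral_map f, map_coe_restrict,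
    lintegral_withDensity_eq_lintegral_mul_non_measurable _ measurable_densC.coe_nnreal_ennreal
      (Filter.Eventually.of_forall fun w => ENNReal.coe_lt_top)]
  rfl

lemma integral_strip_C (f : ℂ → ℂ) :
    ∫ z in strip, f z = ∫ w in stripC, (densC w : ℝ) • f w := by
  rw [← measurableEmbedding_coe.integral_map f, map_coe_restrict,
    integral_withDensity_eq_integral_smul measurable_densC]
  rfl

lemma integrable_strip_C (f : ℂ → ℂ) :
    IntegrableOn (fun z : ℍ => f z) strip ↔
      IntegrableOn (fun w => (densC w : ℝ) • f w) stripC := by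
  have h1 := measurableEmbedding_coe.integrable_map_iff (g := f)
    (μ := (volume : Measure ℍ).restrict strip)
  rw [map_coe_restrict, integrable_withDensity_iff_integrable_smul measurable_densC] at h1
  exact h1.symm

lemma densC_mk (x y : ℝ) : (densC ⟨x, y⟩ : ℝ) = 1 / y ^ 2 := by
  unfold densC
  push_cast
  simp

/-- Non-negative functions of the imaginary part. -/
lemma lintegral_strip_im {h : ℝ → ℝ≥0∞} (hh : Measurable h) :
    ∫⁻ z in strip, h z.im = ∫⁻ y in Ioi (0 : ℝ), ENNReal.ofReal (1 / y ^ 2) * h y := by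
  refine (lintegral_strip_C fun w : ℂ => h w.im).trans ?_
  let F : ℝ × ℝ → ℝ≥0∞ := fun p => ENNReal.ofReal (1 / p.2 ^ 2) * h p.2
  have hF : Measurable F := by
    have : Measurable fun p : ℝ × ℝ => 1 / p.2 ^ 2 := by fun_prop
    exact this.ennreal_ofReal.mul (hh.comp measurable_snd)
  have h1 : ∀ w : ℂ, (densC w : ℝ≥0∞) * h w.im = F (Complex.measurableEquivRealProd w) := by
    intro w
    have h2 := densC_mk w.re w.im
    simp only [F, Complex.measurableEquivRealProd_apply]
    rw [← h2, ENNReal.ofReal_coe_nnreal]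
  simp only [h1]
  rw [stripC, Complex.volume_preserving_equiv_real_prod.setLIntegral_comp_preimage
    (measurableSet_Ico.prod measurableSet_Ioi) hF, Measure.volume_eq_prod,
    ← Measure.prod_restrict, lintegral_prod_symm' _ hF]
  refine lintegral_congr fun y => ?_
  simp only [F]
  rw [lintegral_const]
  simp

/-- The iterated integral. -/
lemma integral_strip {f : ℍ → ℂ} (hf : IntegrableOn f strip) :
    ∫ z in strip, f z = ∫ y in Ioi (0 : ℝ), ∫ x in Ico (0 : ℝ) 1,
      ((1 / y ^ 2 : ℝ) : ℂ) * f (ofComplex ⟨x, y⟩) := by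
  have e1 : (fun z : ℍ => (fun w : ℂ => f (ofComplex w)) z) = f := by
    funext z
    simp
  have h1 : ∫ z in strip, f z = ∫ z in strip, (fun w : ℂ => f (ofComplex w)) z := by
    rw [e1]
  rw [h1]
  refine (integral_strip_C fun w : ℂ => f (ofComplex w)).trans ?_
  have hf' : IntegrableOn (fun z : ℍ => (fun w : ℂ => f (ofComplex w)) z) strip := by
    rwa [e1]
  replace hf' := (integrable_strip_C fun w : ℂ => f (ofComplex w)).mp hf'
  let F : ℝ × ℝ → ℂ := fun p => ((1 / p.2 ^ 2 : ℝ) : ℂ) * f (ofComplex ⟨p.1, p.2⟩)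
  have h2 : ∀ w : ℂ, (densC w : ℝ) • (fun w : ℂ => f (ofComplex w)) w =
      F (Complex.measurableEquivRealProd w) := by
    intro w
    have h3 := densC_mk w.re w.im
    simp only [F, Complex.measurableEquivRealProd_apply]
    rw [← h3, Complex.real_smul]
  simp only [h2] at hf' ⊢
  have hme := Complex.measurableEquivRealProd.measurableEmbedding
  have hmp := Complex.volume_preserving_equiv_real_prod
  rw [stripC, hmp.setIntegral_preimage_emb hme]
  rw [stripC] at hf'
  have hF : IntegrableOn F (Ico (0 : ℝ) 1 ×ˢ Ioi (0 : ℝ)) :=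
    (hmp.integrableOn_comp_preimage hme).mp hf'
  rw [Measure.volume_eq_prod, ← Measure.prod_restrict, integral_prod_symm]
  rwa [IntegrableOn, Measure.volume_eq_prod, ← Measure.prod_restrict] at hF

end Fermat.Agent.LT.Period
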