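import Fermat.Agent.LT.Period.Unf
import Fermat.Agent.LT.Period.Strip
import Fermat.Agent.LT.Period.EisW
import Fermat.Agent.LTF.Pet.Domain

/-!
# The period and the Asai integral (P7)

If `∫_{Γ₀(N)\ℍ} G = 0` then `∫_0^∞ y^(s-2) ∫_0^1 G(x + i y) dx dy` is bounded for `1 < s ≤ 2`.
-/

set_option autoImplicit false

noncomputable section

open MeasureTheory UpperHalfPlane Set
open scoped ENNReal MatrixGroups Modular

namespace Fermat.Agent.LT

/-- The integral over `H\Z` through the cosets of `H` in `G`. -/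
theorem IsWeight.lintegral_cosets {G Z : Type*} [Group G] [MeasurableSpace Z] [MulAction G Z]
    [MeasurableConstSMul G Z] {μ : Measure Z} [SMulInvariantMeasure G Z μ] [Countable G]
    {w w' : Z → ℝ≥0∞} (hw : IsWeight G w) (H : Subgroup G) (hw' : IsWeight H w')
    {f : Z → ℝ≥0∞} (hf : Measurable f) (hinv : ∀ (h : H) z, f (h • z) = f z) :
    ∫⁻ z, f z ∂μ.withDensity w' = ∑' r : G ⧸ H, ∫⁻ z, w z * f (r.out⁻¹ • z) ∂μ := by
  have : Countable (G ⧸ H) := Quotient.countable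
  have hsub := hw.sub H
  rw [hw'.lintegral_eq hsub hf hinv, lintegral_withDensity_eq_lintegral_mul _ hsub.meas hf]
  have h1 : ∀ z, ((fun z => ∑' r : G ⧸ H, w (r.out • z)) * f) z =
      ∑' r : G ⧸ H, w (r.out • z) * f z := fun z => by
    rw [Pi.mul_apply, ENNReal.tsum_mul_right]
  simp only [h1]
  have hm : ∀ r : G ⧸ H, Measurable fun z => w (r.out • z) * f z := fun r =>
    (hw.meas.comp (measurable_const_smul r.out)).mul hf
  rw [lintegral_tsum fun r => (hm r).aemeasurable]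
  refine tsum_congr fun r => ?_
  rw [← IsWeight.lintegral_smul (μ := μ) r.out (fun z => w z * f (r.out⁻¹ • z))]
  refine lintegral_congr fun z => ?_
  rw [inv_smul_smul]

end Fermat.Agent.LT

namespace Fermat.Agent.LT.Period

open CongruenceSubgroup

variable {N : ℕ}

/-- the indicator of `{(0, unit)}` -/
def w0 (q : ZMod N × ZMod N) : ℝ := by
  classical
  exact if q.1 = 0 ∧ IsUnit q.2 then 1 else 0

lemma tsum_Del {s : ℝ} (hs : s ≠ 0) (z : ℍ) :
    ∑' p : Del N, term s z p.1 = ∑' p : ℤ × ℤ, w0 ((p.1 : ZMod N), (p.2 : ZMod N)) * term s z p := by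
  classical
  have h1 : ∀ p : ℤ × ℤ, (((N : ℤ) ∣ p.1 ∧ IsCoprime p.2 (N : ℤ)) ↔
      ((p.1 : ZMod N) = 0 ∧ IsUnit (p.2 : ZMod N))) := by
    intro p
    rw [ZMod.intCast_zmod_eq_zero_iff_dvd, ZMod.coe_int_isUnit_iff_isCoprime, isCoprime_comm]
  have h2 : ∑' p : Del N, term s z p.1 =
      ∑' p : {p : ℤ × ℤ | ((N : ℤ) ∣ p.1 ∧ IsCoprime p.2 (N : ℤ)) ∧ p ≠ 0}, term s z p.1 := rfl
  rw [h2, tsum_subtype]
  refine tsum_congr fun p => ?_
  by_cases hp : p = 0
  · have h3 : term s z p = 0 := by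
      rw [hp, term]
      simp [hs]
    rw [h3, mul_zero, Set.indicator_of_notMem]
    rintro ⟨-, h⟩
    exact h hp
  · by_cases h : (N : ℤ) ∣ p.1 ∧ IsCoprime p.2 (N : ℤ)
    · rw [Set.indicator_of_mem (show p ∈ {p : ℤ × ℤ | ((N : ℤ) ∣ p.1 ∧ IsCoprime p.2 (N : ℤ)) ∧
        p ≠ 0} from ⟨h, hp⟩), w0, if_pos ((h1 p).mp h), one_mul]
    · rw [Set.indicator_of_notMem (fun h' => h h'.1), w0, if_neg (fun h' => h ((h1 p).mpr h')),
        zero_mul]

variable {G : ℍ → ℂ} {w : ℍ → ℝ≥0∞}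

/-- the condition at the cusps -/
def RapidDecay (G : ℍ → ℂ) : Prop :=
  ∀ B : ℝ, ∃ C, ∀ (γ : SL(2, ℤ)) (z : ℍ), 1 / 2 ≤ z.im → ‖G (γ • z)‖ ≤ C * z.im ^ (-B)

lemma RapidDecay.bounded (h : RapidDecay G) : ∃ C, 0 ≤ C ∧ ∀ z, ‖G z‖ ≤ C := by
  obtain ⟨C, hC⟩ := h 0
  refine ⟨max C 0, le_max_right _ _, fun z => ?_⟩
  obtain ⟨g, hg⟩ := ModularGroup.exists_smul_mem_fd z
  have h1 := hC g⁻¹ (g • z) (half_le_im hg)
  rw [inv_smul_smul, neg_zero, Real.rpow_zero, mul_one] at h1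
  exact h1.trans (le_max_left _ _)

/-- finiteness over the strip -/
lemma lintegral_strip_ne_top (h : RapidDecay G) {s : ℝ} (hs1 : 1 < s) (hs2 : s ≤ 2) :
    ∫⁻ z in strip, ‖G z‖ₑ * ENNReal.ofReal (z.im ^ s) ≠ ∞ := by
  obtain ⟨C, hC0, hC⟩ := h.bounded
  obtain ⟨D, hD⟩ := h 2
  set D' := max D 0 with hD'
  let H : ℝ → ℝ≥0∞ := fun y => if y ≤ 1 then ENNReal.ofReal (C * y ^ s)
    else ENNReal.ofReal (D' * y ^ (-2 : ℝ) * y ^ s)
  have hH : Measurable H := by
    refine Measurable.ite measurableSet_Iic ?_ ?_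
    · exact ((measurable_id.pow_const s).const_mul C).ennreal_ofReal
    · exact (((measurable_id.pow_const (-2 : ℝ)).const_mul D').mul
        (measurable_id.pow_const s)).ennreal_ofReal
  have h1 : ∫⁻ z in strip, ‖G z‖ₑ * ENNReal.ofReal (z.im ^ s) ≤ ∫⁻ z in strip, H z.im := by
    refine lintegral_mono fun z => ?_
    simp only [H]
    have hys : 0 ≤ z.im ^ s := Real.rpow_nonneg z.im_pos.le _
    rw [← ofReal_norm, ← ENNReal.ofReal_mul (norm_nonneg _)]
    split_ifs with hz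
    · exact ENNReal.ofReal_le_ofReal (mul_le_mul_of_nonneg_right (hC z) hys)
    · refine ENNReal.ofReal_le_ofReal (mul_le_mul_of_nonneg_right ?_ hys)
      have h2 := hD 1 z (by push Not at hz; linarith)
      rw [one_smul] at h2
      exact h2.trans (mul_le_mul_of_nonneg_right (le_max_left _ _)
        (Real.rpow_nonneg z.im_pos.le _))
  refine ne_top_of_le_ne_top ?_ h1
  rw [lintegral_strip_im hH, ← Set.Ioc_union_Ioi_eq_Ioi zero_le_one]
  refine ne_top_of_le_ne_top (ENNReal.add_ne_top.mpr ⟨?_, ?_⟩)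
    (lintegral_union_le _ (Ioc (0 : ℝ) 1) (Ioi 1))
  · -- near zero
    have hint : IntegrableOn (fun y : ℝ => C * y ^ (s - 2)) (Ioc 0 1) := by
      refine Integrable.const_mul ?_ C
      exact (intervalIntegral.intervalIntegrable_rpow' (by linarith)).1
    have h3 : ∫⁻ y in Ioc (0 : ℝ) 1, ENNReal.ofReal (1 / y ^ 2) * H y =
        ∫⁻ y in Ioc (0 : ℝ) 1, ENNReal.ofReal (C * y ^ (s - 2)) := by
      refine setLIntegral_congr_fun measurableSet_Ioc fun y hy => ?_
      simp only [H]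
      rw [if_pos hy.2, ← ENNReal.ofReal_mul (by positivity)]
      congr 1
      rw [Real.rpow_sub hy.1, Real.rpow_two]
      field_simp
    rw [h3]
    exact hint.lintegral_lt_top.ne
  · have hint : IntegrableOn (fun y : ℝ => D' * y ^ (s - 4)) (Ioi 1) := by
      refine Integrable.const_mul ?_ D'
      exact integrableOn_Ioi_rpow_of_lt (by linarith) one_pos
    have h3 : ∫⁻ y in Ioi (1 : ℝ), ENNReal.ofReal (1 / y ^ 2) * H y =
        ∫⁻ y in Ioi (1 : ℝ), ENNReal.ofReal (D' * y ^ (s - 4)) := by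
      refine setLIntegral_congr_fun measurableSet_Ioi fun y hy => ?_
      have hy1 : (1 : ℝ) < y := hy
      have hy0 : (0 : ℝ) < y := by linarith
      simp only [H]
      rw [if_neg (not_le.mpr hy1), ← ENNReal.ofReal_mul (by positivity)]
      congr 1
      have h4 : y ^ (s - 4) = y ^ s * y ^ (-2 : ℝ) * y ^ (-2 : ℝ) := by
        rw [← Real.rpow_add hy0, ← Real.rpow_add hy0]
        congr 1
        ring
      have h5 : (1 : ℝ) / y ^ 2 = y ^ (-2 : ℝ) := by
        rw [Real.rpow_neg hy0.le, Real.rpow_two, one_div]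
      rw [h4, h5]
      ring
    rw [h3]
    exact hint.lintegral_lt_top.ne

variable [NeZero N]

omit [NeZero N] in
/-- bound of the integral over `Γ₀(N)\ℍ` by bounds on the fundamental domain -/
lemma lintegral_le_of_bound (hw : IsWeight (Gamma0 N) w) {f : ℍ → ℝ≥0∞} (hf : Measurable f)
    (hinv : ∀ (γ : Gamma0 N) z, f (γ • z) = f z) (K : SL(2, ℤ) ⧸ Gamma0 N → ℝ≥0∞)
    (hK : ∀ (r : SL(2, ℤ) ⧸ Gamma0 N) (z : ℍ), z ∈ (𝒟 : Set ℍ) → f (r.out⁻¹ • z) ≤ K r) :
    ∫⁻ z, f z ∂volume.withDensity w ≤ (∑' r, K r) * (volume : Measure ℍ) 𝒟 := by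
  rw [isWeight_wSL.lintegral_cosets (Gamma0 N) hw hf hinv, ← ENNReal.tsum_mul_right]
  refine ENNReal.tsum_le_tsum fun r => ?_
  calc ∫⁻ z, wSL z * f (r.out⁻¹ • z) ∂volume ≤
      ∫⁻ z, (𝒟 : Set ℍ).indicator (fun _ => K r) z ∂volume := by
        refine lintegral_mono fun z => ?_
        by_cases hz : z ∈ (𝒟 : Set ℍ)
        · rw [Set.indicator_of_mem hz]
          have h1 : wSL z ≤ 1 := isWeight_wSL.le_one z
          exact (mul_le_mul' h1 (hK r z hz)).trans (by rw [one_mul])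
        · rw [wSL_eq_zero hz, zero_mul]
          exact bot_le
    _ = K r * (volume : Measure ℍ) 𝒟 := by
        rw [lintegral_indicator ModularGroup.isClosed_fd.measurableSet, setLIntegral_const]

lemma tsum_ofReal_ne_top (K : SL(2, ℤ) ⧸ Gamma0 N → ℝ) :
    (∑' r, ENNReal.ofReal (K r)) * (volume : Measure ℍ) 𝒟 ≠ ∞ := by
  have : Finite (SL(2, ℤ) ⧸ Gamma0 N) := Subgroup.finite_quotient_of_finiteIndex
  have := Fintype.ofFinite (SL(2, ℤ) ⧸ Gamma0 N)
  refine ENNReal.mul_ne_top ?_ LTF.Pet.volume_fd_ne_top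
  rw [tsum_fintype]
  exact ENNReal.sum_ne_top.mpr fun _ _ => ENNReal.ofReal_ne_top

lemma integrable_of_rapidDecay (hw : IsWeight (Gamma0 N) w) (hG : Measurable G)
    (hinv : ∀ γ ∈ Gamma0 N, ∀ z, G (γ • z) = G z) (hdec : RapidDecay G) :
    Integrable G (volume.withDensity w) := by
  obtain ⟨C, hC0, hC⟩ := hdec.bounded
  refine ⟨hG.aestronglyMeasurable, ?_⟩
  refine lt_of_le_of_lt (lintegral_le_of_bound hw hG.enorm (fun γ z => ?_)
    (fun _ => ENNReal.ofReal C) fun r z _ => ?_) (tsum_ofReal_ne_top _).lt_top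
  · rw [show G (γ • z) = G z from hinv γ γ.2 z]
  · rw [← ofReal_norm]
    exact ENNReal.ofReal_le_ofReal (hC _)

/-- **(P7)** -/
theorem exists_bound_strip (hG : Measurable G) (hinv : ∀ γ ∈ Gamma0 N, ∀ z, G (γ • z) = G z)
    (hdec : RapidDecay G) (hw : IsWeight (Gamma0 N) w)
    (h0 : ∫ z, G z ∂(volume.withDensity w) = 0) :
    ∃ C : ℝ, ∀ s : ℝ, 1 < s → s ≤ 2 → ‖∫ z in strip, G z * ((z.im ^ s : ℝ) : ℂ)‖ ≤ C := by
  classical
  -- bounds for the Eisenstein series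
  choose A B hA hB hE using fun r : SL(2, ℤ) ⧸ Gamma0 N =>
    eisW_smul N (w0 : ZMod N × ZMod N → ℝ) r.out⁻¹
  choose D hD using fun r : SL(2, ℤ) ⧸ Gamma0 N => hdec (B r)
  set κ : ℝ := (∑ q : Fin N × Fin N, (w0 (((q.1 : ℕ) : ZMod N), ((q.2 : ℕ) : ZMod N)) : ℝ)) * cN N
  refine ⟨((∑' r, ENNReal.ofReal (|D r| * A r)) * (volume : Measure ℍ) 𝒟).toReal,
    fun s hs1 hs2 => ?_⟩
  have hs0 : s ≠ 0 := by linarith
  let E : ℍ → ℝ := fun z => ∑' p : Del N, term s z p.1
  have hEm : Measurable E := Measurable.tsum fun p => measurable_term s p.1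
  have hEinv : ∀ (γ : Gamma0 N) z, E (γ • z) = E z := by
    intro γ z
    simp only [E]
    rw [← (MulAction.toPerm γ : Del N ≃ Del N).tsum_eq (fun p : Del N => term s (γ • z) p.1)]
    exact tsum_congr fun p => term_act s γ z p.1
  have hGinv : ∀ (γ : Gamma0 N) z, G (γ • z) = G z := fun γ z => hinv γ γ.2 z
  have hfin := lintegral_strip_ne_top hdec hs1 hs2
  have hU := unf hs1 hG hinv hw hfin
  have hlU := lunf hs1 hG hinv hw hfin
  have e1 : ∀ z, ∑' p : Del N, G z * (term s z p.1 : ℂ) = G z * (E z : ℂ) := by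
    intro z
    rw [tsum_mul_left, Complex.ofReal_tsum]
  simp only [e1] at hU
  have hGE : Integrable (fun z => G z * (E z : ℂ)) (volume.withDensity w) := by
    refine ⟨(hG.mul (Complex.measurable_ofReal.comp hEm)).aestronglyMeasurable, ?_⟩
    refine lt_of_le_of_lt (lintegral_mono (g := fun z => ∑' p : Del N,
      ‖G z * (term s z p.1 : ℂ)‖ₑ) fun z => ?_) hlU.lt_top
    refine le_trans (le_of_eq (congrArg _ (e1 z).symm)) ?_
    exact enorm_tsum_le_tsum_enorm
  have hGi := integrable_of_rapidDecay hw hG hinv hdec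
  -- subtract the main term
  let R : ℍ → ℂ := fun z => G z * ((E z - κ / (s - 1) : ℝ) : ℂ)
  have hR : ∫ z, R z ∂volume.withDensity w = (zetaN N s : ℂ) *
      ∫ z in strip, G z * ((z.im ^ s : ℝ) : ℂ) := by
    rw [← hU]
    have h1 : R = fun z => G z * (E z : ℂ) - G z * ((κ / (s - 1) : ℝ) : ℂ) := by
      funext z
      simp only [R]
      rw [Complex.ofReal_sub, mul_sub]
    rw [h1, integral_sub hGE (hGi.mul_const _), integral_mul_const, h0, zero_mul, sub_zero]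
  have hRm : Measurable R := hG.mul (Complex.measurable_ofReal.comp (hEm.sub_const _))
  have hRinv : ∀ (γ : Gamma0 N) z, R (γ • z) = R z := by
    intro γ z
    simp only [R]
    rw [hGinv, hEinv]
  have hbound : ∫⁻ z, ‖R z‖ₑ ∂volume.withDensity w ≤
      (∑' r, ENNReal.ofReal (|D r| * A r)) * (volume : Measure ℍ) 𝒟 := by
    refine lintegral_le_of_bound hw hRm.enorm (fun γ z => by rw [hRinv]) _ fun r z hz => ?_
    have hy := half_le_im hz
    have hy0 : 0 < z.im := z.im_pos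
    have hx : |z.re| ≤ 1 := (abs_re_le hz).trans (by norm_num)
    obtain ⟨-, h2⟩ := hE r z hx hy s hs1 hs2
    have h3 := hD r r.out⁻¹ z hy
    rw [← ofReal_norm]
    refine ENNReal.ofReal_le_ofReal ?_
    simp only [R]
    rw [norm_mul, Complex.norm_real, Real.norm_eq_abs]
    have h4 : E (r.out⁻¹ • z) = ∑' p : ℤ × ℤ,
        w0 ((p.1 : ZMod N), (p.2 : ZMod N)) * term s (r.out⁻¹ • z) p := tsum_Del hs0 _
    rw [h4]
    calc ‖G (r.out⁻¹ • z)‖ * |_ - κ / (s - 1)| ≤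
        (|D r| * z.im ^ (-B r)) * (A r * z.im ^ B r) := by
          refine mul_le_mul (h3.trans ?_) h2 (abs_nonneg _)
            (mul_nonneg (abs_nonneg _) (Real.rpow_nonneg hy0.le _))
          exact mul_le_mul_of_nonneg_right (le_abs_self _) (Real.rpow_nonneg hy0.le _)
      _ = |D r| * A r := by
          rw [Real.rpow_neg hy0.le]
          have : z.im ^ B r ≠ 0 := (Real.rpow_pos_of_pos hy0 _).ne'
          field_simp
  have hne := tsum_ofReal_ne_top (N := N) fun r => |D r| * A r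
  have h5 : ‖(zetaN N s : ℂ) * ∫ z in strip, G z * ((z.im ^ s : ℝ) : ℂ)‖ ≤
      ((∑' r, ENNReal.ofReal (|D r| * A r)) * (volume : Measure ℍ) 𝒟).toReal := by
    rw [← hR]
    refine (norm_integral_le_lintegral_norm _).trans (ENNReal.toReal_mono hne ?_)
    simpa only [ofReal_norm] using hbound
  rw [norm_mul, Complex.norm_real, Real.norm_of_nonneg (zero_le_one.trans (one_le_zetaN hs1))] at h5
  refine le_trans ?_ h5
  exact le_mul_of_one_le_left (norm_nonneg _) (one_le_zetaN hs1)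

/-- the integral over the strip as an iterated integral -/
theorem integral_strip_eq (hG : Measurable G) (hdec : RapidDecay G) {s : ℝ} (hs1 : 1 < s)
    (hs2 : s ≤ 2) :
    ∫ z in strip, G z * ((z.im ^ s : ℝ) : ℂ) =
      ∫ y in Ioi (0 : ℝ), ((y ^ (s - 2) : ℝ) : ℂ) * ∫ x in (0 : ℝ)..1, G (ofComplex ⟨x, y⟩) := by
  have hfin := lintegral_strip_ne_top hdec hs1 hs2
  have hm : Measurable fun z : ℍ => ((z.im ^ s : ℝ) : ℂ) :=
    Complex.measurable_ofReal.comp (UpperHalfPlane.continuous_im.measurable.pow_const s)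
  have hint : IntegrableOn (fun z : ℍ => G z * ((z.im ^ s : ℝ) : ℂ)) strip := by
    refine ⟨(hG.mul hm).aestronglyMeasurable, ?_⟩
    refine lt_of_le_of_lt (le_of_eq ?_) hfin.lt_top
    refine lintegral_congr fun z => ?_
    rw [enorm_mul]
    congr 1
    rw [← ofReal_norm, Complex.norm_real, Real.norm_of_nonneg (Real.rpow_nonneg z.im_pos.le _)]
  rw [integral_strip hint]
  refine setIntegral_congr_fun measurableSet_Ioi fun y hy => ?_
  have hy0 : (0 : ℝ) < y := hy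
  rw [intervalIntegral.integral_of_le zero_le_one, ← integral_Ico_eq_integral_Ioc,
    ← integral_const_mul]
  refine setIntegral_congr_fun measurableSet_Ico fun x _ => ?_
  have h1 : (ofComplex ⟨x, y⟩ : ℍ).im = y := by
    rw [ofComplex_apply_of_im_pos (show 0 < (⟨x, y⟩ : ℂ).im from hy0)]
    rfl
  simp only [h1]
  have h2 : (y : ℝ) ^ (s - 2) = 1 / y ^ 2 * y ^ s := by
    rw [Real.rpow_sub hy0, Real.rpow_two]
    field_simp
  rw [h2]
  push_cast
  ring

/-- **(P7), final form.** -/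
theorem exists_bound_iterated (hG : Measurable G)
    (hinv : ∀ γ ∈ Gamma0 N, ∀ z, G (γ • z) = G z) (hdec : RapidDecay G)
    (hw : IsWeight (Gamma0 N) w) (h0 : ∫ z, G z ∂(volume.withDensity w) = 0) :
    ∃ C : ℝ, ∀ s : ℝ, 1 < s → s ≤ 2 →
      ‖∫ y in Ioi (0 : ℝ), ((y ^ (s - 2) : ℝ) : ℂ) * ∫ x in (0 : ℝ)..1, G (ofComplex ⟨x, y⟩)‖ ≤
        C := by
  obtain ⟨C, hC⟩ := exists_bound_strip hG hinv hdec hw h0
  refine ⟨C, fun s hs1 hs2 => ?_⟩
  rw [← integral_strip_eq hG hdec hs1 hs2]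
  exact hC s hs1 hs2

/-- a weight of `Γ₀(N)` exists -/
theorem exists_isWeight_Gamma0 : ∃ w : ℍ → ℝ≥0∞, IsWeight (Gamma0 N) w :=
  ⟨_, isWeight_wSL.sub (Gamma0 N)⟩

end Fermat.Agent.LT.Period
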