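import Fermat.Agent.LT.Period.Plane
import Fermat.Agent.LT.Period.Dens
import Fermat.Agent.LT.Period.Mellin
import Fermat.Agent.LT.Period.IdealK
import Fermat.Agent.LT.Period.PlaneMean
import Fermat.Agent.LT.Period.Index
import Fermat.Agent.LT.Period.Unfold
import Fermat.Agent.LT.Defs

/-!
# Non-vanishing of the period over the hyperbolic plane
-/

set_option autoImplicit false
set_option linter.unusedSectionVars false

open Filter Topology Matrix NumberField UpperHalfPlane MeasureTheory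
open scoped Classical MatrixGroups

namespace Fermat.Agent.LT.Period

open Fermat.Agent.FrobDensity Fermat.Agent.Frob

local notation "G3" => GL (Fin 2) (ZMod 3)
local notation "GQ" => (AlgebraicClosure ℚ ≃ₐ[ℚ] AlgebraicClosure ℚ)

variable {K : Type} [Field K] [NumberField K] {σ : K →+* ℂ} {s : 𝓞 K} {N : ℕ}

/-- The relation between the eigenvalues of the form and `ρ` used for the period. -/
structure IsRho (F : KForm σ s N) (ρ : GQ →* G3) : Prop where
  split : ∀ p : ℕ, p.Prime → ¬ p ∣ N → p ∈ FrobIn ρ pmOne →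
    (∀ ϖ : 𝓞 K, Prime ϖ → ϖ ∣ (p : 𝓞 K) → F.lam ϖ = 2) ∨
      (∀ ϖ : 𝓞 K, Prime ϖ → ϖ ∣ (p : 𝓞 K) → F.lam ϖ = -2)
  inert : ∀ p : ℕ, p.Prime → ¬ p ∣ N → p % 3 = 2 →
    (p ∈ FrobIn ρ refl3 → F.lam (p : 𝓞 K) = 2) ∧ (F.lam (p : 𝓞 K) = 0 ∨ F.lam (p : 𝓞 K) = 2)

lemma mod_three_of_pmOne {ρ : GQ →* G3}
    (hdet : ∀ τ : GQ, Matrix.GeneralLinearGroup.det (ρ τ) = WeierstrassCurve.modThreeCyclotomicChar τ) {p : ℕ}
    (hp3 : p ≠ 3) (h : p ∈ FrobIn ρ pmOne) : p % 3 = 1 := by
  obtain ⟨hp, A, hA, hI, τ, hτ, hc⟩ := h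
  have h1 := det_frob hdet hp hp3 hA hτ
  have h2 : (ρ τ).1.det = 1 := by
    rcases hc with h | h
    · rw [h]; simp
    · rw [Set.mem_singleton_iff.mp h]; simp [Matrix.det_fin_two]
  rw [h2] at h1
  have h3 : ((1 : ℕ) : ZMod 3) = (p : ZMod 3) := by simpa using h1
  have := (ZMod.natCast_eq_natCast_iff' _ _ _).mp h3
  omega

lemma mod_three_of_refl3 {ρ : GQ →* G3}
    (hdet : ∀ τ : GQ, Matrix.GeneralLinearGroup.det (ρ τ) = WeierstrassCurve.modThreeCyclotomicChar τ) {p : ℕ}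
    (hp3 : p ≠ 3) (h : p ∈ FrobIn ρ refl3) : p % 3 = 2 := by
  obtain ⟨hp, A, hA, hI, τ, hτ, hc⟩ := h
  have h1 := det_frob hdet hp hp3 hA hτ
  rw [hc.2] at h1
  have h3 : ((2 : ℕ) : ZMod 3) = (p : ZMod 3) := by rw [← h1]; rfl
  have := (ZMod.natCast_eq_natCast_iff' _ _ _).mp h3
  omega

lemma res_ofComplex (F : KForm σ s N) (x : ℝ) {y : ℝ} (hy : 0 < y) :
    res F (ofComplex ⟨x, y⟩) = F.F (rpt x y hy) := by
  have him : 0 < (⟨x, y⟩ : ℂ).im := hy
  unfold res
  rw [ofComplex_apply_of_im_pos him]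
  rfl

/-- Exponential decay implies decay faster than any power. -/
lemma rapidDecay_res (F : KForm σ s N) (hN : N ≠ 0) : RapidDecay (res F) := by
  intro B
  have : NeZero N := ⟨hN⟩
  -- finitely many cosets
  have hfin : (CongruenceSubgroup.Gamma0 N).FiniteIndex := inferInstance
  choose C c hc h using fun γ : SL(2, ℤ) => exists_res_le F γ
  -- a uniform bound for one element
  have h1 : ∀ γ : SL(2, ℤ), ∃ C' : ℝ, 0 ≤ C' ∧ ∀ z : ℍ, 1/2 ≤ z.im → ‖res F (γ • z)‖ ≤ C' * z.im ^ (-B) := by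
    intro γ
    have hlim : Tendsto (fun y : ℝ => y ^ B * Real.exp (-(c γ) * y)) atTop (𝓝 0) :=
      tendsto_rpow_mul_exp_neg_mul_atTop_nhds_zero B (c γ) (hc γ)
    obtain ⟨Y, hY⟩ := (hlim.eventually (gt_mem_nhds one_pos)).exists_forall_of_atTop
    set Y' := max Y (1/2) with hY'
    have hcont : ContinuousOn (fun y : ℝ => y ^ B * Real.exp (-(c γ) * y)) (Set.Icc (1/2) Y') := by
      refine ContinuousOn.mul (ContinuousOn.rpow_const continuousOn_id fun y hy => Or.inl ?_) (by fun_prop)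
      have : (0:ℝ) < y := lt_of_lt_of_le (by norm_num) hy.1
      exact this.ne'
    obtain ⟨M, hM⟩ := isCompact_Icc.exists_bound_of_continuousOn hcont
    have hb : ∀ y : ℝ, 1/2 ≤ y → y ^ B * Real.exp (-(c γ) * y) ≤ max M 1 := by
      intro y hy
      by_cases hyY : y ≤ Y'
      · exact ((le_abs_self _).trans (hM y ⟨hy, hyY⟩)).trans (le_max_left _ _)
      · push Not at hyY
        exact (hY y ((le_max_left _ _).trans hyY.le)).le.trans (le_max_right _ _)
    refine ⟨|C γ| * max M 1, by positivity, fun z hz => ?_⟩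
    have hzpos : 0 < z.im := z.im_pos
    refine (h γ z hz).trans ?_
    have h2 : Real.exp (-(c γ * z.im)) ≤ max M 1 * z.im ^ (-B) := by
      have := hb z.im hz
      rw [Real.rpow_neg hzpos.le, ← div_eq_mul_inv, le_div_iff₀ (Real.rpow_pos_of_pos hzpos B)]
      rw [mul_comm, ← neg_mul]
      exact this
    calc C γ * Real.exp (-(c γ * z.im)) ≤ |C γ| * Real.exp (-(c γ * z.im)) :=
          mul_le_mul_of_nonneg_right (le_abs_self _) (Real.exp_pos _).le
      _ ≤ |C γ| * (max M 1 * z.im ^ (-B)) := mul_le_mul_of_nonneg_left h2 (abs_nonneg _)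
      _ = _ := by ring
  choose C' hC0 hC' using h1
  have : Finite (Quotient (QuotientGroup.rightRel (CongruenceSubgroup.Gamma0 N))) :=
    (QuotientGroup.quotientRightRelEquivQuotientLeftRel _).finite_iff.mpr inferInstance
  have : Fintype (Quotient (QuotientGroup.rightRel (CongruenceSubgroup.Gamma0 N))) := Fintype.ofFinite _
  refine ⟨∑ q : Quotient (QuotientGroup.rightRel (CongruenceSubgroup.Gamma0 N)), C' q.out, fun γ z hz => ?_⟩
  set q : Quotient (QuotientGroup.rightRel (CongruenceSubgroup.Gamma0 N)) := Quotient.mk _ γ with hq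
  have hrel : γ * q.out⁻¹ ∈ CongruenceSubgroup.Gamma0 N := by
    have : (QuotientGroup.rightRel (CongruenceSubgroup.Gamma0 N)) q.out γ := Quotient.exact (Quotient.out_eq q)
    exact QuotientGroup.rightRel_apply.mp this
  have heq : γ • z = (γ * q.out⁻¹) • (q.out • z) := by
    rw [smul_smul, mul_assoc, inv_mul_cancel, mul_one]
  rw [heq, res_smul F hrel]
  refine (hC' q.out z hz).trans ?_
  refine mul_le_mul_of_nonneg_right ?_ (Real.rpow_nonneg z.im_pos.le _)
  exact Finset.single_le_sum (f := fun q : Quotient (QuotientGroup.rightRel (CongruenceSubgroup.Gamma0 N)) =>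
    C' q.out) (fun q _ => hC0 q.out) (Finset.mem_univ q)

/-- **The period is not zero.** -/
theorem period_ne_zero (hK : Module.finrank ℚ K = 2) (F : KForm σ s N) {ρ : GQ →* G3} (hρ : Continuous ρ) (hsurj : Function.Surjective ρ)
    (hdet : ∀ τ : GQ, Matrix.GeneralLinearGroup.det (ρ τ) = WeierstrassCurve.modThreeCyclotomicChar τ)
    (hF : IsRho F ρ) {w : ℍ → ENNReal} (hw : IsWeight (CongruenceSubgroup.Gamma0 N) w) :
    ∫ z, F.F (pl z) ∂(volume.withDensity w) ≠ 0 := by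
  intro h0
  have hN := F.N_ne
  have h3 := F.three_dvd
  have : NeZero N := ⟨hN⟩
  obtain ⟨C, hC⟩ := exists_bound_iterated (G := res F) (continuous_res F).measurable
    (fun γ hγ z => res_smul F hγ z) (rapidDecay_res F hN) hw h0
  have hin : ∀ p : ℕ, p.Prime → p % 3 = 2 → ¬ p ∣ N → F.lam (p : 𝓞 K) = 0 ∨ F.lam (p : 𝓞 K) = 2 := by
    intro p hp hp3 hpN
    exact (hF.inert p hp hpN hp3).2
  obtain ⟨A, hb, hSp, hIn, hsp, hinx⟩ := exists_asaiData hK F.s_sq F.three_dvd F hin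
    (exists_bound F hK F.s_sq F.three_dvd)
  have hp3 : ∀ p : ℕ, ¬ p ∣ N → p ≠ 3 := fun p hp h => hp (h ▸ h3)
  have hD := A.tendsto_abs_D (aw ρ N) (fun p hp => by
    unfold aw
    by_cases hpN : p ∣ N
    · rw [if_pos hpN]; exact Or.inr (Or.inr rfl)
    · rw [if_neg hpN]
      split_ifs with h1 h2
      · left
        have hm := mod_three_of_pmOne hdet (hp3 p hpN) h1
        have hmem : p ∈ A.Sp := by rw [hSp]; exact ⟨hm, hpN⟩
        obtain ⟨ϖ, ϖ', hϖ, hϖ', hmul, hx, hy⟩ := hsp p hp hmem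
        refine ⟨hmem, rfl, ?_⟩
        have d1 : ϖ ∣ (p : 𝓞 K) := ⟨ϖ', hmul.symm⟩
        have d2 : ϖ' ∣ (p : 𝓞 K) := ⟨ϖ, by rw [mul_comm]; exact hmul.symm⟩
        rcases hF.split p hp hpN h1 with h | h
        · rw [hx, hy, h ϖ hϖ d1, h ϖ' hϖ' d2]; simp
        · rw [hx, hy, h ϖ hϖ d1, h ϖ' hϖ' d2]; simp
      · right; left
        have hm := mod_three_of_refl3 hdet (hp3 p hpN) h2
        have hmem : p ∈ A.In := by rw [hIn]; exact ⟨hm, hpN⟩
        exact ⟨hmem, rfl, by rw [hinx p hp hmem, (hF.inert p hp hpN hm).1 h2]⟩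
      · right; right; rfl) (δ := 5 / 6) (by norm_num) (tendsto_aw hρ hsurj hN)
  -- the Mellin transform of the mean
  set κ : ℝ := 4 * Real.pi / √3 with hκ
  have hκ0 : 0 < κ := by positivity
  have hκ1 : 1 ≤ κ := by
    rw [hκ, le_div_iff₀ (by positivity), one_mul]
    have h1 : √3 ≤ 2 := by
      rw [show (2:ℝ) = √(2^2) by rw [Real.sqrt_sq (by norm_num)]]
      exact Real.sqrt_le_sqrt (by norm_num)
    have h2 := Real.pi_gt_three
    linarith
  have hAD : ∀ t : ℝ, 1 < t → t ≤ 2 → ∫ y in Set.Ioi (0:ℝ), ((y ^ (t - 2) : ℝ) : ℂ) *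
      ∫ x in (0:ℝ)..1, res F (ofComplex ⟨x, y⟩) =
        ((2 * (κ ^ (-t) * mell t * A.D t) : ℝ) : ℂ) := by
    intro t ht ht2
    have hl : Summable fun m : ℕ => |F.lam (m : 𝓞 K)| * (m : ℝ) ^ (-t) := by
      refine (A.summable_f ht ht2).congr fun m => ?_
      unfold AsaiData.f
      rw [hb, abs_mul, abs_of_nonneg (by positivity : (0:ℝ) ≤ (m : ℝ) ^ (-t))]
    have hm := integral_tsum_bK0 (lam := fun m : ℕ => F.lam (m : 𝓞 K)) (zero_lt_one.trans ht) hκ0 hl
    have hDt : A.D t = ∑' m : ℕ, F.lam (m : 𝓞 K) * (m : ℝ) ^ (-t) := by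
      unfold AsaiData.D AsaiData.f
      exact tsum_congr fun m => by rw [hb]
    rw [hDt, ← hm, ← integral_const_mul, ← integral_complex_ofReal]
    refine setIntegral_congr_fun measurableSet_Ioi fun y hy => ?_
    simp only [res_ofComplex F _ (Set.mem_Ioi.mp hy)]
    rw [mean_eq F hK F.s_sq F.three_dvd hy]
    push_cast
    ring
  -- contradiction
  have hbdd : ∀ t : ℝ, 1 < t → t ≤ 2 → |A.D t| ≤ C / (2 * (κ ^ (-2 : ℝ) * bK0 2)) := by
    intro t ht ht2
    have h1 := hC t ht ht2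
    rw [hAD t ht ht2, Complex.norm_real, Real.norm_eq_abs, abs_mul, abs_mul] at h1
    have hM := bK0_two_le_mell ht.le
    have hK2 := bK0_pos (y := 2) (by norm_num)
    have hκt : κ ^ (-2 : ℝ) ≤ κ ^ (-t) := Real.rpow_le_rpow_of_exponent_le hκ1 (by linarith)
    have hκ2 : 0 < κ ^ (-2 : ℝ) := by positivity
    rw [le_div_iff₀ (by positivity)]
    refine le_trans ?_ h1
    rw [abs_of_pos (by norm_num : (0:ℝ) < 2), abs_of_pos (mul_pos (hκ2.trans_le hκt) (hK2.trans_le hM))]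
    calc |A.D t| * (2 * (κ ^ (-2 : ℝ) * bK0 2)) = 2 * ((κ ^ (-2 : ℝ) * bK0 2) * |A.D t|) := by ring
      _ ≤ 2 * ((κ ^ (-t) * mell t) * |A.D t|) := by
          refine mul_le_mul_of_nonneg_left ?_ (by norm_num)
          refine mul_le_mul_of_nonneg_right ?_ (abs_nonneg _)
          exact mul_le_mul hκt hM hK2.le (hκ2.le.trans hκt)
  have hev := hD.eventually (eventually_gt_atTop (C / (2 * (κ ^ (-2 : ℝ) * bK0 2))))
  obtain ⟨t, ht, ht2⟩ := (hev.and (Ioc_mem_nhdsGT (one_lt_two (α := ℝ)))).exists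
  exact absurd (hbdd t ht2.1 ht2.2) (not_le.mpr ht)

/-- The eigenvalues in the form used for the period. -/
theorem isRho_of_hasSystem {F : KForm σ s N} {ρ : GQ →* G3}
    (hdet : ∀ τ : GQ, Matrix.GeneralLinearGroup.det (ρ τ) = WeierstrassCurve.modThreeCyclotomicChar τ)
    (hF : HasSystem ρ F) : IsRho F ρ where
  split p hp hpN h := by
    obtain ⟨-, A, hA, hI, τ, hτ, hc⟩ := h
    rcases hc with h | h
    · exact Or.inl (hF.split_one p hp hpN A hA τ hτ h)
    · exact Or.inr (hF.split_neg p hp hpN A hA τ hτ (Set.mem_singleton_iff.mp h))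
  inert p hp hpN hp3 := by
    have hp3' : p ≠ 3 := by omega
    have hd : ∀ (A : ValuationSubring (AlgebraicClosure ℚ)) (_ : A.LiesOverPrime p) (τ : GQ)
        (_ : A.IsFrobeniusAt τ p), Matrix.GeneralLinearGroup.det (ρ τ) = -1 := by
      intro A hA τ hτ
      have h1 := det_frob hdet hp hp3' hA hτ
      have h2 : (p : ZMod 3) = -1 := by
        have : ((2 : ℕ) : ZMod 3) = (p : ZMod 3) :=
          (ZMod.natCast_eq_natCast_iff' _ _ _).mpr (by omega)
        rw [← this]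
        rfl
      rw [h2] at h1
      apply Units.ext
      exact h1
    constructor
    · rintro ⟨-, A, hA, hI, τ, hτ, hc⟩
      exact hF.inert_refl p hp hpN A hA τ hτ (hd A hA τ hτ) (sq_of_mem_refl3 hc)
    · obtain ⟨A, hA, τ, hτ⟩ := Frob.exists_frobenius p hp
      by_cases h : ρ τ * ρ τ = 1
      · exact Or.inr (hF.inert_refl p hp hpN A hA τ hτ (hd A hA τ hτ) h)
      · exact Or.inl (hF.inert_other p hp hpN A hA τ hτ (hd A hA τ hτ) h)

/-- **Step (C).** -/
theorem stepC {ρ : GQ →* G3} (hρ : Continuous ρ) (hsurj : Function.Surjective ρ)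
    (hdet : ∀ τ : GQ, Matrix.GeneralLinearGroup.det (ρ τ) =
      WeierstrassCurve.modThreeCyclotomicChar τ) : StepC ρ := by
  intro K _ _ σ s N F hF P hP hfin w hw h0
  have hrel : P.relIndex (CongruenceSubgroup.Gamma0 N) ≠ 0 := by
    have := hfin.index_ne_zero
    exact fun h => this (Nat.eq_zero_of_zero_dvd (h ▸ Subgroup.relIndex_dvd_index_of_le hP))
  have hw' := isWeight_div hP hrel hw
  refine period_ne_zero hF.deg F hρ hsurj hdet (isRho_of_hasSystem hdet hF) hw' ?_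
  have h1 : (volume : Measure ℍ).withDensity
      (fun z => (P.relIndex (CongruenceSubgroup.Gamma0 N) : ENNReal)⁻¹ * w z) =
      (P.relIndex (CongruenceSubgroup.Gamma0 N) : ENNReal)⁻¹ • (volume : Measure ℍ).withDensity w := by
    rw [← withDensity_smul _ hw.meas]
    rfl
  rw [h1, integral_smul_measure, h0, smul_zero]

end Fermat.Agent.LT.Period
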