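import Mathlib
import Fermat.Prelude.Def_LanglandsTunnell_ExplicitLift

/-!
# Classes of `GL₂(𝔽₃)` and traces of a lift to `GL₂(ℤ[√-2])`
-/

set_option autoImplicit false

open Matrix FLT.ExplicitLift

namespace Fermat.Agent.LT.Period

/-- `GL₂(𝔽₃)`. -/
local notation "G3" => GL (Fin 2) (ZMod 3)

instance : Fact (Nat.Prime 3) := ⟨Nat.prime_three⟩

/-- The centre `{1, -1}`. -/
def pmOne : Set G3 := {1, -1}

/-- The reflections: trace zero, determinant `-1`. -/
def refl3 : Set G3 := {g | (g : Matrix (Fin 2) (Fin 2) (ZMod 3)).trace = 0 ∧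
  (g : Matrix (Fin 2) (Fin 2) (ZMod 3)).det = -1}

lemma card_G3 : Nat.card G3 = 48 := by
  rw [Matrix.card_GL_field]
  simp [Fin.prod_univ_two]

lemma neg_one_ne_one_G3 : (-1 : G3) ≠ 1 := by
  intro h
  have := congrArg (fun g : G3 => (g : Matrix (Fin 2) (Fin 2) (ZMod 3)) 0 0) h
  simp at this
  revert this
  decide

lemma card_pmOne : Nat.card pmOne = 2 := by
  rw [pmOne, Nat.card_coe_set_eq, Set.ncard_pair neg_one_ne_one_G3.symm]

lemma ext_val {g h : G3}
    (H : (g : Matrix (Fin 2) (Fin 2) (ZMod 3)) = (h : Matrix (Fin 2) (Fin 2) (ZMod 3))) : g = h :=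
  Units.ext H

lemma card_refl3 : Nat.card refl3 = 12 := by
  let X := {t : ZMod 3 × ZMod 3 × ZMod 3 // t.1 * t.1 + t.2.1 * t.2.2 = 1}
  have hX : Nat.card X = 12 := by
    rw [Nat.card_eq_fintype_card]
    decide
  rw [← hX]
  refine Nat.card_congr
    { toFun := fun g => ⟨(g.1.1 0 0, g.1.1 0 1, g.1.1 1 0), ?_⟩
      invFun := fun t => ⟨GeneralLinearGroup.mkOfDetNeZero
        !![t.1.1, t.1.2.1; t.1.2.2, -t.1.1] ?_, ?_⟩
      left_inv := ?_
      right_inv := ?_ }
  · have h1 := g.2.1
    have h2 := g.2.2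
    rw [Matrix.trace_fin_two] at h1
    rw [Matrix.det_fin_two] at h2
    have h3 : g.1.1 1 1 = -g.1.1 0 0 := by linear_combination h1
    change g.1.1 0 0 * g.1.1 0 0 + g.1.1 0 1 * g.1.1 1 0 = 1
    rw [h3] at h2
    linear_combination -h2
  · rw [Matrix.det_fin_two]
    have h := t.2
    simp only [of_apply, cons_val', cons_val_zero, cons_val_fin_one, cons_val_one]
    intro h0
    have : (1 : ZMod 3) = 0 := by linear_combination -h - h0
    exact one_ne_zero this
  · constructor
    · simp [GeneralLinearGroup.mkOfDetNeZero, Matrix.trace_fin_two]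
    · have h := t.2
      simp only [GeneralLinearGroup.mkOfDetNeZero, Matrix.det_fin_two]
      simp
      linear_combination -h
  · intro g
    apply Subtype.ext
    apply ext_val
    have h1 := g.2.1
    rw [Matrix.trace_fin_two] at h1
    ext i j
    fin_cases i <;> fin_cases j
    · rfl
    · rfl
    · rfl
    · change -g.1.1 0 0 = g.1.1 1 1
      linear_combination -h1
  · intro t
    rfl

lemma pmOne_conj (g c : G3) (h : c ∈ pmOne) : g * c * g⁻¹ ∈ pmOne := by
  rcases h with rfl | rfl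
  · left
    group
  · right
    simp

lemma refl3_conj (g c : G3) (h : c ∈ refl3) : g * c * g⁻¹ ∈ refl3 := by
  obtain ⟨h1, h2⟩ := h
  refine ⟨?_, ?_⟩
  · have : ((g * c * g⁻¹ : G3) : Matrix (Fin 2) (Fin 2) (ZMod 3)) = g.1 * c.1 * (g⁻¹).1 := rfl
    rw [this, Matrix.trace_mul_comm, ← Matrix.mul_assoc]
    have h3 : (g⁻¹).1 * g.1 = 1 := g.inv_mul
    rw [h3, Matrix.one_mul]
    exact h1
  · have : ((g * c * g⁻¹ : G3) : Matrix (Fin 2) (Fin 2) (ZMod 3)) = g.1 * c.1 * (g⁻¹).1 := rfl
    rw [this, Matrix.det_mul, Matrix.det_mul, mul_comm, ← mul_assoc, ← Matrix.det_mul]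
    have h3 : (g⁻¹).1 * g.1 = 1 := g.inv_mul
    rw [h3, Matrix.det_one, one_mul]
    exact h2

/-! ### Cayley--Hamilton -/

lemma ch_two {R : Type*} [CommRing R] (A : Matrix (Fin 2) (Fin 2) R) :
    A * A = A.trace • A - A.det • (1 : Matrix (Fin 2) (Fin 2) R) := by
  ext i j
  rw [Matrix.trace_fin_two, Matrix.det_fin_two]
  fin_cases i <;> fin_cases j <;>
    simp [Matrix.mul_apply, Fin.sum_univ_two] <;> ring

section Lift

variable {Ψ : GL (Fin 2) (ZMod 3) →* GL (Fin 2) (ℤ√(-2))}

lemma red_trace (hΨ : ∀ g, Matrix.GeneralLinearGroup.map red (Ψ g) = g) (g : G3) :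
    red (Ψ g).1.trace = g.1.trace := by
  conv_rhs => rw [← hΨ g]
  rw [Matrix.trace_fin_two, Matrix.trace_fin_two, map_add]
  rfl

lemma red_entry (hΨ : ∀ g, Matrix.GeneralLinearGroup.map red (Ψ g) = g) (g : G3) (i j : Fin 2) :
    red ((Ψ g).1 i j) = g.1 i j := by
  conv_rhs => rw [← hΨ g]
  rfl

lemma norm_nonneg' (a : ℤ√(-2)) : 0 ≤ a.norm := Zsqrtd.norm_nonneg (by norm_num) a

instance : IsDomain (ℤ√(-2)) := by
  have : NoZeroDivisors (ℤ√(-2)) := ⟨by
    intro a b h
    have h1 : a.norm * b.norm = 0 := by rw [← Zsqrtd.norm_mul, h, Zsqrtd.norm_zero]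
    rcases mul_eq_zero.mp h1 with h | h
    · left
      exact (Zsqrtd.norm_eq_zero_iff (by norm_num) a).mp h
    · right
      exact (Zsqrtd.norm_eq_zero_iff (by norm_num) b).mp h⟩
  exact NoZeroDivisors.to_isDomain _

/-- `Ψ(-1) = -1`. -/
lemma lift_neg_one (hΨ : ∀ g, Matrix.GeneralLinearGroup.map red (Ψ g) = g) :
    (Ψ (-1)).1 = -1 := by
  set c := (Ψ (-1)).1 with hc
  have h1 : c * c = 1 := by
    have : Ψ (-1) * Ψ (-1) = 1 := by rw [← map_mul]; simp
    exact congrArg Units.val this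
  have ht : c.trace ≠ 0 := by
    intro h
    have h2 := red_trace hΨ (-1)
    rw [← hc, h, map_zero, Matrix.trace_fin_two] at h2
    simp at h2
    revert h2
    decide
  have h3 := ch_two c
  rw [h1] at h3
  have e : ∀ i j, c.trace * c i j = (if i = j then 1 + c.det else 0) := by
    intro i j
    have := congrFun (congrFun h3 i) j
    simp only [Matrix.sub_apply, Matrix.smul_apply, smul_eq_mul, Matrix.one_apply] at this
    split_ifs at this ⊢ with hij
    · linear_combination -this
    · linear_combination -this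
  have e01 : c 0 1 = 0 := by
    have := e 0 1
    simpa [ht] using this
  have e10 : c 1 0 = 0 := by
    have := e 1 0
    simpa [ht] using this
  have e11 : c 0 0 = c 1 1 := by
    have h5 := e 0 0
    have h6 := e 1 1
    simp only [if_true] at h5 h6
    exact mul_left_cancel₀ ht (h5.trans h6.symm)
  have h7 : c 0 0 * c 0 0 = 1 := by
    have := congrFun (congrFun h1 0) 0
    rw [Matrix.mul_apply, Fin.sum_univ_two, e01] at this
    simpa using this
  have h8 : c 0 0 = -1 := by
    rcases mul_self_eq_one_iff.mp h7 with h | h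
    · exfalso
      have h9 := red_entry hΨ (-1) 0 0
      rw [← hc, h, map_one] at h9
      simp at h9
      revert h9
      decide
    · exact h
  ext1 i j
  fin_cases i <;> fin_cases j
  · simpa using h8
  · simpa using e01
  · simpa using e10
  · simpa [← e11] using h8

lemma trace_lift_one : (Ψ 1).1.trace = 2 := by
  rw [map_one]
  simp

lemma trace_lift_neg_one (hΨ : ∀ g, Matrix.GeneralLinearGroup.map red (Ψ g) = g) :
    (Ψ (-1)).1.trace = -2 := by
  rw [lift_neg_one hΨ]
  simp

/-- `g² = -1` implies `tr Ψ(g) = 0`. -/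
lemma trace_lift_eq_zero (hΨ : ∀ g, Matrix.GeneralLinearGroup.map red (Ψ g) = g) {g : G3}
    (hg : g * g = -1) : (Ψ g).1.trace = 0 := by
  set c := (Ψ g).1 with hc
  by_contra ht
  have h1 : c * c = -1 := by
    have : Ψ g * Ψ g = Ψ (-1) := by rw [← map_mul, hg]
    rw [← lift_neg_one hΨ, ← this]
    rfl
  have h3 := ch_two c
  rw [h1] at h3
  have e : ∀ i j, c.trace * c i j = (if i = j then c.det - 1 else 0) := by
    intro i j
    have := congrFun (congrFun h3 i) j
    simp only [Matrix.sub_apply, Matrix.smul_apply, smul_eq_mul, Matrix.one_apply,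
      Matrix.neg_apply] at this
    split_ifs at this ⊢ with hij
    · linear_combination -this
    · linear_combination -this
  have e01 : c 0 1 = 0 := by
    have := e 0 1
    simpa [ht] using this
  have h7 : c 0 0 * c 0 0 = -1 := by
    have := congrFun (congrFun h1 0) 0
    rw [Matrix.mul_apply, Fin.sum_univ_two, e01] at this
    simpa using this
  have h8 := congrArg red h7
  rw [map_mul, map_neg, map_one] at h8
  generalize red (c 0 0) = u at h8
  revert h8 u
  decide

lemma det_mul_self_of {g : G3} (hd : g.1.det = -1) :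
    g.1 * g.1 = g.1.trace • g.1 + 1 := by
  rw [ch_two, hd]
  simp

lemma sq_of_mem_refl3 {g : G3} (hg : g ∈ refl3) : g * g = 1 := by
  apply ext_val
  change g.1 * g.1 = 1
  rw [det_mul_self_of hg.2, hg.1]
  simp

lemma pow_four_of {g : G3} (hd : g.1.det = -1) (ht : g.1.trace ≠ 0) :
    (g * g) * (g * g) = -1 := by
  apply ext_val
  change (g.1 * g.1) * (g.1 * g.1) = -1
  have h1 := det_mul_self_of hd
  have ht2 : g.1.trace * g.1.trace = 1 := by
    generalize g.1.trace = t at ht
    revert t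
    decide
  have h3 : (3 : ZMod 3) = 0 := by decide
  have h2 : (g.1 * g.1) * (g.1 * g.1) = (g.1.trace • g.1 + 1) * (g.1.trace • g.1 + 1) := by
    rw [h1]
  rw [h2, add_mul, mul_add, mul_one, one_mul, Matrix.smul_mul, Matrix.mul_smul, smul_smul, ht2,
    one_smul, h1]
  have h4 : (g.1.trace • g.1 + 1 + g.1.trace • g.1 + (g.1.trace • g.1 + 1) :
      Matrix (Fin 2) (Fin 2) (ZMod 3)) = (3 : ZMod 3) • (g.1.trace • g.1) + (3 : ZMod 3) • 1 - 1 := by
    module
  rw [h4, h3]
  simp

/-- For `det g = -1`, `tr Ψ(g²)` is `2` for a reflection and `0` otherwise. -/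
lemma trace_lift_sq (hΨ : ∀ g, Matrix.GeneralLinearGroup.map red (Ψ g) = g) {g : G3}
    (hd : g.1.det = -1) [Decidable (g ∈ refl3)] :
    (Ψ (g * g)).1.trace = if g ∈ refl3 then 2 else 0 := by
  split_ifs with h
  · rw [sq_of_mem_refl3 h, trace_lift_one]
  · refine trace_lift_eq_zero hΨ (pow_four_of hd fun ht => h ⟨ht, hd⟩)

end Lift

end Fermat.Agent.LT.Period
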