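import Mathlib
import Fermat.Agent.Frob.Chebotarev
import Fermat.Agent.ECFrob.DetCyc
import Fermat.Agent.LT.Period.GLThree
import Fermat.Prelude.Def_GaloisRep_ModThreeCyclotomic

/-!
# Densities for `ρ : G_ℚ → GL₂(𝔽₃)`

* `tendsto_pmOne`, `tendsto_refl3` : the primes with `ρ(Frob) = ±1` resp. a reflection have
  densities `1 / 24` and `1 / 4`;
* `mem_FrobIn_iff` : membership in `FrobIn ρ C` may be tested with any Frobenius element at an
  unramified place;
* `det_frob` : `det ρ(Frob_p) = p` mod 3, `trace_sq_frob`: `tr Ψ(ρ(Frob_p)²) = 2` or `0` for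
  `p ≡ 2` mod `3`.
-/

set_option autoImplicit false

open Filter Topology Matrix WeierstrassCurve FLT.ExplicitLift
open scoped Classical Pointwise

namespace Fermat.Agent.LT.Period

open Fermat.Agent.FrobDensity Fermat.Agent.Frob

local notation "G3" => GL (Fin 2) (ZMod 3)

/-- the absolute Galois group of `ℚ` -/
local notation "GQ" => (AlgebraicClosure ℚ ≃ₐ[ℚ] AlgebraicClosure ℚ)

/-- A continuous homomorphism to a finite discrete group factors through a finite level. -/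
theorem exists_level_of_continuous {G : Type*} [Group G] [TopologicalSpace G] [DiscreteTopology G]
    {ρ : GQ →* G} (hρ : Continuous ρ) :
    ∃ L : IntermediateField ℚ (AlgebraicClosure ℚ), FiniteDimensional ℚ L ∧
      ∀ σ : GQ, (∀ x ∈ L, σ x = x) → ρ σ = 1 := by
  have h1 : ρ ⁻¹' {1} ∈ 𝓝 (1 : GQ) := by
    apply hρ.continuousAt.preimage_mem_nhds
    rw [map_one]
    exact (isOpen_discrete _).mem_nhds rfl
  obtain ⟨L, hL, h2⟩ := (krullTopology_mem_nhds_one_iff ℚ (AlgebraicClosure ℚ) _).mp h1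
  refine ⟨L, hL, fun σ hσ => h2 ?_⟩
  rw [SetLike.mem_coe, IntermediateField.mem_fixingSubgroup_iff]
  exact hσ

/-- Two Frobenius elements at the same place differ by inertia. -/
lemma frob_mul_inv_mem_inertia {A : ValuationSubring (AlgebraicClosure ℚ)} {p : ℕ} {σ σ' : GQ}
    (h : A.IsFrobeniusAt σ p) (h' : A.IsFrobeniusAt σ' p) :
    σ'⁻¹ * σ ∈ A.inertiaSubgroupIn ℚ := by
  obtain ⟨h1, h2⟩ := h
  obtain ⟨h1', h2'⟩ := h'
  refine ⟨(⟨σ', h1'⟩ : A.decompositionSubgroup ℚ)⁻¹ * ⟨σ, h1⟩, ?_, rfl⟩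
  change _ ∈ MonoidHom.ker _
  rw [MonoidHom.mem_ker]
  ext x
  change ((⟨σ', h1'⟩ : A.decompositionSubgroup ℚ)⁻¹ * ⟨σ, h1⟩) • x = x
  rw [mul_smul, h2, ← h2', inv_smul_smul]

/-- Membership in `FrobIn ρ C` can be tested at any unramified place, with any Frobenius. -/
theorem mem_FrobIn_iff {G : Type*} [Group G] (ρ : GQ →* G) {C : Set G}
    (hC : ∀ g c : G, c ∈ C → g * c * g⁻¹ ∈ C) {p : ℕ} (hp : p.Prime)
    {A : ValuationSubring (AlgebraicClosure ℚ)} (hA : A.LiesOverPrime p)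
    (hI : ∀ τ ∈ A.inertiaSubgroupIn ℚ, ρ τ = 1) {σ : GQ} (hσ : A.IsFrobeniusAt σ p) :
    p ∈ FrobIn ρ C ↔ ρ σ ∈ C := by
  constructor
  · rintro ⟨-, A', hA', hI', σ', hσ', h⟩
    obtain ⟨g, rfl⟩ := exists_smul_eq hp hA' hA
    have h1 := isFrobeniusAt_conj (g := g) hσ'
    have h2 := hI _ (frob_mul_inv_mem_inertia hσ h1)
    rw [map_mul, map_inv, inv_mul_eq_one] at h2
    rw [← h2, map_mul, map_mul, map_inv]
    exact hC _ _ h
  · intro h
    exact ⟨hp, A, hA, hI, σ, hσ, h⟩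

section Densities

variable {ρ : GQ →* G3}

/-- The density of the primes with `ρ(Frob_p) = ± 1` is `1 / 24`. -/
theorem tendsto_pmOne (hρ : Continuous ρ) (hsurj : Function.Surjective ρ) :
    Tendsto (fun s : ℝ => PS (fun p => if p ∈ FrobIn ρ pmOne then 1 else 0) s /
      Real.log (1 / (s - 1))) (𝓝[>] 1) (𝓝 (1 / 24)) := by
  have h := chebotarev_PS ρ hsurj (exists_level_of_continuous hρ) pmOne pmOne_conj
  rw [card_G3, card_pmOne] at h
  norm_num at h
  norm_num
  exact h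

/-- The density of the primes with `ρ(Frob_p)` a reflection is `1 / 4`. -/
theorem tendsto_refl3 (hρ : Continuous ρ) (hsurj : Function.Surjective ρ) :
    Tendsto (fun s : ℝ => PS (fun p => if p ∈ FrobIn ρ refl3 then 1 else 0) s /
      Real.log (1 / (s - 1))) (𝓝[>] 1) (𝓝 (1 / 4)) := by
  have h := chebotarev_PS ρ hsurj (exists_level_of_continuous hρ) refl3 refl3_conj
  rw [card_G3, card_refl3] at h
  norm_num at h
  norm_num
  exact h

/-- `det ρ(Frob_p) = p` mod 3. -/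
theorem det_frob
    (hdet : ∀ σ : GQ, Matrix.GeneralLinearGroup.det (ρ σ) = modThreeCyclotomicChar σ) {p : ℕ}
    (hp : p.Prime) (hp3 : p ≠ 3) {A : ValuationSubring (AlgebraicClosure ℚ)}
    (hA : A.LiesOverPrime p) {σ : GQ} (hσ : A.IsFrobeniusAt σ p) :
    (ρ σ).1.det = (p : ZMod 3) := by
  have h1 := congrArg Units.val (hdet σ)
  rw [← ECFrob.cycMod_frobenius hp hA hσ hp3]
  exact h1

end Densities

end Fermat.Agent.LT.Period
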