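import Mathlib

/-!
# Local Euler factors of the Asai and Rankin-Selberg series: sharp inequalities

`ch x k = U_k(x/2)`: the Hecke eigenvalue at the `k`-th power of a prime with parameter `x` (unitary
normalisation).  The generating series of `ch x k * ch y k` is `(1 - T²)/Q(x,y,T)`; we derive it from
summability only, and the two inequalities used for the logarithms.
-/

set_option autoImplicit false

open Filter Topology

namespace Fermat.Agent.LT.Period

/-- The Hecke eigenvalue at a `k`-th power: `ch x 0 = 1`, `ch x 1 = x`,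
`ch x (k+2) = x * ch x (k+1) - ch x k`. -/
noncomputable def ch (x : ℝ) : ℕ → ℝ
  | 0 => 1
  | 1 => x
  | (k + 2) => x * ch x (k + 1) - ch x k

@[simp] lemma ch_zero (x : ℝ) : ch x 0 = 1 := rfl
@[simp] lemma ch_one (x : ℝ) : ch x 1 = x := rfl
lemma ch_add_two (x : ℝ) (k : ℕ) : ch x (k + 2) = x * ch x (k + 1) - ch x k := rfl

lemma ch_two_eq (k : ℕ) : ch 2 k = k + 1 := by
  induction k using Nat.strong_induction_on with
  | _ k ih =>
    match k with
    | 0 => simp
    | 1 => simp; norm_num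
    | (k + 2) =>
      rw [ch_add_two, ih k (by omega), ih (k + 1) (by omega)]
      push_cast
      ring

lemma ch_neg (x : ℝ) (k : ℕ) : ch (-x) k = (-1) ^ k * ch x k := by
  induction k using Nat.strong_induction_on with
  | _ k ih =>
    match k with
    | 0 => simp
    | 1 => simp
    | (k + 2) =>
      rw [ch_add_two, ch_add_two, ih k (by omega), ih (k + 1) (by omega)]
      ring

/-- `Q(x,y,T)`. -/
noncomputable def QQ (x y T : ℝ) : ℝ :=
  1 - x * y * T + (x ^ 2 + y ^ 2 - 2) * T ^ 2 - x * y * T ^ 3 + T ^ 4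

/-- The generating series of `ch x k * ch y k`. -/
lemma tsum_ch_mul_ch {x y T : ℝ} (hT0 : 0 < T)
    (hx : Summable fun k => ch x k ^ 2 * T ^ k) (hy : Summable fun k => ch y k ^ 2 * T ^ k) :
    Summable (fun k => ch x k * ch y k * T ^ k) ∧
      (∑' k, ch x k * ch y k * T ^ k) * QQ x y T = 1 - T ^ 2 := by
  -- summability of all shifted products
  have key : ∀ f g : ℕ → ℝ, Summable (fun k => f k ^ 2 * T ^ k) → Summable (fun k => g k ^ 2 * T ^ k) →
      Summable (fun k => f k * g k * T ^ k) := by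
    intro f g hf hg
    refine Summable.of_norm_bounded ((hf.add hg).mul_left (1 / 2)) fun k => ?_
    have h1 : 0 ≤ T ^ k := pow_nonneg hT0.le k
    rw [Real.norm_eq_abs, abs_mul, abs_mul, abs_of_nonneg h1]
    have h2 : |f k| * |g k| ≤ 1 / 2 * (f k ^ 2 + g k ^ 2) := by
      nlinarith [sq_nonneg (|f k| - |g k|), sq_abs (f k), sq_abs (g k)]
    calc |f k| * |g k| * T ^ k ≤ 1 / 2 * (f k ^ 2 + g k ^ 2) * T ^ k :=
          mul_le_mul_of_nonneg_right h2 h1
      _ = _ := by ring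
  have shift : ∀ f : ℕ → ℝ, Summable (fun k => f k ^ 2 * T ^ k) →
      Summable (fun k => f (k + 1) ^ 2 * T ^ k) := by
    intro f hf
    have h1 := (summable_nat_add_iff 1).mpr hf
    have h2 := h1.mul_left T⁻¹
    refine h2.congr fun k => ?_
    rw [pow_succ]
    field_simp
    ring
  have hx1 := shift _ hx
  have hy1 := shift _ hy
  have sA := key _ _ hx hy
  have sB := key _ _ hx1 hy
  have sC := key _ _ hx hy1
  have sD := key _ _ hx1 hy1
  refine ⟨sA, ?_⟩
  set A := ∑' k, ch x k * ch y k * T ^ k with hA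
  set B := ∑' k, ch x (k + 1) * ch y k * T ^ k with hB
  set C := ∑' k, ch x k * ch y (k + 1) * T ^ k with hC
  set D := ∑' k, ch x (k + 1) * ch y (k + 1) * T ^ k with hD
  have eA : A = 1 + T * D := by
    rw [hA, sA.tsum_eq_zero_add, hD, ← tsum_mul_left]
    congr 1
    · simp
    · refine tsum_congr fun k => ?_
      rw [pow_succ]; ring
  have eB : B = x + T * (x * D - C) := by
    rw [hB, sB.tsum_eq_zero_add, hD, hC, ← tsum_mul_left, ← (sD.mul_left x).tsum_sub sC,
      ← tsum_mul_left]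
    congr 1
    · simp
    · refine tsum_congr fun k => ?_
      rw [show k + 1 + 1 = k + 2 from rfl, ch_add_two, pow_succ]; ring
  have eC : C = y + T * (y * D - B) := by
    rw [hC, sC.tsum_eq_zero_add, hD, hB, ← tsum_mul_left, ← (sD.mul_left y).tsum_sub sB,
      ← tsum_mul_left]
    congr 1
    · simp
    · refine tsum_congr fun k => ?_
      rw [show k + 1 + 1 = k + 2 from rfl, ch_add_two, pow_succ]; ring
  have eD : D = x * y + T * (x * y * D - x * B - y * C + A) := by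
    have s1 : Summable fun k => x * y * (ch x (k + 1) * ch y (k + 1) * T ^ k)
        - x * (ch x (k + 1) * ch y k * T ^ k) := (sD.mul_left _).sub (sB.mul_left _)
    have s2 : Summable fun k => x * y * (ch x (k + 1) * ch y (k + 1) * T ^ k)
        - x * (ch x (k + 1) * ch y k * T ^ k) - y * (ch x k * ch y (k + 1) * T ^ k) :=
      s1.sub (sC.mul_left _)
    have e3 : x * y * D - x * B - y * C + A = ∑' k, (x * y * (ch x (k + 1) * ch y (k + 1) * T ^ k)
        - x * (ch x (k + 1) * ch y k * T ^ k) - y * (ch x k * ch y (k + 1) * T ^ k)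
        + ch x k * ch y k * T ^ k) := by
      rw [s2.tsum_add sA, s1.tsum_sub (sC.mul_left _), (sD.mul_left _).tsum_sub (sB.mul_left _),
        tsum_mul_left, tsum_mul_left, tsum_mul_left]
    rw [e3, hD, sD.tsum_eq_zero_add, ← tsum_mul_left]
    congr 1
    · simp
    · refine tsum_congr fun k => ?_
      rw [show k + 1 + 1 = k + 2 from rfl, ch_add_two, ch_add_two, pow_succ]; ring
  unfold QQ
  have hTD : T * D = A - 1 := by linarith
  have eB' : B = x * A - T * C := by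
    have : B = x + x * (T * D) - T * C := by rw [eB]; ring
    rw [this, hTD]; ring
  have eC' : C = y * A - T * B := by
    have : C = y + y * (T * D) - T * B := by rw [eC]; ring
    rw [this, hTD]; ring
  have eA' : A = 1 + x * y * T * A - T ^ 2 * (x * B + y * C) + T ^ 2 * A := by
    have : T * D = x * y * T + T * (x * y * (T * D)) - T ^ 2 * (x * B + y * C) + T ^ 2 * A := by
      conv_lhs => rw [eD]
      ring
    rw [hTD] at this
    linear_combination this
  have f1 : B * (1 - T ^ 2) = (x - T * y) * A := by linear_combination eB' - T * eC'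
  have f2 : C * (1 - T ^ 2) = (y - T * x) * A := by linear_combination eC' - T * eB'
  linear_combination (1 - T ^ 2) * eA' - T ^ 2 * x * f1 - T ^ 2 * y * f2

/-- The generating series of squares. -/
lemma tsum_ch_sq {x T : ℝ} (hT0 : 0 < T) (hT1 : T < 1)
    (hx : Summable fun k => ch x k ^ 2 * T ^ k) :
    1 ≤ (∑' k, ch x k ^ 2 * T ^ k) ∧
      Real.exp (x ^ 2 * T - 2 * x ^ 2 * T ^ 2) ≤ ∑' k, ch x k ^ 2 * T ^ k := by
  obtain ⟨-, h⟩ := tsum_ch_mul_ch hT0 hx hx
  have h' : (∑' k, ch x k ^ 2 * T ^ k) * QQ x x T = 1 - T ^ 2 := by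
    rw [← h]
    congr 1
    exact tsum_congr fun k => by ring
  set S := ∑' k, ch x k ^ 2 * T ^ k with hS
  have hS1 : 1 ≤ S := by
    rw [hS, hx.tsum_eq_zero_add]
    have : 0 ≤ ∑' k, ch x (k + 1) ^ 2 * T ^ (k + 1) :=
      tsum_nonneg fun k => mul_nonneg (sq_nonneg _) (pow_nonneg hT0.le _)
    simp only [ch_zero, pow_zero]
    linarith
  refine ⟨hS1, ?_⟩
  have hQ : QQ x x T = (1 - T) ^ 2 * ((1 + T) ^ 2 - x ^ 2 * T) := by unfold QQ; ring
  have h1 : S * (1 - T) * ((1 + T) ^ 2 - x ^ 2 * T) = 1 + T := by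
    have : (1 - T) * (S * (1 - T) * ((1 + T) ^ 2 - x ^ 2 * T)) = (1 - T) * (1 + T) := by
      rw [hQ] at h'
      linear_combination h'
    exact mul_left_cancel₀ (by linarith : (1 - T) ≠ 0) this
  have hpos : 0 < (1 + T) ^ 2 - x ^ 2 * T := by
    by_contra hneg
    push Not at hneg
    have : S * (1 - T) * ((1 + T) ^ 2 - x ^ 2 * T) ≤ 0 :=
      mul_nonpos_of_nonneg_of_nonpos (mul_nonneg (by linarith) (by linarith)) hneg
    linarith
  set u := x ^ 2 * T / (1 + T) ^ 2 with hu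
  have hT2 : 0 < (1 + T) ^ 2 := by positivity
  have hu1 : 0 < 1 - u := by
    rw [hu, sub_pos, div_lt_one hT2]
    linarith
  have h2 : S * ((1 - T ^ 2) * (1 - u)) = 1 := by
    have : (1 + T) ^ 2 * (1 - u) = (1 + T) ^ 2 - x ^ 2 * T := by
      rw [hu]; field_simp
    have h3 : S * ((1 - T) * ((1 + T) ^ 2 * (1 - u))) = 1 + T := by
      rw [this]; linear_combination h1
    have : (1 + T) * (S * ((1 - T ^ 2) * (1 - u))) = (1 + T) * 1 := by
      linear_combination h3
    exact mul_left_cancel₀ (by linarith : (1 + T) ≠ 0) this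
  have h3 : (1 - T ^ 2) * (1 - u) ≤ Real.exp (-u) := by
    have e1 : 1 - u ≤ Real.exp (-u) := by linarith [Real.add_one_le_exp (-u)]
    have e2 : (1 - T ^ 2) * (1 - u) ≤ 1 * (1 - u) :=
      mul_le_mul_of_nonneg_right (by nlinarith) hu1.le
    linarith
  have h4 : Real.exp u ≤ S := by
    have hpos2 : 0 < (1 - T ^ 2) * (1 - u) := mul_pos (by nlinarith) hu1
    have : S = 1 / ((1 - T ^ 2) * (1 - u)) := by
      rw [eq_div_iff hpos2.ne']; exact h2
    rw [this, le_div_iff₀ hpos2]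
    calc Real.exp u * ((1 - T ^ 2) * (1 - u)) ≤ Real.exp u * Real.exp (-u) :=
          mul_le_mul_of_nonneg_left h3 (Real.exp_pos _).le
      _ = 1 := by rw [← Real.exp_add]; simp
  refine le_trans (Real.exp_le_exp.mpr ?_) h4
  rw [hu, le_div_iff₀ hT2]
  have : (1 - 2 * T) * (1 + T) ^ 2 ≤ 1 := by nlinarith [pow_pos hT0 2, pow_pos hT0 3]
  calc (x ^ 2 * T - 2 * x ^ 2 * T ^ 2) * (1 + T) ^ 2 = x ^ 2 * T * ((1 - 2 * T) * (1 + T) ^ 2) := by ring
    _ ≤ x ^ 2 * T * 1 := mul_le_mul_of_nonneg_left this (by positivity)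
    _ = x ^ 2 * T := by ring

lemma exp_le_one_add {T : ℝ} (hT0 : 0 ≤ T) : Real.exp (T - T ^ 2) ≤ 1 + T := by
  have h1 : 1 / (1 + T) ≤ Real.exp (-(T / (1 + T))) := by
    have := Real.add_one_le_exp (-(T / (1 + T)))
    have e : -(T / (1 + T)) + 1 = 1 / (1 + T) := by field_simp; ring
    linarith
  have h2 : Real.exp (T / (1 + T)) ≤ 1 + T := by
    rw [Real.exp_neg] at h1
    have h3 := inv_anti₀ (by positivity) h1
    simpa using h3
  refine le_trans (Real.exp_le_exp.mpr ?_) h2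
  rw [le_div_iff₀ (by linarith)]
  nlinarith [pow_nonneg hT0 3]

lemma exp_neg_two_mul_le {u : ℝ} (h0 : 0 ≤ u) (h1 : u ≤ 1 / 2) : Real.exp (-(2 * u)) ≤ 1 - u := by
  have h2 := exp_le_one_add (T := u / (1 - u)) (by apply div_nonneg h0; linarith)
  have h3 : 1 - u > 0 := by linarith
  have e : 1 + u / (1 - u) = 1 / (1 - u) := by field_simp; ring
  have h4 : Real.exp (2 * u) * (1 - u) ≥ 1 := by
    have : 2 * u + 1 ≤ Real.exp (2 * u) := Real.add_one_le_exp _
    nlinarith
  rw [Real.exp_neg, inv_le_comm₀ (Real.exp_pos _) h3, ← one_div, div_le_iff₀ h3]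
  exact h4

/-- Lower bound for the local factor at a split prime. -/
lemma exp_le_abs_tsum_ch_mul_ch {x y T : ℝ} (hT0 : 0 < T) (hT1 : T ≤ 1 / 2)
    (hx : Summable fun k => ch x k ^ 2 * T ^ k) (hy : Summable fun k => ch y k ^ 2 * T ^ k) :
    Real.exp (-(1 / 2 * (x ^ 2 + y ^ 2) * T) - 3 / 2 * (x ^ 2 + y ^ 2) * T ^ 2 - 5 * T ^ 2) ≤
      |∑' k, ch x k * ch y k * T ^ k| := by
  obtain ⟨-, h⟩ := tsum_ch_mul_ch hT0 hx hy
  set A := ∑' k, ch x k * ch y k * T ^ k with hA
  have hT2 : 0 < T ^ 2 := by positivity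
  have hT2' : T ^ 2 ≤ 1 / 4 := by nlinarith
  have hQ : |QQ x y T| ≤ Real.exp (1 / 2 * (x ^ 2 + y ^ 2) * T + 3 / 2 * (x ^ 2 + y ^ 2) * T ^ 2
      + 3 * T ^ 2) := by
    refine le_trans ?_ (Real.add_one_le_exp _)
    have hxy : |x * y| ≤ 1 / 2 * (x ^ 2 + y ^ 2) := by
      rw [abs_mul]
      nlinarith [sq_nonneg (|x| - |y|), sq_abs x, sq_abs y]
    have hxy1 := (abs_le.mp hxy).1
    have hxy2 := (abs_le.mp hxy).2
    have hw : 0 ≤ x ^ 2 + y ^ 2 := by positivity
    have hT3 : T ^ 3 ≤ 1 / 2 * T ^ 2 := by nlinarith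
    have hT3' : 0 ≤ T ^ 3 := by positivity
    have hT4 : T ^ 4 ≤ 1 / 4 * T ^ 2 := by nlinarith
    have hT4' : 0 ≤ T ^ 4 := by positivity
    have a1 : |x * y * T| ≤ 1 / 2 * (x ^ 2 + y ^ 2) * T := by
      rw [abs_mul, abs_of_pos hT0]; exact mul_le_mul_of_nonneg_right hxy hT0.le
    have a3 : |x * y * T ^ 3| ≤ 1 / 2 * (x ^ 2 + y ^ 2) * (1 / 2 * T ^ 2) := by
      rw [abs_mul, abs_of_nonneg hT3']
      exact mul_le_mul hxy hT3 hT3' (by positivity)
    have a1' := abs_le.mp a1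
    have a3' := abs_le.mp a3
    unfold QQ
    rw [abs_le]
    constructor
    · nlinarith [mul_nonneg hw hT2.le]
    · nlinarith [mul_nonneg hw hT2.le]
  have h1 : Real.exp (-(2 * T ^ 2)) ≤ |A| * |QQ x y T| := by
    rw [← abs_mul, h, abs_of_pos (by linarith)]
    exact exp_neg_two_mul_le hT2.le (by linarith)
  have h2 : Real.exp (-(2 * T ^ 2)) ≤ |A| * Real.exp (1 / 2 * (x ^ 2 + y ^ 2) * T
      + 3 / 2 * (x ^ 2 + y ^ 2) * T ^ 2 + 3 * T ^ 2) :=
    h1.trans (mul_le_mul_of_nonneg_left hQ (abs_nonneg _))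
  have h3 := mul_le_mul_of_nonneg_right h2 (Real.exp_pos (-(1 / 2 * (x ^ 2 + y ^ 2) * T
      + 3 / 2 * (x ^ 2 + y ^ 2) * T ^ 2 + 3 * T ^ 2))).le
  rw [mul_assoc |A|, ← Real.exp_add, ← Real.exp_add, add_neg_cancel, Real.exp_zero, mul_one] at h3
  refine le_trans (Real.exp_le_exp.mpr (le_of_eq ?_)) h3
  ring

lemma summable_two {T : ℝ} (hT0 : 0 < T) (hT1 : T < 1) :
    Summable (fun k : ℕ => ((k : ℝ) + 1) * T ^ k) ∧ ∑' k : ℕ, ((k : ℝ) + 1) * T ^ k = 1 / (1 - T) ^ 2 := by
  have h := hasSum_coe_mul_geometric_of_norm_lt_one (r := T) (by rw [Real.norm_of_nonneg hT0.le]; exact hT1)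
  have h2 := hasSum_geometric_of_norm_lt_one (ξ := T) (by rw [Real.norm_of_nonneg hT0.le]; exact hT1)
  have h3 := h.add h2
  have h4 : T / (1 - T) ^ 2 + (1 - T)⁻¹ = 1 / (1 - T) ^ 2 := by
    have : (1 - T) ≠ 0 := by linarith
    field_simp
    ring
  rw [h4] at h3
  have h5 : (fun k : ℕ => ((k : ℝ) + 1) * T ^ k) = fun k : ℕ => (k : ℝ) * T ^ k + T ^ k := by
    funext k; ring
  rw [h5]
  exact ⟨h3.summable, h3.tsum_eq⟩

/-- Frobenius `±1`: the local factor is `(1+T)/(1-T)³`. -/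
lemma exp_le_tsum_two {x T : ℝ} (hx2 : x = 2 ∨ x = -2) (hT0 : 0 < T) (hT1 : T ≤ 1 / 2)
    (hx : Summable fun k => ch x k ^ 2 * T ^ k) :
    Real.exp (4 * T - T ^ 2) ≤ |∑' k, ch x k * ch x k * T ^ k| := by
  obtain ⟨-, h⟩ := tsum_ch_mul_ch hT0 hx hx
  have hQ : QQ x x T = (1 - T) ^ 4 := by
    unfold QQ
    rcases hx2 with rfl | rfl <;> ring
  rw [hQ] at h
  set A := ∑' k, ch x k * ch x k * T ^ k with hA
  have h1T : 0 < 1 - T := by linarith
  have h1 : A * (1 - T) ^ 3 = 1 + T := by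
    have : (1 - T) * (A * (1 - T) ^ 3) = (1 - T) * (1 + T) := by linear_combination h
    exact mul_left_cancel₀ h1T.ne' this
  have hA0 : 0 < A := by
    by_contra hneg
    push Not at hneg
    have : A * (1 - T) ^ 3 ≤ 0 := mul_nonpos_of_nonpos_of_nonneg hneg (by positivity)
    linarith
  rw [abs_of_pos hA0]
  have h2 : 1 - T ≤ Real.exp (-T) := by linarith [Real.add_one_le_exp (-T)]
  have h3 : (1 - T) ^ 3 ≤ Real.exp (-T) ^ 3 := pow_le_pow_left₀ h1T.le h2 3
  have h4 : Real.exp (T - T ^ 2) ≤ A * Real.exp (-T) ^ 3 :=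
    (exp_le_one_add hT0.le).trans (h1 ▸ mul_le_mul_of_nonneg_left h3 hA0.le)
  have h5 := mul_le_mul_of_nonneg_right h4 (Real.exp_pos (3 * T)).le
  rw [← Real.exp_add, mul_assoc, ← Real.exp_nat_mul, ← Real.exp_add] at h5
  have e1 : ((3 : ℕ) : ℝ) * -T + 3 * T = 0 := by push_cast; ring
  rw [e1, Real.exp_zero, mul_one] at h5
  refine le_trans (Real.exp_le_exp.mpr (le_of_eq ?_)) h5
  ring

/-- Inert prime, Frobenius a reflection: the local factor is `1/(1-T)²`. -/
lemma exp_le_tsum_inert_two {T : ℝ} (hT0 : 0 < T) (hT1 : T ≤ 1 / 2) :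
    Summable (fun k => ch 2 k * T ^ k) ∧ Real.exp (2 * T) ≤ |∑' k, ch 2 k * T ^ k| := by
  obtain ⟨h1, h2⟩ := summable_two hT0 (by linarith : T < 1)
  have e : (fun k => ch 2 k * T ^ k) = fun k : ℕ => ((k : ℝ) + 1) * T ^ k := by
    funext k; rw [ch_two_eq]
  rw [e]
  refine ⟨h1, ?_⟩
  rw [h2]
  have h1T : 0 < 1 - T := by linarith
  rw [abs_of_pos (by positivity)]
  have h3 : 1 - T ≤ Real.exp (-T) := by linarith [Real.add_one_le_exp (-T)]
  have h4 : (1 - T) ^ 2 ≤ Real.exp (-T) ^ 2 := pow_le_pow_left₀ h1T.le h3 2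
  rw [le_div_iff₀ (by positivity)]
  calc Real.exp (2 * T) * (1 - T) ^ 2 ≤ Real.exp (2 * T) * Real.exp (-T) ^ 2 :=
        mul_le_mul_of_nonneg_left h4 (Real.exp_pos _).le
    _ = 1 := by
        rw [← Real.exp_nat_mul, ← Real.exp_add]
        have : 2 * T + ((2 : ℕ) : ℝ) * -T = 0 := by push_cast; ring
        rw [this, Real.exp_zero]

lemma abs_ch_zero_le (k : ℕ) : |ch 0 k| ≤ 1 := by
  induction k using Nat.strong_induction_on with
  | _ k ih =>
    match k with
    | 0 => simp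
    | 1 => simp
    | (k + 2) =>
      rw [ch_add_two, zero_mul, zero_sub, abs_neg]
      exact ih k (by omega)

/-- Inert prime, Frobenius of order 8: the local factor is `1/(1+T²)`. -/
lemma exp_le_tsum_inert_zero {T : ℝ} (hT0 : 0 < T) (hT1 : T ≤ 1 / 2) :
    Summable (fun k => ch 0 k * T ^ k) ∧ Real.exp (-T ^ 2) ≤ |∑' k, ch 0 k * T ^ k| := by
  have hs : Summable (fun k => ch 0 k * T ^ k) := by
    refine Summable.of_norm_bounded (summable_geometric_of_lt_one hT0.le (by linarith : T < 1)) fun k => ?_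
    rw [Real.norm_eq_abs, abs_mul, abs_of_nonneg (pow_nonneg hT0.le k)]
    calc |ch 0 k| * T ^ k ≤ 1 * T ^ k :=
          mul_le_mul_of_nonneg_right (abs_ch_zero_le k) (pow_nonneg hT0.le k)
      _ = T ^ k := one_mul _
  refine ⟨hs, ?_⟩
  set A := ∑' k, ch 0 k * T ^ k with hA
  have h1 : A = 1 - T ^ 2 * A := by
    have hs2 := (summable_nat_add_iff 2).mpr hs
    have h2 := hs.sum_add_tsum_nat_add 2
    have h3 : ∑' k, ch 0 (k + 2) * T ^ (k + 2) = - (T ^ 2 * A) := by
      rw [hA, ← tsum_mul_left, ← tsum_neg]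
      refine tsum_congr fun k => ?_
      rw [ch_add_two, pow_add]; ring
    rw [h3, ← hA] at h2
    simp [Finset.sum_range_succ] at h2
    linarith
  have h2 : A * (1 + T ^ 2) = 1 := by linarith
  have hA0 : 0 < A := by
    by_contra hneg
    push Not at hneg
    have : A * (1 + T ^ 2) ≤ 0 := mul_nonpos_of_nonpos_of_nonneg hneg (by positivity)
    linarith
  rw [abs_of_pos hA0]
  have h3 : 1 + T ^ 2 ≤ Real.exp (T ^ 2) := by linarith [Real.add_one_le_exp (T ^ 2)]
  rw [Real.exp_neg, inv_le_comm₀ (Real.exp_pos _) hA0]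
  have : A⁻¹ = 1 + T ^ 2 := by
    rw [inv_eq_iff_eq_inv, ← one_div, eq_div_iff (by positivity)]
    linarith
  rw [this]
  exact h3

end Fermat.Agent.LT.Period
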