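import Fermat.Agent.LT.LatSum

/-!
# Eisenstein series on the upper half plane near `s = 1`, by lattice sums (P6)
-/

set_option autoImplicit false

open MeasureTheory Metric Set Module UpperHalfPlane

noncomputable section

namespace Fermat.Agent.LT.Period

/-- the linear map `(c, d) ↦ (c z + d) / √y` on `ℂ = ℝ²` -/
def TL (z : ℍ) : ℂ →ₗ[ℝ] ℂ where
  toFun w := ((w.re : ℂ) * z + w.im) / (Real.sqrt z.im : ℂ)
  map_add' v w := by
    simp only [Complex.add_re, Complex.add_im, Complex.ofReal_add]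
    ring
  map_smul' r w := by
    simp only [Complex.real_smul, Complex.mul_re, Complex.mul_im, Complex.ofReal_re,
      Complex.ofReal_im, zero_mul, sub_zero, add_zero, RingHom.id_apply, Complex.ofReal_mul]
    ring

lemma TL_apply (z : ℍ) (w : ℂ) : TL z w = ((w.re : ℂ) * z + w.im) / (Real.sqrt z.im : ℂ) := rfl

lemma det_TL (z : ℍ) : LinearMap.det (TL z) = -1 := by
  have hy : 0 < Real.sqrt z.im := Real.sqrt_pos.mpr z.im_pos
  rw [← LinearMap.det_toMatrix Complex.basisOneI, Matrix.det_fin_two]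
  simp only [LinearMap.toMatrix_apply, Complex.coe_basisOneI, Complex.coe_basisOneI_repr,
    Matrix.cons_val_zero, Matrix.cons_val_one, TL_apply]
  have h1 : (((1 : ℂ).re : ℂ) * z + (1 : ℂ).im) / (Real.sqrt z.im : ℂ) =
      ⟨z.re / Real.sqrt z.im, z.im / Real.sqrt z.im⟩ := by
    apply Complex.ext
    · simp [Complex.div_re, Complex.normSq_apply]
      field_simp
    · simp [Complex.div_im, Complex.normSq_apply]
      field_simp
      exact (Real.sq_sqrt z.im_pos.le).symm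
  have h2 : (((Complex.I : ℂ).re : ℂ) * z + (Complex.I : ℂ).im) / (Real.sqrt z.im : ℂ) =
      ⟨1 / Real.sqrt z.im, 0⟩ := by
    apply Complex.ext
    · simp [Complex.normSq_apply]
    · simp [Complex.normSq_apply]
  rw [h1, h2]
  simp only [mul_zero, zero_sub]
  have h3 : z.im / Real.sqrt z.im = Real.sqrt z.im := Real.div_sqrt
  rw [h3]
  field_simp

/-- the map as a continuous linear equivalence -/
def TE (z : ℍ) : ℂ ≃L[ℝ] ℂ :=
  (LinearEquiv.ofIsUnitDet (f := TL z) (v := Complex.basisOneI) (v' := Complex.basisOneI) (by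
    rw [LinearMap.det_toMatrix, det_TL]
    exact isUnit_one.neg)).toContinuousLinearEquiv

lemma TE_apply (z : ℍ) (w : ℂ) : TE z w = TL z w := rfl

lemma measurePreserving_TE (z : ℍ) : MeasurePreserving (TE z) (volume : Measure ℂ) volume := by
  refine ⟨(TE z).continuous.measurable, ?_⟩
  have h1 := Measure.map_linearMap_addHaar_eq_smul_addHaar (volume : Measure ℂ) (f := TL z)
    (by rw [det_TL]; norm_num)
  rw [det_TL] at h1
  have h2 : (⇑(TE z) : ℂ → ℂ) = ⇑(TL z) := rfl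
  rw [h2, h1]
  norm_num

lemma norm_TE (z : ℍ) (w : ℂ) :
    ‖TE z w‖ ^ 2 = Complex.normSq ((w.re : ℂ) * z + w.im) / z.im := by
  rw [TE_apply, TL_apply, norm_div, div_pow, ← Complex.normSq_eq_norm_sq]
  congr 1
  rw [Complex.norm_real, Real.norm_of_nonneg (Real.sqrt_nonneg _), Real.sq_sqrt z.im_pos.le]

lemma normSq_aux (z : ℍ) (w : ℂ) : Complex.normSq ((w.re : ℂ) * z + w.im) =
    (w.re * z.re + w.im) ^ 2 + (w.re * z.im) ^ 2 := by
  rw [Complex.normSq_apply]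
  simp only [Complex.add_re, Complex.mul_re, Complex.ofReal_re, Complex.ofReal_im, coe_re, coe_im,
    zero_mul, sub_zero, Complex.add_im, Complex.mul_im, add_zero]
  ring

lemma norm_TE_le {z : ℍ} (hx : |z.re| ≤ 1) (hy : 1 / 2 ≤ z.im) (w : ℂ) :
    ‖TE z w‖ ≤ 4 * Real.sqrt z.im * ‖w‖ := by
  have hy0 := z.im_pos
  refine abs_le_of_sq_le_sq' ?_ (by positivity) |>.2
  rw [norm_TE, normSq_aux, mul_pow (4 * Real.sqrt z.im), mul_pow (4 : ℝ), Real.sq_sqrt hy0.le,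
    ← Complex.normSq_eq_norm_sq, Complex.normSq_apply, div_le_iff₀ hy0]
  have h1 : z.re ^ 2 ≤ 1 := by
    rw [← sq_abs]
    nlinarith [abs_nonneg z.re]
  have h2 : (w.re * z.re + w.im) ^ 2 ≤ 2 * (w.re ^ 2 * z.re ^ 2) + 2 * w.im ^ 2 := by
    nlinarith [sq_nonneg (w.re * z.re - w.im)]
  have h3 : 2 * (w.re ^ 2 * z.re ^ 2) ≤ 2 * w.re ^ 2 := by nlinarith [sq_nonneg w.re]
  have h4 : 1 / 4 ≤ z.im ^ 2 := by nlinarith
  nlinarith [mul_nonneg (sq_nonneg w.re) (sub_nonneg.mpr h4),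
    mul_nonneg (sq_nonneg w.im) (sub_nonneg.mpr h4), sq_nonneg w.re, sq_nonneg w.im]

lemma norm_le_TE {z : ℍ} (hx : |z.re| ≤ 1) (hy : 1 / 2 ≤ z.im) (w : ℂ) :
    ‖w‖ ≤ 4 * Real.sqrt z.im * ‖TE z w‖ := by
  have hy0 := z.im_pos
  refine abs_le_of_sq_le_sq' ?_ (by positivity) |>.2
  rw [mul_pow (4 * Real.sqrt z.im), mul_pow (4 : ℝ), norm_TE, normSq_aux, Real.sq_sqrt hy0.le,
    ← Complex.normSq_eq_norm_sq, Complex.normSq_apply]
  have e : 4 ^ 2 * z.im * (((w.re * z.re + w.im) ^ 2 + (w.re * z.im) ^ 2) / z.im) =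
      16 * ((w.re * z.re + w.im) ^ 2 + (w.re * z.im) ^ 2) := by
    field_simp
    ring
  rw [e]
  have h1 : z.re ^ 2 ≤ 1 := by
    rw [← sq_abs]
    nlinarith [abs_nonneg z.re]
  have h2 : w.im ^ 2 ≤ 2 * (w.re * z.re + w.im) ^ 2 + 2 * (w.re ^ 2 * z.re ^ 2) := by
    nlinarith [sq_nonneg (w.re * z.re + w.im + w.re * z.re)]
  have h3 : 2 * (w.re ^ 2 * z.re ^ 2) ≤ 2 * w.re ^ 2 := by nlinarith [sq_nonneg w.re]
  have h4 : 1 / 4 ≤ z.im ^ 2 := by nlinarith
  nlinarith [mul_nonneg (sq_nonneg w.re) (sub_nonneg.mpr h4), sq_nonneg w.re,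
    sq_nonneg (w.re * z.re + w.im)]

variable (N : ℕ) [NeZero N]

/-- the basis `N, N i` of `ℂ` -/
def bN : Basis (Fin 2) ℝ ℂ :=
  Complex.basisOneI.isUnitSMul (w := fun _ => (N : ℝ)) fun _ =>
    (Nat.cast_ne_zero.mpr (NeZero.ne N)).isUnit

lemma bN_zero : bN N 0 = (N : ℂ) := by
  rw [bN, Basis.isUnitSMul_apply]
  simp

lemma bN_one : bN N 1 = (N : ℂ) * Complex.I := by
  rw [bN, Basis.isUnitSMul_apply]
  simp

/-- coordinates of the lattice -/
def eqv : ℤ × ℤ ≃ Submodule.span ℤ (Set.range (bN N)) :=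
  (finTwoArrowEquiv ℤ).symm.trans ((bN N).restrictScalars ℤ).equivFun.symm.toEquiv

lemma eqv_apply (p : ℤ × ℤ) : ((eqv N p : Submodule.span ℤ (Set.range (bN N))) : ℂ) =
    ⟨N * p.1, N * p.2⟩ := by
  have h1 : ((eqv N p : Submodule.span ℤ (Set.range (bN N))) : ℂ) =
      p.1 • bN N 0 + p.2 • bN N 1 := by
    change (((bN N).restrictScalars ℤ).equivFun.symm ((finTwoArrowEquiv ℤ).symm p) :
      Submodule.span ℤ (Set.range (bN N))).1 = _
    rw [Basis.equivFun_symm_apply, Fin.sum_univ_two]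
    simp only [Submodule.coe_add, Submodule.coe_smul, Basis.restrictScalars_apply]
    rfl
  rw [h1, bN_zero, bN_one]
  apply Complex.ext <;> simp [mul_comm]

/-- the residue at `s = 1` -/
def cN : ℝ := (volume : Measure ℂ).real (ball 0 1) /
  (volume : Measure ℂ).real (ZSpan.fundamentalDomain (bN N))

lemma cN_pos : 0 < cN N := by
  unfold cN Measure.real
  refine div_pos (ENNReal.toReal_pos (measure_ball_pos _ _ zero_lt_one).ne' measure_ball_lt_top.ne)
    (ENNReal.toReal_pos (ZSpan.measure_fundamentalDomain_ne_zero _)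
      (ZSpan.fundamentalDomain_isBounded _).measure_lt_top.ne)

/-- the term `(y / |c z + d|²)^s` -/
def term (s : ℝ) (z : ℍ) (p : ℤ × ℤ) : ℝ :=
  (z.im / Complex.normSq ((p.1 : ℂ) * z + p.2)) ^ s

lemma term_nonneg (s : ℝ) (z : ℍ) (p : ℤ × ℤ) : 0 ≤ term s z p :=
  Real.rpow_nonneg (div_nonneg z.im_pos.le (Complex.normSq_nonneg _)) _

/-- **Eisenstein series near `s = 1`.** -/
theorem eis (r t : ℤ) : ∃ A B : ℝ, 0 ≤ A ∧ 0 ≤ B ∧ ∀ z : ℍ, |z.re| ≤ 1 → 1 / 2 ≤ z.im →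
    ∀ s : ℝ, 1 < s → s ≤ 2 →
      (Summable fun p : ℤ × ℤ => term s z (r + N * p.1, t + N * p.2)) ∧
      |∑' p : ℤ × ℤ, term s z (r + N * p.1, t + N * p.2) - cN N / (s - 1)| ≤ A * z.im ^ B := by
  obtain ⟨A, B, hA, hB, h⟩ := LatSum.latSum (bN N) (⟨r, t⟩ : ℂ)
  refine ⟨A * 4 ^ B, B / 2, by positivity, by positivity, fun z hx hy s hs1 hs2 => ?_⟩
  have hy0 := z.im_pos
  have hM : 1 ≤ 4 * Real.sqrt z.im := by
    have h1 : Real.sqrt (1 / 4) ≤ Real.sqrt z.im := Real.sqrt_le_sqrt (by linarith)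
    have h2 : Real.sqrt (1 / 4) = 1 / 2 := by
      rw [show (1 / 4 : ℝ) = (1 / 2) ^ 2 by norm_num, Real.sqrt_sq (by norm_num)]
    linarith
  obtain ⟨h1, h2⟩ := h (TE z) (4 * Real.sqrt z.im) hM (norm_TE_le hx hy) (norm_le_TE hx hy)
    (measurePreserving_TE z) s hs1 hs2
  have key : ∀ p : ℤ × ℤ, ‖TE z (((eqv N p : Submodule.span ℤ (Set.range (bN N))) : ℂ) + ⟨r, t⟩)‖ ^
      (-(finrank ℝ ℂ * s : ℝ)) = term s z (r + N * p.1, t + N * p.2) := by
    intro p
    have h3 := norm_TE z (((eqv N p : Submodule.span ℤ (Set.range (bN N))) : ℂ) + ⟨r, t⟩)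
    rw [Complex.finrank_real_complex, Nat.cast_two, ← mul_neg, Real.rpow_mul (norm_nonneg _),
      Real.rpow_two, h3, Real.rpow_neg (div_nonneg (Complex.normSq_nonneg _) hy0.le),
      ← Real.inv_rpow (div_nonneg (Complex.normSq_nonneg _) hy0.le), inv_div, term, eqv_apply]
    congr 3
    simp only [Complex.add_re, Complex.add_im]
    push_cast
    ring
  have hS : (fun p : ℤ × ℤ => term s z (r + N * p.1, t + N * p.2)) =
      (fun v : Submodule.span ℤ (Set.range (bN N)) =>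
        ‖TE z ((v : ℂ) + ⟨r, t⟩)‖ ^ (-(finrank ℝ ℂ * s : ℝ))) ∘ eqv N := by
    funext p
    exact (key p).symm
  refine ⟨?_, ?_⟩
  · rw [hS]
    exact (eqv N).summable_iff.mpr h1
  · have h4 : ∑' p : ℤ × ℤ, term s z (r + N * p.1, t + N * p.2) =
        ∑' v : Submodule.span ℤ (Set.range (bN N)),
          ‖TE z ((v : ℂ) + ⟨r, t⟩)‖ ^ (-(finrank ℝ ℂ * s : ℝ)) := by
      rw [← (eqv N).tsum_eq]
      exact tsum_congr fun p => (key p).symm
    rw [h4]
    refine h2.trans (le_of_eq ?_)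
    rw [Real.mul_rpow (by norm_num) (Real.sqrt_nonneg _), mul_assoc, Real.sqrt_eq_rpow,
      ← Real.rpow_mul hy0.le]
    congr 3
    ring

end Fermat.Agent.LT.Period
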