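import Fermat.Agent.LT.Period.Parseval
import Fermat.Agent.LT.KForm

/-!
# Coordinates on the ring of integers of `ℚ(√-3)`

`K` is a quadratic field, `s : 𝓞 K` with `s ^ 2 = -3`.

* `exists_coords` : `σ b = u + v * ω`, `u, v : ℤ`;
* `KForm.exists_bound` : `∑ lam b ^ 2 * ‖σ b‖ ^ (-2 t) ≤ C / (t - 1)`.
-/

set_option autoImplicit false

open NumberField Set

noncomputable section

namespace Fermat.Agent.LT.Period

variable {K : Type} [Field K] [NumberField K]

section coords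

variable (σ : K →+* ℂ) {s : 𝓞 K}

lemma sq_sigma (hs : s ^ 2 = -3) : (σ s) ^ 2 = -3 := by
  have h : ((s : K)) ^ 2 = -3 := by
    have h := congrArg (algebraMap (𝓞 K) K) hs
    rwa [map_pow, map_neg, map_ofNat] at h
  rw [← map_pow, h, map_neg, map_ofNat]

lemma sqrtNeg3_sq : sqrtNeg3 ^ 2 = -3 := by
  have h3 : Real.sqrt 3 ^ 2 = 3 := Real.sq_sqrt (by norm_num)
  rw [sq]
  apply Complex.ext
  · simp [sqrtNeg3]
  · simp [sqrtNeg3]

lemma sqrtNeg3_eq : sqrtNeg3 = 2 * om + 1 := by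
  apply Complex.ext <;> simp [sqrtNeg3, om] <;> ring

/-- `σ s = ± √-3`. -/
lemma sigma_s (hs : s ^ 2 = -3) : σ s = sqrtNeg3 ∨ σ s = -sqrtNeg3 := by
  have h : (σ s) ^ 2 = sqrtNeg3 ^ 2 := by rw [sq_sigma σ hs, sqrtNeg3_sq]
  exact sq_eq_sq_iff_eq_or_eq_neg.mp h

/-- rational numbers integral over `ℤ` inside `ℂ` are integers. -/
lemma exists_int_of_isIntegral {q : ℚ} (h : IsIntegral ℤ (q : ℂ)) : ∃ n : ℤ, (n : ℚ) = q := by
  have h1 : IsIntegral ℤ q := by
    have h2 : Function.Injective (algebraMap ℚ ℂ) := (algebraMap ℚ ℂ).injective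
    exact (isIntegral_algebraMap_iff h2).mp (by simpa using h)
  obtain ⟨n, hn⟩ := IsIntegrallyClosed.isIntegral_iff.mp h1
  exact ⟨n, by simpa using hn⟩

/-- rational coordinates. -/
lemma exists_rat_coords (hK : Module.finrank ℚ K = 2) (hs : s ^ 2 = -3) (b : K) :
    ∃ x y : ℚ, b = x + y * (s : K) := by
  have hsK : (s : K) ^ 2 = -3 := by
    have h := congrArg (algebraMap (𝓞 K) K) hs
    rwa [map_pow, map_neg, map_ofNat] at h
  have hli : LinearIndependent ℚ ![(1 : K), (s : K)] := by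
    rw [LinearIndependent.pair_iff]
    intro x y h
    have hy : y = 0 := by
      by_contra hy
      have h1 : (s : K) = ((-(x / y) : ℚ) : K) := by
        have h2 : (x : K) + (y : K) * s = 0 := by
          simpa [Algebra.smul_def] using h
        have hyK : (y : K) ≠ 0 := by exact_mod_cast hy
        push_cast
        field_simp
        linear_combination h2
      rw [h1] at hsK
      have h2 : ((-(x / y)) ^ 2 : ℚ) = -3 := by exact_mod_cast hsK
      nlinarith [sq_nonneg (-(x / y))]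
    subst hy
    refine ⟨?_, rfl⟩
    simpa using h
  have hspan := hli.span_eq_top_of_card_eq_finrank (by rw [Fintype.card_fin, hK])
  have hb : b ∈ Submodule.span ℚ (Set.range ![(1 : K), (s : K)]) := by rw [hspan]; trivial
  rw [Matrix.range_cons, Matrix.range_cons, Matrix.range_empty, Set.union_empty] at hb
  rw [Set.singleton_union, Submodule.mem_span_pair] at hb
  obtain ⟨x, y, h⟩ := hb
  exact ⟨x, y, by rw [← h]; simp [Algebra.smul_def]⟩

theorem exists_coords (hK : Module.finrank ℚ K = 2) (hs : s ^ 2 = -3) (b : 𝓞 K) :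
    ∃ u v : ℤ, σ b = u + v * om := by
  obtain ⟨x, y, h⟩ := exists_rat_coords hK hs (b : K)
  have hσ : σ (b : K) = x + y * σ s := by
    rw [h, map_add, map_mul, map_ratCast, map_ratCast]
  -- replace `y` by `± y`
  obtain ⟨y', hy'⟩ : ∃ y' : ℚ, σ (b : K) = x + y' * sqrtNeg3 := by
    rcases sigma_s σ hs with h1 | h1
    · exact ⟨y, by rw [hσ, h1]⟩
    · exact ⟨-y, by rw [hσ, h1]; push_cast; ring⟩
  have hint : IsIntegral ℤ (σ (b : K)) := by
    have := (RingOfIntegers.isIntegral_coe b)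
    exact this.map (σ.toIntAlgHom)
  have hint' : IsIntegral ℤ ((starRingEnd ℂ) (σ (b : K))) :=
    hint.map ((starRingEnd ℂ).toIntAlgHom)
  have hconj : (starRingEnd ℂ) (σ (b : K)) = x - y' * sqrtNeg3 := by
    rw [hy', map_add, map_mul]
    have h1 : (starRingEnd ℂ) sqrtNeg3 = -sqrtNeg3 := by
      apply Complex.ext <;> simp [sqrtNeg3]
    rw [h1, map_ratCast, map_ratCast]
    ring
  have htr : IsIntegral ℤ (((2 * x : ℚ)) : ℂ) := by
    have h1 := hint.add hint'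
    rw [hconj, hy'] at h1
    have h2 : (((2 * x : ℚ)) : ℂ) = x + y' * sqrtNeg3 + (x - y' * sqrtNeg3) := by
      push_cast
      ring
    rw [h2]
    exact h1
  have hnm : IsIntegral ℤ (((x ^ 2 + 3 * y' ^ 2 : ℚ)) : ℂ) := by
    have h1 := hint.mul hint'
    rw [hconj, hy'] at h1
    have h2 : (((x ^ 2 + 3 * y' ^ 2 : ℚ)) : ℂ) =
        (x + y' * sqrtNeg3) * (x - y' * sqrtNeg3) := by
      push_cast
      linear_combination ((y' : ℂ) ^ 2) * sqrtNeg3_sq
    rw [h2]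
    exact h1
  obtain ⟨m, hm⟩ := exists_int_of_isIntegral htr
  obtain ⟨t, ht⟩ := exists_int_of_isIntegral hnm
  -- `2 y'` is an integer
  have h6 : ∃ n : ℤ, (n : ℚ) = 2 * y' := by
    have h7 : (6 * y') ^ 2 = ((3 * (4 * t - m ^ 2) : ℤ) : ℚ) := by
      push_cast
      rw [hm, ht]
      ring
    have h8 : IsIntegral ℤ (6 * y') := by
      refine IsIntegral.of_pow (n := 2) (by norm_num) ?_
      rw [h7]
      exact isIntegral_algebraMap (R := ℤ) (x := (3 * (4 * t - m ^ 2) : ℤ))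
    obtain ⟨w, hw⟩ := IsIntegrallyClosed.isIntegral_iff.mp h8
    have hw' : (w : ℚ) = 6 * y' := by simpa using hw
    have h9 : w ^ 2 = 3 * (4 * t - m ^ 2) := by
      have : ((w ^ 2 : ℤ) : ℚ) = ((3 * (4 * t - m ^ 2) : ℤ) : ℚ) := by
        rw [← h7]
        push_cast
        rw [hw']
      exact_mod_cast this
    have h10 : (3 : ℤ) ∣ w := by
      have : (3 : ℤ) ∣ w ^ 2 := ⟨_, h9⟩
      exact Int.prime_three.dvd_of_dvd_pow this
    obtain ⟨n, hn⟩ := h10
    refine ⟨n, ?_⟩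
    have : ((3 * n : ℤ) : ℚ) = 6 * y' := by rw [← hn, hw']
    push_cast at this
    linarith
  obtain ⟨n, hn⟩ := h6
  have h11 : m ^ 2 + 3 * n ^ 2 = 4 * t := by
    have : ((m ^ 2 + 3 * n ^ 2 : ℤ) : ℚ) = ((4 * t : ℤ) : ℚ) := by
      push_cast
      rw [hm, hn, ht]
      ring
    exact_mod_cast this
  have h12 : (2 : ℤ) ∣ m + n := by
    have h13 : (m + n) ^ 2 = 4 * t - 2 * n ^ 2 + 2 * m * n := by linarith [h11, sq_nonneg m]
    have h14 : (2 : ℤ) ∣ (m + n) ^ 2 := ⟨2 * t - n ^ 2 + m * n, by rw [h13]; ring⟩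
    exact Int.prime_two.dvd_of_dvd_pow h14
  obtain ⟨u, hu⟩ := h12
  refine ⟨u, n, ?_⟩
  rw [hy', sqrtNeg3_eq]
  have h15 : (x : ℂ) = m / 2 := by
    have : (x : ℚ) = m / 2 := by rw [hm]; ring
    rw [this]
    push_cast
    ring
  have h16 : (y' : ℂ) = n / 2 := by
    have : (y' : ℚ) = n / 2 := by rw [hn]; ring
    rw [this]
    push_cast
    ring
  have h17 : (m : ℂ) + n = 2 * u := by exact_mod_cast hu
  rw [h15, h16]
  linear_combination (1 / 2) * h17

/-- The sign `ε` with `σ s = ε √-3`. -/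
lemma exists_sign (hs : s ^ 2 = -3) : ∃ ε : ℂ, ε * ε = 1 ∧ σ s = ε * sqrtNeg3 := by
  rcases sigma_s σ hs with h | h
  · exact ⟨1, by ring, by rw [h, one_mul]⟩
  · exact ⟨-1, by ring, by rw [h, neg_one_mul]⟩

lemma sqrtNeg3_ne : sqrtNeg3 ≠ 0 := by
  intro h
  have h1 := sqrtNeg3_sq
  rw [h] at h1
  norm_num at h1

/-- a number with Eisenstein coordinates has integral norm. -/
lemma norm_sq_coords (u v : ℤ) : ‖(u + v * om : ℂ)‖ ^ 2 = ((u ^ 2 - u * v + v ^ 2 : ℤ) : ℝ) := by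
  have h3 : Real.sqrt 3 ^ 2 = 3 := Real.sq_sqrt (by norm_num)
  rw [← Complex.normSq_eq_norm_sq, Complex.normSq_apply]
  simp [om]
  linear_combination ((v : ℝ) ^ 2 / 4) * h3

lemma one_le_norm_sq (hK : Module.finrank ℚ K = 2) (hs : s ^ 2 = -3) {b : 𝓞 K} (hb : b ≠ 0) :
    1 ≤ ‖σ b‖ ^ 2 := by
  obtain ⟨u, v, h⟩ := exists_coords σ hK hs b
  have h1 : σ b ≠ 0 := by
    rw [Ne, map_eq_zero]
    exact fun h => hb (by exact_mod_cast h)
  have h2 : 0 < ‖σ b‖ ^ 2 := by positivity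
  rw [h, norm_sq_coords] at h2 ⊢
  have h3 : 0 < u ^ 2 - u * v + v ^ 2 := by exact_mod_cast h2
  exact_mod_cast h3

/-- `3` is not a unit. -/
lemma not_isUnit_natCast {N : ℕ} (h3 : 3 ∣ N) : ¬ IsUnit (N : 𝓞 K) := by
  intro h
  obtain ⟨m, rfl⟩ := h3
  rw [Nat.cast_mul] at h
  obtain ⟨c, hc⟩ := (isUnit_of_mul_isUnit_left h).exists_right_inv
  -- embed in a field of characteristic zero
  have hc' : (3 : K) * (c : K) = 1 := by
    have := congrArg (algebraMap (𝓞 K) K) hc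
    rw [map_mul, map_one, map_natCast] at this
    exact_mod_cast this
  have h1 : IsIntegral ℤ (algebraMap ℚ K (1 / 3 : ℚ)) := by
    have h2 : algebraMap ℚ K (1 / 3 : ℚ) = (c : K) := by
      rw [map_div₀, map_one, map_ofNat, div_eq_iff (by norm_num), mul_comm, hc']
    rw [h2]
    exact RingOfIntegers.isIntegral_coe c
  have h2 : IsIntegral ℤ (1 / 3 : ℚ) :=
    (isIntegral_algebraMap_iff (algebraMap ℚ K).injective).mp h1
  obtain ⟨n, hn⟩ := IsIntegrallyClosed.isIntegral_iff.mp h2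
  have hn' : (n : ℚ) = 1 / 3 := by simpa using hn
  have h4 : ((3 * n : ℤ) : ℚ) = ((1 : ℤ) : ℚ) := by
    push_cast
    rw [hn']
    norm_num
  have h5 : 3 * n = 1 := by exact_mod_cast h4
  omega

end coords

section form

variable {σ : K →+* ℂ} {s : 𝓞 K} {N : ℕ}

lemma bK0_pos_aux {x : ℝ} (hx : 0 < x) : 0 < bK0 x := half_pos (bkR_pos 0 hx)

lemma bK0_anti_aux {x y : ℝ} (hx : 0 < x) (h : x ≤ y) : bK0 y ≤ bK0 x :=
  div_le_div_of_nonneg_right (bkR_antitone 0 hx h) (by norm_num)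

lemma lam_zero (F : KForm σ s N) (h3 : 3 ∣ N) : F.lam 0 = 0 := by
  apply F.lam_bad
  rw [isCoprime_zero_left]
  exact not_isUnit_natCast h3

/-- **Parseval bound for the coefficients of `F`.** -/
theorem exists_sum_sq_le (F : KForm σ s N) (hK : Module.finrank ℚ K = 2) (hs : s ^ 2 = -3)
    (h3 : 3 ∣ N) : ∃ C : ℝ, 0 ≤ C ∧ ∀ Y : ℝ, 0 < Y → ∀ T : Finset (𝓞 K),
      (∀ b ∈ T, ‖σ b‖ ^ 2 ≤ Y) → ∑ b ∈ T, F.lam b ^ 2 ≤ C * Y := by
  obtain ⟨B, hB⟩ := F.bdd
  obtain ⟨ε, hε, hσ⟩ := exists_sign σ hs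
  have hε0 : ε ≠ 0 := left_ne_zero_of_mul_eq_one hε
  have h4π : (0 : ℝ) < 4 * Real.pi := by positivity
  have hκ : 0 < bK0 (4 * Real.pi) := bK0_pos_aux h4π
  refine ⟨B ^ 2 / bK0 (4 * Real.pi) ^ 2, by positivity, fun Y hY T hT => ?_⟩
  refine sum_sq_le_eisenstein (β := fun b : 𝓞 K => σ b)
    (σ.injective.comp RingOfIntegers.coe_injective)
    (fun b => exists_coords σ hK hs b) (lam := F.lam) ?_ hκ
    (fun x hx => bK0_anti_aux hx.1 hx.2)
    (F := fun z y => if h : 0 < y then F.F (H3.mk (ε * z) y h) else 0) ?_ (M := B) ?_ hY T hT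
  · intro b hb
    have h1 : b = 0 := by
      have h2 : σ b = 0 := hb
      rw [map_eq_zero] at h2
      exact_mod_cast h2
    rw [h1, lam_zero F h3]
  · intro z y hy
    rw [dif_pos hy]
    have h1 := F.four (H3.mk (ε * z) y hy)
    refine hasSum_congr' h1 fun b => ?_
    rw [H3.y_mk, H3.z_mk, eTr, hσ]
    have h2 : σ b * (ε * z) / (ε * sqrtNeg3) = σ b * z / sqrtNeg3 := by
      have := sqrtNeg3_ne
      field_simp
    rw [h2]
    push_cast
    ring
  · intro z y hy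
    rw [dif_pos hy]
    exact hB _

/-- **The Dirichlet series of the squares.** -/
theorem exists_bound (F : KForm σ s N) (hK : Module.finrank ℚ K = 2) (hs : s ^ 2 = -3)
    (h3 : 3 ∣ N) : ∃ C : ℝ, 1 ≤ C ∧ ∀ t : ℝ, 1 < t → t ≤ 2 → ∀ T : Finset (𝓞 K),
      ∑ b ∈ T, F.lam b ^ 2 * (‖σ b‖ ^ 2) ^ (-t) ≤ C / (t - 1) := by
  classical
  obtain ⟨C, hC, h⟩ := exists_sum_sq_le F hK hs h3
  refine ⟨max 1 (2 * C), le_max_left _ _, fun t ht ht2 T => ?_⟩
  have ht0 : 0 < t - 1 := by linarith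
  have h1 := sum_rpow_le (ι := {b : 𝓞 K // b ≠ 0}) (b := fun b => F.lam b.1 ^ 2)
    (N := fun b => ‖σ b.1‖ ^ 2) (fun b => one_le_norm_sq σ hK hs b.2) (C := C)
    (fun Y hY S hS => by
      have h2 := h Y (zero_lt_one.trans_le hY) (S.map ⟨Subtype.val, Subtype.val_injective⟩)
        (fun b hb => by
          rw [Finset.mem_map] at hb
          obtain ⟨a, ha, rfl⟩ := hb
          exact hS a ha)
      rwa [Finset.sum_map] at h2) ht (T.subtype fun b => b ≠ 0)
  have h2 : ∑ b ∈ T, F.lam b ^ 2 * (‖σ b‖ ^ 2) ^ (-t) =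
      ∑ b ∈ T.subtype (fun b => b ≠ 0), F.lam b.1 ^ 2 * (‖σ b.1‖ ^ 2) ^ (-t) := by
    rw [Finset.sum_subtype_eq_sum_filter (s := T) (f := fun b : 𝓞 K =>
      F.lam b ^ 2 * (‖σ b‖ ^ 2) ^ (-t)) (p := fun b => b ≠ 0)]
    symm
    refine Finset.sum_subset (Finset.filter_subset _ _) fun b hb hb' => ?_
    rw [Finset.mem_filter, not_and, not_not] at hb'
    rw [hb' hb, lam_zero F h3, zero_pow two_ne_zero, zero_mul]
  rw [h2]
  refine h1.trans (div_le_div_of_nonneg_right ?_ ht0.le)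
  calc t * C ≤ 2 * C := mul_le_mul_of_nonneg_right ht2 hC
    _ ≤ max 1 (2 * C) := le_max_right _ _

end form

end Fermat.Agent.LT.Period
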