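import Fermat.Agent.LT.Period.Log

/-!
# (P5) arithmetic of `ℚ(√-3)` for the period block

`K` is any number field with `[IsCyclotomicExtension {3} ℚ K]`.

* `split`, `inert`, `split_elt`, `inert_elt`, `pi₁`, `pi₂`: the primes `p ≡ 1`, `p ≡ 2 mod 3`;
* `IsHecke` (fields as in `KForm`), `IsHecke.pow_mul`, `IsHecke.mul`: the coefficients;
* `exists_finset`: a finite product of truncated local series is a finite part of the Dirichlet series;
* `norm_sq_eq`: `|σ b|² = N b`;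
* `asaiData`: the restriction of the coefficients to `ℤ` as an `AsaiData` of `LT/Period/Log`.
-/

set_option autoImplicit false

open NumberField Ideal IsDedekindDomain

namespace Fermat.Agent.LT.Period

section Arith

variable (K : Type*) [Field K] [NumberField K] [hK : IsCyclotomicExtension {3} ℚ K]

theorem card_gal : Nat.card Gal(K/ℚ) = 2 := by
  have : IsGalois ℚ K := IsCyclotomicExtension.isGalois {3} ℚ K
  rw [IsGalois.card_aut_eq_finrank, IsCyclotomicExtension.finrank (n := 3) K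
    (Polynomial.cyclotomic.irreducible_rat (by norm_num))]
  decide

theorem finrank_eq_two : Module.finrank ℚ K = 2 := by
  rw [IsCyclotomicExtension.finrank (n := 3) K
    (Polynomial.cyclotomic.irreducible_rat (by norm_num))]
  decide

variable {p : ℕ} [hp : Fact p.Prime]

theorem ncard_mul_orderOf (h3 : p ≠ 3) :
    (primesOver (span {(p : ℤ)}) (𝓞 K)).ncard * orderOf (p : ZMod 3) = 2 := by
  have : IsGalois ℚ K := IsCyclotomicExtension.isGalois {3} ℚ K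
  have hm : ¬ p ∣ 3 := by
    intro h
    exact h3 ((Nat.prime_dvd_prime_iff_eq hp.out Nat.prime_three).1 h)
  have := ncard_primesOver_mul_ramificationIdxIn_mul_inertiaDegIn (span {(p : ℤ)}) (𝓞 K) Gal(K/ℚ)
  rw [IsCyclotomicExtension.Rat.ramificationIdxIn_eq_of_not_dvd p K hm,
    IsCyclotomicExtension.Rat.inertiaDegIn_eq_of_not_dvd p K hm, one_mul, card_gal] at this
  exact this

end Arith

section Split


variable (K : Type*) [Field K]
variable {p : ℕ}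

theorem orderOf_one (h1 : p % 3 = 1) : orderOf (p : ZMod 3) = 1 := by
  rw [orderOf_eq_one_iff]
  have : ((p % 3 : ℕ) : ZMod 3) = (p : ZMod 3) := ZMod.natCast_mod p 3
  rw [← this, h1]; rfl

theorem orderOf_two (h2 : p % 3 = 2) : orderOf (p : ZMod 3) = 2 := by
  have : ((p % 3 : ℕ) : ZMod 3) = (p : ZMod 3) := ZMod.natCast_mod p 3
  rw [← this, h2]
  rw [orderOf_eq_prime_iff]
  decide

theorem eq_of_le_of_norm {R : Type*} [CommRing R] [IsDedekindDomain R] [Module.Free ℤ R]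
    [Module.Finite ℤ R] {I J : Ideal R} (h : J ≤ I) (h0 : absNorm J ≠ 0)
    (he : absNorm I = absNorm J) : I = J := by
  obtain ⟨C, hC⟩ := dvd_iff_le.2 h
  have h1 := congrArg absNorm hC
  rw [map_mul, he] at h1
  have h2 : absNorm C = 1 := by
    have : absNorm J * absNorm C = absNorm J * 1 := by rw [mul_one]; exact h1.symm
    exact Nat.eq_of_mul_eq_mul_left (Nat.pos_of_ne_zero h0) this
  rw [absNorm_eq_one_iff] at h2
  rw [hC, h2, mul_top]

theorem mem_primesOver_iff [hp : Fact p.Prime] (P : Ideal (𝓞 K)) :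
    P ∈ primesOver (span {(p : ℤ)}) (𝓞 K) ↔ P.IsPrime ∧ (p : 𝓞 K) ∈ P := by
  constructor
  · rintro ⟨h1, h2⟩
    refine ⟨h1, ?_⟩
    have : (p : ℤ) ∈ P.under ℤ := by
      rw [← h2.over]; exact mem_span_singleton_self _
    simpa using this
  · rintro ⟨h1, h2⟩
    refine ⟨h1, ⟨?_⟩⟩
    have hmax : (span {(p : ℤ)}).IsMaximal :=
      Int.ideal_span_isMaximal_of_prime p
    refine hmax.eq_of_le ?_ ?_
    · exact (h1.under ℤ).ne_top
    · rw [span_singleton_le_iff_mem]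
      simpa using h2

variable [NumberField K] [hK : IsCyclotomicExtension {3} ℚ K]

theorem absNorm_over [hp : Fact p.Prime] (h3 : p ≠ 3) (P : Ideal (𝓞 K)) (hP : P ∈ primesOver (span {(p : ℤ)}) (𝓞 K)) :
    absNorm P = p ^ orderOf (p : ZMod 3) := by
  have hm : ¬ p ∣ 3 := by
    intro h
    exact h3 ((Nat.prime_dvd_prime_iff_eq hp.out Nat.prime_three).1 h)
  have : P.IsPrime := hP.1
  have : P.LiesOver (span {(p : ℤ)}) := hP.2
  have hmax : (span {(p : ℤ)}).IsMaximal := Int.ideal_span_isMaximal_of_prime p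
  have : P.IsMaximal := .of_liesOver_isMaximal P (span {(p : ℤ)})
  rw [absNorm_eq_pow_inertiaDeg' P hp.out, inertiaDeg'_eq_inertiaDeg,
    IsCyclotomicExtension.Rat.inertiaDeg_eq_of_not_dvd p K P hm]

theorem absNorm_span_nat (n : ℕ) : absNorm (span {(n : 𝓞 K)}) = n ^ 2 := by
  rw [absNorm_span_singleton]
  have : (n : 𝓞 K) = algebraMap ℤ (𝓞 K) (n : ℤ) := by simp
  rw [this, Algebra.norm_algebraMap, RingOfIntegers.rank, finrank_eq_two]
  simp

/-- `p ≡ 2 mod 3`: `(p)` is prime and is the only prime over `p`. -/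
theorem inert [hp : Fact p.Prime] (h2 : p % 3 = 2) :
    (span {(p : 𝓞 K)}).IsPrime ∧ absNorm (span {(p : 𝓞 K)}) = p ^ 2 ∧
      ∀ P : Ideal (𝓞 K), P.IsPrime → (p : 𝓞 K) ∈ P → P = span {(p : 𝓞 K)} := by
  have h3 : p ≠ 3 := by rintro rfl; norm_num at h2
  have key : ∀ P : Ideal (𝓞 K), P.IsPrime → (p : 𝓞 K) ∈ P → P = span {(p : 𝓞 K)} := by
    intro P hP hpP
    have hn := absNorm_over K h3 P ((mem_primesOver_iff K P).2 ⟨hP, hpP⟩)
    rw [orderOf_two h2] at hn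
    have hle : span {(p : 𝓞 K)} ≤ P := (span_singleton_le_iff_mem _).2 hpP
    have hn' := absNorm_span_nat K p
    exact eq_of_le_of_norm hle (by rw [hn']; exact pow_ne_zero _ hp.out.ne_zero)
      (by rw [hn, hn'])
  obtain ⟨P, hP1, hP2⟩ : (primesOver (span {(p : ℤ)}) (𝓞 K)).Nonempty := by
    have hmax : (span {(p : ℤ)}).IsMaximal := Int.ideal_span_isMaximal_of_prime p
    obtain ⟨⟨P, hP⟩⟩ := (span {(p : ℤ)}).nonempty_primesOver (S := 𝓞 K)
    exact ⟨P, hP⟩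
  have hP := (mem_primesOver_iff K P).1 ⟨hP1, hP2⟩
  have e := key P hP.1 hP.2
  exact ⟨e ▸ hP.1, absNorm_span_nat K p, key⟩

/-- `p ≡ 1 mod 3`: `(p) = v v'` with two different primes of norm `p`. -/
theorem split [hp : Fact p.Prime] (h1 : p % 3 = 1) :
    ∃ v v' : HeightOneSpectrum (𝓞 K), v ≠ v' ∧ absNorm v.asIdeal = p ∧ absNorm v'.asIdeal = p ∧
      v.asIdeal * v'.asIdeal = span {(p : 𝓞 K)} ∧
      ∀ P : Ideal (𝓞 K), P.IsPrime → (p : 𝓞 K) ∈ P → P = v.asIdeal ∨ P = v'.asIdeal := by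
  have h3 : p ≠ 3 := by rintro rfl; norm_num at h1
  have hc := ncard_mul_orderOf K (p := p) h3
  rw [orderOf_one h1, mul_one, Set.ncard_eq_two] at hc
  obtain ⟨P, Q, hne, hPQ⟩ := hc
  have hP : P ∈ primesOver (span {(p : ℤ)}) (𝓞 K) := by rw [hPQ]; simp
  have hQ : Q ∈ primesOver (span {(p : ℤ)}) (𝓞 K) := by rw [hPQ]; simp
  have nP := absNorm_over K h3 P hP
  have nQ := absNorm_over K h3 Q hQ
  rw [orderOf_one h1, pow_one] at nP nQ
  have hP' := (mem_primesOver_iff K P).1 hP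
  have hQ' := (mem_primesOver_iff K Q).1 hQ
  have P0 : P ≠ ⊥ := by
    rintro rfl; rw [absNorm_bot] at nP; exact hp.out.ne_zero nP.symm
  have Q0 : Q ≠ ⊥ := by
    rintro rfl; rw [absNorm_bot] at nQ; exact hp.out.ne_zero nQ.symm
  refine ⟨⟨P, hP'.1, P0⟩, ⟨Q, hQ'.1, Q0⟩, ?_, nP, nQ, ?_, ?_⟩
  · intro h; exact hne (congrArg HeightOneSpectrum.asIdeal h)
  · have hPm : P.IsMaximal := hP'.1.isMaximal P0
    have hQm : Q.IsMaximal := hQ'.1.isMaximal Q0
    have hcop : IsCoprime P Q := isCoprime_of_isMaximal hne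
    have hle : span {(p : 𝓞 K)} ≤ P * Q := by
      rw [mul_eq_inf_of_isCoprime hcop, le_inf_iff]
      exact ⟨(span_singleton_le_iff_mem _).2 hP'.2, (span_singleton_le_iff_mem _).2 hQ'.2⟩
    refine eq_of_le_of_norm hle ?_ ?_
    · rw [absNorm_span_nat]; exact pow_ne_zero _ hp.out.ne_zero
    · rw [absNorm_span_nat, map_mul, nP, nQ, sq]
  · intro R hR hpR
    have : R ∈ primesOver (span {(p : ℤ)}) (𝓞 K) := (mem_primesOver_iff K R).2 ⟨hR, hpR⟩
    rw [hPQ] at this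
    simpa using this

/-- the prime `(p)`, `p ≡ 2 mod 3`, as a point of the height one spectrum. -/
theorem inert' [hp : Fact p.Prime] (h2 : p % 3 = 2) :
    ∃ v : HeightOneSpectrum (𝓞 K), v.asIdeal = span {(p : 𝓞 K)} ∧ absNorm v.asIdeal = p ^ 2 ∧
      ∀ P : Ideal (𝓞 K), P.IsPrime → (p : 𝓞 K) ∈ P → P = v.asIdeal := by
  obtain ⟨a, b, c⟩ := inert K (p := p) h2
  refine ⟨⟨span {(p : 𝓞 K)}, a, ?_⟩, rfl, b, c⟩
  intro h
  rw [h, absNorm_bot] at b
  exact pow_ne_zero 2 hp.out.ne_zero b.symm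

end Split

/-- The relations of the coefficients (fields as in `KForm`). -/
structure IsHecke {R : Type*} [CommRing R] (N : R) (lam : R → ℝ) : Prop where
  one : lam 1 = 1
  unit : ∀ (u : Rˣ) (b : R), lam (u * b) = lam b
  bad : ∀ b : R, ¬ IsCoprime b N → lam b = 0
  hecke₁ : ∀ ϖ : R, Prime ϖ → ¬ ϖ ∣ N → ∀ b, ¬ ϖ ∣ b → lam (ϖ * b) = lam ϖ * lam b
  hecke₂ : ∀ ϖ : R, Prime ϖ → ¬ ϖ ∣ N → ∀ b, lam (ϖ * (ϖ * b)) + lam b = lam ϖ * lam (ϖ * b)

namespace IsHecke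

variable {R : Type*} [CommRing R] {N : R} {lam : R → ℝ}

theorem pow_mul (h : IsHecke N lam) {ϖ : R} (hp : Prime ϖ) (hN : ¬ ϖ ∣ N) {b : R} (hb : ¬ ϖ ∣ b)
    (k : ℕ) : lam (ϖ ^ k * b) = ch (lam ϖ) k * lam b := by
  induction k using Nat.strong_induction_on with
  | _ k ih =>
    match k with
    | 0 => simp
    | 1 => simpa using h.hecke₁ ϖ hp hN b hb
    | (k + 2) =>
      have h1 := ih k (by omega)
      have h2 := ih (k + 1) (by omega)
      have h3 := h.hecke₂ ϖ hp hN (ϖ ^ k * b)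
      have e1 : ϖ * (ϖ * (ϖ ^ k * b)) = ϖ ^ (k + 2) * b := by ring
      have e2 : ϖ * (ϖ ^ k * b) = ϖ ^ (k + 1) * b := by ring
      rw [e1, e2, h1, h2] at h3
      rw [ch_add_two]
      linear_combination h3

theorem unit' (h : IsHecke N lam) {u : R} (hu : IsUnit u) (b : R) : lam (u * b) = lam b := by
  obtain ⟨u, rfl⟩ := hu
  exact h.unit u b

theorem unit_one (h : IsHecke N lam) {u : R} (hu : IsUnit u) : lam u = 1 := by
  rw [← mul_one u, h.unit' hu, h.one]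

theorem pow [IsDomain R] (h : IsHecke N lam) {ϖ : R} (hp : Prime ϖ) (hN : ¬ ϖ ∣ N) (k : ℕ) :
    lam (ϖ ^ k) = ch (lam ϖ) k := by
  have := h.pow_mul hp hN (b := 1) (fun h => hp.not_isUnit (isUnit_of_dvd_one h)) k
  rwa [mul_one, h.one, mul_one] at this

variable [IsDomain R] [IsPrincipalIdealRing R]

theorem mul (h : IsHecke N lam) (a : R) : ∀ b, IsCoprime a b → lam (a * b) = lam a * lam b := by
  induction a using UniqueFactorizationMonoid.induction_on_coprime with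
  | h0 =>
    intro b hb
    have hu : IsUnit b := isCoprime_zero_left.1 hb
    rw [zero_mul, h.unit_one hu, mul_one]
  | h1 hx =>
    intro b _
    rw [h.unit' hx, h.unit_one hx, one_mul]
  | @hpr p i hp =>
    intro b hb
    rcases Nat.eq_zero_or_pos i with rfl | hi
    · rw [pow_zero, one_mul, h.one, one_mul]
    · by_cases hN : p ∣ N
      · have e : ∀ c, ¬ IsCoprime (p ^ i * c) N := by
          intro c hc
          have h1 : IsCoprime p N := (IsCoprime.of_mul_left_left hc).of_isCoprime_of_dvd_left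
            (dvd_pow_self p hi.ne')
          exact hp.not_isUnit (h1.isUnit_of_dvd' dvd_rfl hN)
        rw [h.bad _ (e b), h.bad (p ^ i) (by simpa using e 1), zero_mul]
      · have hpb : ¬ p ∣ b := by
          intro hd
          have h1 : IsCoprime p b := hb.of_isCoprime_of_dvd_left (dvd_pow_self p hi.ne')
          exact hp.not_isUnit (h1.isUnit_of_dvd' dvd_rfl hd)
        rw [h.pow_mul hp hN hpb, h.pow hp hN]
  | @hcp x y hxy ihx ihy =>
    intro b hb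
    have hxy' : IsCoprime x y := hxy.isCoprime
    rw [mul_assoc, ihx (y * b) (IsCoprime.mul_right hxy' (IsCoprime.of_mul_left_left hb)),
      ihy b (IsCoprime.of_mul_left_right hb), ihx y hxy', mul_assoc]

omit [IsDomain R] [IsPrincipalIdealRing R] in
theorem zero (h : IsHecke N lam) (hN : ¬ IsUnit N) : lam 0 = 0 :=
  h.bad 0 (fun hc => hN (isCoprime_zero_left.1 hc))

omit [IsPrincipalIdealRing R] in
/-- one more prime in the finite Dirichlet series. -/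
theorem step (h : IsHecke N lam) (nm : R →* ℝ) (hnm : ∀ b, b ≠ 0 → 0 < nm b) {ϖ : R} (hp : Prime ϖ)
    (hN : ¬ ϖ ∣ N) (M : ℕ) (B : Finset R) (hB : ∀ b ∈ B, ¬ ϖ ∣ b) :
    ∃ B' : Finset R, (∀ b' ∈ B', ∃ k, ∃ b ∈ B, b' = ϖ ^ k * b) ∧
      ∀ s : ℝ, (∑ k ∈ Finset.range M, ch (lam ϖ) k ^ 2 * (nm ϖ ^ (-s)) ^ k) *
        (∑ b ∈ B, lam b ^ 2 * nm b ^ (-s)) = ∑ b ∈ B', lam b ^ 2 * nm b ^ (-s) := by
  classical
  refine ⟨(Finset.range M ×ˢ B).image fun q => ϖ ^ q.1 * q.2, ?_, ?_⟩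
  · intro b' hb'
    obtain ⟨⟨k, b⟩, hq, rfl⟩ := Finset.mem_image.1 hb'
    exact ⟨k, b, (Finset.mem_product.1 hq).2, rfl⟩
  · intro s
    rw [Finset.sum_image, Finset.sum_mul_sum, ← Finset.sum_product']
    · refine Finset.sum_congr rfl fun q hq => ?_
      obtain ⟨k, b⟩ := q
      have hb := hB b (Finset.mem_product.1 hq).2
      have hb0 : b ≠ 0 := by rintro rfl; exact hb (dvd_zero _)
      show ch (lam ϖ) k ^ 2 * (nm ϖ ^ (-s)) ^ k * (lam b ^ 2 * nm b ^ (-s)) =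
        lam (ϖ ^ k * b) ^ 2 * nm (ϖ ^ k * b) ^ (-s)
      rw [h.pow_mul hp hN hb, map_mul, map_pow,
        Real.mul_rpow (pow_nonneg (hnm ϖ hp.ne_zero).le _) (hnm b hb0).le,
        Real.rpow_pow_comm (hnm ϖ hp.ne_zero).le]
      ring
    · rintro ⟨k, b⟩ hq ⟨k', b'⟩ hq' he
      have hb := hB b (Finset.mem_product.1 (Finset.mem_coe.1 hq)).2
      have hb' := hB b' (Finset.mem_product.1 (Finset.mem_coe.1 hq')).2
      simp only at he
      have aux : ∀ {k k' : ℕ} {b b' : R}, ¬ ϖ ∣ b → ϖ ^ k * b = ϖ ^ k' * b' → k' ≤ k := by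
        intro k k' b b' hb he
        by_contra hlt
        push Not at hlt
        obtain ⟨m, rfl⟩ := Nat.exists_eq_add_of_lt hlt
        have : ϖ ^ k * b = ϖ ^ k * (ϖ * (ϖ ^ m * b')) := by rw [he]; ring
        exact hb ⟨_, mul_left_cancel₀ (pow_ne_zero k hp.ne_zero) this⟩
      have hk : k = k' := le_antisymm (aux hb' he.symm) (aux hb he)
      subst hk
      have := mul_left_cancel₀ (pow_ne_zero k hp.ne_zero) he
      rw [this]

end IsHecke

/-! ### elements of the ring of integers of `ℚ(√-3)` -/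

section Elt

variable (K : Type*) [Field K] [NumberField K] [hK : IsCyclotomicExtension {3} ℚ K]

theorem split_elt {p : ℕ} (hp : p.Prime) (h1 : p % 3 = 1) :
    ∃ ϖ ϖ' : 𝓞 K, Prime ϖ ∧ Prime ϖ' ∧ ¬ ϖ ∣ ϖ' ∧ ¬ ϖ' ∣ ϖ ∧ ϖ * ϖ' = p ∧
      absNorm (span {ϖ}) = p ∧ absNorm (span {ϖ'}) = p := by
  have : Fact p.Prime := ⟨hp⟩
  have := IsCyclotomicExtension.Rat.three_pid K
  obtain ⟨v, v', hne, n1, n2, hmul, -⟩ := split K (p := p) h1
  obtain ⟨a, ha⟩ := (IsPrincipalIdealRing.principal v.asIdeal).principal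
  obtain ⟨b, hb⟩ := (IsPrincipalIdealRing.principal v'.asIdeal).principal
  rw [submodule_span_eq] at ha hb
  have ha0 : a ≠ 0 := by
    rintro rfl
    exact v.ne_bot (by rw [ha]; simp)
  have hb0 : b ≠ 0 := by
    rintro rfl
    exact v'.ne_bot (by rw [hb]; simp)
  have pa : Prime a := (span_singleton_prime ha0).1 (ha ▸ v.isPrime)
  have pb : Prime b := (span_singleton_prime hb0).1 (hb ▸ v'.isPrime)
  rw [ha, hb, span_singleton_mul_span_singleton, span_singleton_eq_span_singleton] at hmul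
  obtain ⟨u, hu⟩ := hmul
  have hab : ¬ Associated a b := by
    intro h
    apply hne
    apply HeightOneSpectrum.ext
    rw [ha, hb, span_singleton_eq_span_singleton]
    exact h
  have hbu : Associated b (b * u) := ⟨u, rfl⟩
  have pbu : Prime (b * u) := hbu.prime_iff.1 pb
  refine ⟨a, b * u, pa, pbu, ?_, ?_, by rw [← mul_assoc, hu], by rw [← ha, n1], ?_⟩
  · intro hd
    exact hab ((pa.associated_of_dvd pbu hd).trans hbu.symm)
  · intro hd
    exact hab ((pbu.associated_of_dvd pa hd).symm.trans hbu.symm)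
  · rw [← n2, hb, span_singleton_eq_span_singleton.2 hbu]

theorem inert_elt {p : ℕ} (hp : p.Prime) (h2 : p % 3 = 2) : Prime (p : 𝓞 K) := by
  have : Fact p.Prime := ⟨hp⟩
  exact (span_singleton_prime (by exact_mod_cast hp.ne_zero)).1 (inert K (p := p) h2).1

open Classical in
/-- the two primes over `p ≡ 1 mod 3`; `(p, 1)` otherwise. -/
noncomputable def piPair (p : ℕ) : 𝓞 K × 𝓞 K :=
  if h : p.Prime ∧ p % 3 = 1 then
    ((split_elt K h.1 h.2).choose, (split_elt K h.1 h.2).choose_spec.choose) else ((p : 𝓞 K), 1)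

/-- first prime over `p`. -/
noncomputable def pi₁ (p : ℕ) : 𝓞 K := (piPair K p).1

/-- second prime over `p`. -/
noncomputable def pi₂ (p : ℕ) : 𝓞 K := (piPair K p).2

theorem pi_split {p : ℕ} (hp : p.Prime) (h1 : p % 3 = 1) :
    Prime (pi₁ K p) ∧ Prime (pi₂ K p) ∧ ¬ pi₁ K p ∣ pi₂ K p ∧ ¬ pi₂ K p ∣ pi₁ K p ∧
      pi₁ K p * pi₂ K p = p ∧ absNorm (span {pi₁ K p}) = p ∧ absNorm (span {pi₂ K p}) = p := by
  have h : p.Prime ∧ p % 3 = 1 := ⟨hp, h1⟩
  have := (split_elt K h.1 h.2).choose_spec.choose_spec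
  simpa only [pi₁, pi₂, piPair, dif_pos h] using this

theorem pi_inert {p : ℕ} (h1 : p % 3 = 2) : pi₁ K p = p ∧ pi₂ K p = 1 := by
  have h : ¬ (p.Prime ∧ p % 3 = 1) := by omega
  simp only [pi₁, pi₂, piPair, dif_neg h]
  exact ⟨trivial, trivial⟩

/-- absolute norm of an element, as a monoid homomorphism to `ℝ`. -/
noncomputable def nmR : 𝓞 K →* ℝ where
  toFun b := (absNorm (span {b}) : ℝ)
  map_one' := by simp
  map_mul' a b := by
    rw [← span_singleton_mul_span_singleton, map_mul]; push_cast; ring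

omit hK in
theorem nmR_apply (b : 𝓞 K) : nmR K b = (absNorm (span {b}) : ℝ) := rfl

omit hK in
theorem nmR_pos (b : 𝓞 K) (hb : b ≠ 0) : 0 < nmR K b := by
  rw [nmR_apply, Nat.cast_pos, Nat.pos_iff_ne_zero, Ne, absNorm_eq_zero_iff,
    span_singleton_eq_bot]
  exact hb

/-- `|b|² = N b`. -/
theorem norm_sq_eq (σ : K →+* ℂ) (b : 𝓞 K) : ‖σ b‖ ^ 2 = nmR K b := by
  have h1 := InfinitePlace.prod_eq_abs_norm (b : K)
  have hr : InfinitePlace.nrRealPlaces K = 0 :=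
    IsCyclotomicExtension.Rat.nrRealPlaces_eq_zero (n := 3) K (by norm_num)
  have hc : InfinitePlace.nrComplexPlaces K = 1 := by
    rw [IsCyclotomicExtension.Rat.nrComplexPlaces_eq_totient_div_two (n := 3) K]
    decide
  have hcard : Fintype.card (InfinitePlace K) = 1 := by
    rw [InfinitePlace.card_eq_nrRealPlaces_add_nrComplexPlaces, hr, hc]
  obtain ⟨w, hw⟩ := Fintype.card_eq_one_iff.1 hcard
  have hu : (Finset.univ : Finset (InfinitePlace K)) = {InfinitePlace.mk σ} := by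
    ext v
    simp [hw v, hw (InfinitePlace.mk σ)]
  have hcx : (InfinitePlace.mk σ).IsComplex := by
    have := IsCyclotomicExtension.Rat.isTotallyComplex (n := 3) K (by norm_num)
    exact this.isComplex _
  rw [hu, Finset.prod_singleton, InfinitePlace.apply, InfinitePlace.mult_isComplex ⟨_, hcx⟩] at h1
  rw [nmR_apply, absNorm_span_singleton]
  rw [h1]
  have h2 : Algebra.norm ℚ (b : K) = (Algebra.norm ℤ b : ℚ) := (Algebra.coe_norm_int b).symm
  rw [h2]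
  push_cast
  rw [Nat.cast_natAbs]
  push_cast
  rfl

theorem nmR_rpow (σ : K →+* ℂ) (b : 𝓞 K) (s : ℝ) : nmR K b ^ (-s) = ‖σ b‖ ^ (-(2 * s)) := by
  rw [← norm_sq_eq K σ, ← Real.rpow_natCast, ← Real.rpow_mul (norm_nonneg _)]
  congr 1
  push_cast
  ring

omit hK [NumberField K] in
theorem isCoprime_natCast {m n : ℕ} (h : m.Coprime n) : IsCoprime (m : 𝓞 K) (n : 𝓞 K) := by
  have := (Nat.isCoprime_iff_coprime.2 h).map (Int.castRingHom (𝓞 K))
  simpa using this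

omit hK [NumberField K] in
/-- a non-unit of `𝓞 K` dividing the prime `p` does not divide `N` if `p` does not. -/
theorem not_dvd_natCast {p N : ℕ} (hp : p.Prime) (hN : ¬ p ∣ N) {ϖ : 𝓞 K} (hϖ : ¬ IsUnit ϖ)
    (hd : ϖ ∣ (p : 𝓞 K)) : ¬ ϖ ∣ (N : 𝓞 K) := fun h =>
  hϖ ((isCoprime_natCast K ((Nat.Prime.coprime_iff_not_dvd hp).2 hN)).isUnit_of_dvd' hd h)

omit hK in
theorem not_isUnit_prime {p : ℕ} (hp : p.Prime) : ¬ IsUnit (p : 𝓞 K) := by
  intro h
  have h1 := (absNorm_eq_one_iff (I := span {(p : 𝓞 K)})).2 (span_singleton_eq_top.2 h)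
  rw [absNorm_span_natCast] at h1
  have h2 : Module.finrank ℤ (𝓞 K) ≠ 0 := by
    rw [RingOfIntegers.rank]; exact Module.finrank_pos.ne'
  rcases Nat.pow_eq_one.1 h1 with h | h
  · exact hp.one_lt.ne' h
  · exact h2 h

/-- **the finite Euler products are bounded by the Dirichlet series.** -/
theorem exists_finset {N : ℕ} {lam : 𝓞 K → ℝ} (h : IsHecke (N : 𝓞 K) lam) (M : ℕ)
    (T : Finset Nat.Primes) (hT : ∀ p ∈ T, (p : ℕ) % 3 = 1 ∧ ¬ (p : ℕ) ∣ N) :
    ∃ B : Finset (𝓞 K), (∀ b ∈ B, b ≠ 0) ∧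
      (∀ b ∈ B, ∀ ϖ, Prime ϖ → ϖ ∣ b → ∃ p ∈ T, ϖ ∣ ((p : ℕ) : 𝓞 K)) ∧
      ∀ s : ℝ, ∏ p ∈ T, ((∑ k ∈ Finset.range M,
          ch (lam (pi₁ K p)) k ^ 2 * (((p : ℕ) : ℝ) ^ (-s)) ^ k) *
        (∑ k ∈ Finset.range M, ch (lam (pi₂ K p)) k ^ 2 * (((p : ℕ) : ℝ) ^ (-s)) ^ k)) =
        ∑ b ∈ B, lam b ^ 2 * nmR K b ^ (-s) := by
  classical
  induction T using Finset.induction_on with
  | empty =>
    refine ⟨{1}, by simp, ?_, ?_⟩
    · intro b hb ϖ hϖ hd
      rw [Finset.mem_singleton.1 hb] at hd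
      exact absurd (isUnit_of_dvd_one hd) hϖ.not_isUnit
    · intro s; simp [h.one]
  | insert p T hpT ih =>
    obtain ⟨B, hB0, hB1, hB2⟩ := ih fun q hq => hT q (Finset.mem_insert_of_mem hq)
    obtain ⟨hp1, hpN⟩ := hT p (Finset.mem_insert_self _ _)
    obtain ⟨h1, h2, h12, h21, hmul, n1, n2⟩ := pi_split K p.2 hp1
    have hd1 : pi₁ K p ∣ ((p : ℕ) : 𝓞 K) := ⟨_, hmul.symm⟩
    have hd2 : pi₂ K p ∣ ((p : ℕ) : 𝓞 K) := ⟨_, by rw [mul_comm]; exact hmul.symm⟩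
    have hN1 := not_dvd_natCast K p.2 hpN h1.not_isUnit hd1
    have hN2 := not_dvd_natCast K p.2 hpN h2.not_isUnit hd2
    have hnew : ∀ ϖ : 𝓞 K, Prime ϖ → ϖ ∣ ((p : ℕ) : 𝓞 K) → ∀ b ∈ B, ¬ ϖ ∣ b := by
      intro ϖ hϖ hd b hb hdb
      obtain ⟨q, hq, hdq⟩ := hB1 b hb ϖ hϖ hdb
      have hne : (p : ℕ) ≠ (q : ℕ) := by
        intro he
        exact hpT (by rw [Subtype.ext he]; exact hq)
      exact hϖ.not_isUnit ((isCoprime_natCast K ((Nat.coprime_primes p.2 q.2).2 hne)).isUnit_of_dvd'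
        hd hdq)
    obtain ⟨B', hB'1, hB'2⟩ := h.step (nmR K) (nmR_pos K) h1 hN1 M B (hnew _ h1 hd1)
    have hB'3 : ∀ b ∈ B', ¬ pi₂ K p ∣ b := by
      intro b' hb' hd
      obtain ⟨k, b, hb, rfl⟩ := hB'1 b' hb'
      rcases h2.dvd_or_dvd hd with hd | hd
      · exact h21 (h2.dvd_of_dvd_pow hd)
      · exact hnew _ h2 hd2 b hb hd
    obtain ⟨B'', hB''1, hB''2⟩ := h.step (nmR K) (nmR_pos K) h2 hN2 M B' hB'3
    refine ⟨B'', ?_, ?_, ?_⟩
    · intro b'' hb''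
      obtain ⟨k, b', hb', rfl⟩ := hB''1 b'' hb''
      obtain ⟨l, b, hb, rfl⟩ := hB'1 b' hb'
      exact mul_ne_zero (pow_ne_zero _ h2.ne_zero) (mul_ne_zero (pow_ne_zero _ h1.ne_zero) (hB0 b hb))
    · intro b'' hb'' ϖ hϖ hd
      obtain ⟨k, b', hb', rfl⟩ := hB''1 b'' hb''
      obtain ⟨l, b, hb, rfl⟩ := hB'1 b' hb'
      rcases hϖ.dvd_or_dvd hd with hd | hd
      · exact ⟨p, Finset.mem_insert_self _ _, (hϖ.dvd_of_dvd_pow hd).trans hd2⟩
      rcases hϖ.dvd_or_dvd hd with hd | hd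
      · exact ⟨p, Finset.mem_insert_self _ _, (hϖ.dvd_of_dvd_pow hd).trans hd1⟩
      · obtain ⟨q, hq, hdq⟩ := hB1 b hb ϖ hϖ hd
        exact ⟨q, Finset.mem_insert_of_mem hq, hdq⟩
    · intro s
      have e1 : nmR K (pi₁ K p) = ((p : ℕ) : ℝ) := by rw [nmR_apply, n1]
      have e2 : nmR K (pi₂ K p) = ((p : ℕ) : ℝ) := by rw [nmR_apply, n2]
      rw [Finset.prod_insert hpT, hB2 s, ← hB''2 s, ← hB'2 s, e1, e2]
      ring

/-- **(P5)**: the restriction of the coefficients to `ℤ` is an Asai series. -/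
noncomputable def asaiData {N : ℕ} {lam : 𝓞 K → ℝ} (h : IsHecke (N : 𝓞 K) lam) (h3 : 3 ∣ N)
    (hin : ∀ p : ℕ, p.Prime → p % 3 = 2 → ¬ p ∣ N → lam p = 0 ∨ lam p = 2)
    (C : ℝ) (hC : 1 ≤ C)
    (hb : ∀ s : ℝ, 1 < s → s ≤ 2 → ∀ B : Finset (𝓞 K), (∀ b ∈ B, b ≠ 0) →
      ∑ b ∈ B, lam b ^ 2 * nmR K b ^ (-s) ≤ C / (s - 1)) : AsaiData where
  b m := lam (m : 𝓞 K)
  x p := lam (pi₁ K p)
  y p := lam (pi₂ K p)
  Sp := {p | p % 3 = 1 ∧ ¬ p ∣ N}
  In := {p | p % 3 = 2 ∧ ¬ p ∣ N}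
  zero := by
    rw [Nat.cast_zero]
    refine h.zero fun hu => not_isUnit_prime K Nat.prime_three (isUnit_of_dvd_unit ?_ hu)
    exact_mod_cast (Nat.cast_dvd_cast h3 : ((3 : ℕ) : 𝓞 K) ∣ ((N : ℕ) : 𝓞 K))
  one := by rw [Nat.cast_one, h.one]
  mul := by
    intro m n hmn
    have := IsCyclotomicExtension.Rat.three_pid K
    rw [Nat.cast_mul, h.mul _ _ (isCoprime_natCast K hmn)]
  split := by
    rintro p hp ⟨hp1, hpN⟩ k
    obtain ⟨h1, h2, h12, h21, hmul, n1, n2⟩ := pi_split K hp hp1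
    have hd1 : pi₁ K p ∣ ((p : ℕ) : 𝓞 K) := ⟨_, hmul.symm⟩
    have hd2 : pi₂ K p ∣ ((p : ℕ) : 𝓞 K) := ⟨_, by rw [mul_comm]; exact hmul.symm⟩
    have hN1 := not_dvd_natCast K hp hpN h1.not_isUnit hd1
    have hN2 := not_dvd_natCast K hp hpN h2.not_isUnit hd2
    rw [Nat.cast_pow, ← hmul, mul_pow, h.pow_mul h1 hN1 (fun hd => h12 (h1.dvd_of_dvd_pow hd)),
      h.pow h2 hN2]
  inert := by
    rintro p hp ⟨hp2, hpN⟩ k
    have hpr := inert_elt K hp hp2
    rw [Nat.cast_pow, (pi_inert K hp2).1, h.pow hpr (not_dvd_natCast K hp hpN hpr.not_isUnit dvd_rfl)]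
  inert' := by
    rintro p hp ⟨hp2, hpN⟩
    rw [(pi_inert K hp2).1]
    exact hin p hp hp2 hpN
  bad := by
    intro p hp h1 h2 k
    have hpN : p ∣ N := by
      by_contra hpN
      have h1' : ¬ p % 3 = 1 := fun e => h1 ⟨e, hpN⟩
      have h2' : ¬ p % 3 = 2 := fun e => h2 ⟨e, hpN⟩
      have : 3 ∣ p := by omega
      rw [Nat.prime_dvd_prime_iff_eq Nat.prime_three hp] at this
      exact hpN (this ▸ h3)
    refine h.bad _ fun hc => ?_
    rw [Nat.cast_pow] at hc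
    have hc' : IsCoprime (p : 𝓞 K) (N : 𝓞 K) :=
      hc.of_isCoprime_of_dvd_left (dvd_pow_self _ (Nat.succ_ne_zero k))
    exact not_isUnit_prime K hp (hc'.isUnit_of_dvd' dvd_rfl (Nat.cast_dvd_cast hpN))
  disj := by
    rintro p ⟨h1, -⟩ ⟨h2, -⟩
    omega
  C := C
  C1 := hC
  bound := by
    intro s hs hs2 T hT M
    obtain ⟨B, hB0, -, hB⟩ := exists_finset K h M T hT
    rw [hB s]
    exact hb s hs hs2 B hB0

section

variable {N : ℕ} {lam : 𝓞 K → ℝ} (h : IsHecke (N : 𝓞 K) lam) (h3 : 3 ∣ N)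
    (hin : ∀ p : ℕ, p.Prime → p % 3 = 2 → ¬ p ∣ N → lam p = 0 ∨ lam p = 2)
    (C : ℝ) (hC : 1 ≤ C)
    (hb : ∀ s : ℝ, 1 < s → s ≤ 2 → ∀ B : Finset (𝓞 K), (∀ b ∈ B, b ≠ 0) →
      ∑ b ∈ B, lam b ^ 2 * nmR K b ^ (-s) ≤ C / (s - 1))

@[simp] theorem asaiData_b (m : ℕ) : (asaiData K h h3 hin C hC hb).b m = lam (m : 𝓞 K) := rfl
@[simp] theorem asaiData_x (p : ℕ) : (asaiData K h h3 hin C hC hb).x p = lam (pi₁ K p) := rfl
@[simp] theorem asaiData_y (p : ℕ) : (asaiData K h h3 hin C hC hb).y p = lam (pi₂ K p) := rfl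
theorem asaiData_x_inert {p : ℕ} (h2 : p % 3 = 2) :
    (asaiData K h h3 hin C hC hb).x p = lam (p : 𝓞 K) := by
  rw [asaiData_x, (pi_inert K h2).1]
@[simp] theorem mem_asaiData_Sp (p : ℕ) :
    p ∈ (asaiData K h h3 hin C hC hb).Sp ↔ p % 3 = 1 ∧ ¬ p ∣ N := Iff.rfl
@[simp] theorem mem_asaiData_In (p : ℕ) :
    p ∈ (asaiData K h h3 hin C hC hb).In ↔ p % 3 = 2 ∧ ¬ p ∣ N := Iff.rfl

end

end Elt

end Fermat.Agent.LT.Period
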