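import Fermat.Agent.LT.Period.WeightSL
import Fermat.Agent.LT.Period.Eis

/-!
# The `Γ₀(N)`-set `{(c, d) : N ∣ c, (d, N) = 1}`
-/

set_option autoImplicit false

noncomputable section

open MeasureTheory UpperHalfPlane
open scoped ENNReal MatrixGroups Modular

namespace Fermat.Agent.LT.Period

open CongruenceSubgroup

/-- the left action of `SL₂(ℤ)` on row vectors, `(c, d) ↦ (c, d) g⁻¹` -/
def act (g : SL(2, ℤ)) (p : ℤ × ℤ) : ℤ × ℤ :=
  (p.1 * g 1 1 - p.2 * g 1 0, p.2 * g 0 0 - p.1 * g 0 1)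

lemma det_SL (g : SL(2, ℤ)) : g 0 0 * g 1 1 - g 0 1 * g 1 0 = 1 := by
  have h := g.2
  rwa [Matrix.det_fin_two] at h

lemma act_one (p : ℤ × ℤ) : act 1 p = p := by
  simp [act]

lemma act_mul (g h : SL(2, ℤ)) (p : ℤ × ℤ) : act (g * h) p = act g (act h p) := by
  simp only [act, Matrix.SpecialLinearGroup.coe_mul, Matrix.mul_apply, Fin.sum_univ_two]
  ext <;> ring

lemma act_inv_act (g : SL(2, ℤ)) (p : ℤ × ℤ) : act g⁻¹ (act g p) = p := by
  rw [← act_mul, inv_mul_cancel, act_one]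

lemma act_act_inv (g : SL(2, ℤ)) (p : ℤ × ℤ) : act g (act g⁻¹ p) = p := by
  rw [← act_mul, mul_inv_cancel, act_one]

/-- `act g` as a permutation -/
def actEquiv (g : SL(2, ℤ)) : (ℤ × ℤ) ≃ (ℤ × ℤ) where
  toFun := act g
  invFun := act g⁻¹
  left_inv := act_inv_act g
  right_inv := act_act_inv g

lemma act_zero (g : SL(2, ℤ)) : act g 0 = 0 := by
  simp [act]

lemma act_ne_zero {g : SL(2, ℤ)} {p : ℤ × ℤ} (h : p ≠ 0) : act g p ≠ 0 := by
  intro h'
  apply h
  rw [← act_inv_act g p, h', act_zero]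

lemma term_act (s : ℝ) (g : SL(2, ℤ)) (z : ℍ) (p : ℤ × ℤ) :
    term s (g • z) (act g p) = term s z p := by
  have hd := det_SL g
  have hdC : (g 0 0 : ℂ) * g 1 1 - g 0 1 * g 1 0 = 1 := by exact_mod_cast hd
  have hne : ((g 1 0 : ℂ) * z + g 1 1) ≠ 0 := by
    have := denom_ne_zero (Matrix.SpecialLinearGroup.mapGL ℝ g) z
    simpa [denom] using this
  have hcoe : ((g • z : ℍ) : ℂ) = ((g 0 0 : ℂ) * z + g 0 1) / ((g 1 0 : ℂ) * z + g 1 1) := by
    rw [coe_specialLinearGroup_apply]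
    simp
  have him : (g • z).im = z.im / Complex.normSq ((g 1 0 : ℂ) * z + g 1 1) := by
    rw [ModularGroup.im_smul_eq_div_normSq]
    rfl
  unfold term
  congr 1
  have h1 : (((act g p).1 : ℂ) * ((g • z : ℍ) : ℂ) + ((act g p).2 : ℂ)) =
      ((p.1 : ℂ) * z + p.2) / ((g 1 0 : ℂ) * z + g 1 1) := by
    rw [hcoe, eq_div_iff hne, add_mul, mul_assoc, div_mul_cancel₀ _ hne]
    simp only [act]
    push_cast
    linear_combination ((p.1 : ℂ) * z + p.2) * hdC
  rw [h1, him, map_div₀, div_div_div_cancel_right₀]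
  rwa [Ne, map_eq_zero]

variable (N : ℕ)

/-- The set of `(c, d) ≠ 0` with `N ∣ c` and `(d, N) = 1`. -/
def Del : Type := {p : ℤ × ℤ // ((N : ℤ) ∣ p.1 ∧ IsCoprime p.2 (N : ℤ)) ∧ p ≠ 0}

instance : Countable (Del N) := by
  unfold Del
  infer_instance

variable {N}

lemma dvd_of_mem_Gamma0 {g : SL(2, ℤ)} (hg : g ∈ Gamma0 N) : (N : ℤ) ∣ g 1 0 := by
  rw [← ZMod.intCast_zmod_eq_zero_iff_dvd]
  exact Gamma0_mem.mp hg

lemma isCoprime_of_mem_Gamma0 {g : SL(2, ℤ)} (hg : g ∈ Gamma0 N) : IsCoprime (g 0 0) (N : ℤ) := by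
  obtain ⟨k, hk⟩ := dvd_of_mem_Gamma0 hg
  refine ⟨g 1 1, -(g 0 1 * k), ?_⟩
  have := det_SL g
  rw [hk] at this
  linear_combination this

lemma act_mem {g : SL(2, ℤ)} (hg : g ∈ Gamma0 N) {p : ℤ × ℤ}
    (hp : (N : ℤ) ∣ p.1 ∧ IsCoprime p.2 (N : ℤ)) :
    (N : ℤ) ∣ (act g p).1 ∧ IsCoprime (act g p).2 (N : ℤ) := by
  constructor
  · exact dvd_sub (hp.1.mul_right _) ((dvd_of_mem_Gamma0 hg).mul_left _)
  · obtain ⟨k, hk⟩ := hp.1
    have h1 := hp.2.mul_left (isCoprime_of_mem_Gamma0 hg)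
    have h2 : (act g p).2 = p.2 * g 0 0 + (N : ℤ) * (-(k * g 0 1)) := by
      simp only [act, hk]
      ring
    rw [h2]
    exact h1.add_mul_left_left _

instance : MulAction (Gamma0 N) (Del N) where
  smul g p := ⟨act g p.1, act_mem g.2 p.2.1, act_ne_zero p.2.2⟩
  one_smul p := Subtype.ext (act_one p.1)
  mul_smul g h p := Subtype.ext (act_mul g h p.1)

lemma coe_smul_Del (g : Gamma0 N) (p : Del N) : (g • p).1 = act g p.1 := rfl

/-- The representatives `(0, n)`. -/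
def repD (n : {n : ℕ // 0 < n ∧ n.Coprime N}) : Del N :=
  ⟨(0, n.1), ⟨dvd_zero _, by
    rw [Nat.isCoprime_iff_coprime]
    exact n.2.2⟩, fun h => by
      have := congrArg Prod.snd h
      simp only [Prod.snd_zero, Nat.cast_eq_zero] at this
      exact n.2.1.ne' this⟩

lemma coe_repD (n : {n : ℕ // 0 < n ∧ n.Coprime N}) : (repD n).1 = (0, (n.1 : ℤ)) := rfl

lemma exists_repD (p : Del N) : ∃ n, ∃ g : Gamma0 N, g • p = repD n := by
  obtain ⟨⟨c, e⟩, ⟨hc, he⟩, h0⟩ := p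
  set n := Int.gcd c e with hn
  have hn0 : 0 < n := by
    rw [Nat.pos_iff_ne_zero, hn, Ne, Int.gcd_eq_zero_iff]
    rintro ⟨h1, h2⟩
    apply h0
    simp only [h1, h2]
    rfl
  obtain ⟨c0, hc0⟩ : (n : ℤ) ∣ c := Int.gcd_dvd_left _ _
  obtain ⟨e0, he0⟩ : (n : ℤ) ∣ e := Int.gcd_dvd_right _ _
  have hn0' : (n : ℤ) ≠ 0 := by exact_mod_cast hn0.ne'
  have hcop : n.Coprime N := by
    rw [← Nat.isCoprime_iff_coprime]
    exact he.of_isCoprime_of_dvd_left (by rw [he0]; exact dvd_mul_right _ _)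
  have hco : IsCoprime c0 e0 := by
    rw [Int.isCoprime_iff_gcd_eq_one]
    have h1 : Int.gcd ((n : ℤ) * c0) ((n : ℤ) * e0) = n * Int.gcd c0 e0 := by
      rw [Int.gcd_mul_left, Int.natAbs_natCast]
    rw [← hc0, ← he0, ← hn] at h1
    exact (Nat.eq_of_mul_eq_mul_left hn0 (by rw [mul_one]; exact h1)).symm
  have hNc : (N : ℤ) ∣ c0 := by
    rw [hc0] at hc
    exact ((Nat.isCoprime_iff_coprime.mpr hcop).symm).dvd_of_dvd_mul_left hc
  obtain ⟨u, v, huv⟩ := hco
  -- u * c0 + v * e0 = 1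
  let g : SL(2, ℤ) := ⟨!![v, -u; c0, e0], by
    rw [Matrix.det_fin_two_of]
    linear_combination huv⟩
  have hg : g ∈ Gamma0 N := by
    rw [Gamma0_mem]
    change ((c0 : ℤ) : ZMod N) = 0
    rw [ZMod.intCast_zmod_eq_zero_iff_dvd]
    exact hNc
  refine ⟨⟨n, hn0, hcop⟩, ⟨g, hg⟩, Subtype.ext ?_⟩
  change (c * e0 - e * c0, e * v - c * -u) = (0, (n : ℤ))
  rw [hc0, he0]
  refine Prod.ext ?_ ?_
  · simp only
    ring
  · simp only
    linear_combination (n : ℤ) * huv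

lemma repD_smul {n m : {n : ℕ // 0 < n ∧ n.Coprime N}} {g : Gamma0 N} (h : g • repD n = repD m) :
    (g : SL(2, ℤ)) 1 0 = 0 ∧ (g : SL(2, ℤ)) 0 0 = 1 ∧ (g : SL(2, ℤ)) 1 1 = 1 ∧ n = m := by
  have h1 := congrArg Subtype.val h
  rw [coe_smul_Del, coe_repD, coe_repD] at h1
  have h2 := congrArg Prod.fst h1
  have h3 := congrArg Prod.snd h1
  simp only [act, zero_mul, zero_sub, neg_eq_zero, mul_eq_zero, Nat.cast_eq_zero, n.2.1.ne',
    false_or, sub_zero] at h2 h3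
  have hd := det_SL (g : SL(2, ℤ))
  rw [h2, mul_zero, sub_zero] at hd
  have hn : (0 : ℤ) < n.1 := by exact_mod_cast n.2.1
  have hm : (0 : ℤ) < m.1 := by exact_mod_cast m.2.1
  have h4 : 0 < (g : SL(2, ℤ)) 0 0 := by
    by_contra hcon
    push Not at hcon
    nlinarith
  have h5 : (g : SL(2, ℤ)) 0 0 = 1 := Int.eq_one_of_mul_eq_one_right h4.le hd
  rw [h5, one_mul] at hd
  refine ⟨h2, h5, hd, Subtype.ext ?_⟩
  rw [h5, mul_one] at h3
  exact_mod_cast h3

/-- the vertical strip -/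
def strip : Set ℍ := {z | 0 ≤ z.re ∧ z.re < 1}

lemma measurableSet_strip : MeasurableSet strip := by
  have h1 : Measurable (fun z : ℍ => z.re) := UpperHalfPlane.continuous_re.measurable
  exact (measurableSet_le measurable_const h1).inter (measurableSet_lt h1 measurable_const)

lemma re_smul_of_unip {g : SL(2, ℤ)} (h10 : g 1 0 = 0) (h00 : g 0 0 = 1) (h11 : g 1 1 = 1)
    (z : ℍ) : (g • z).re = z.re + g 0 1 := by
  have hcoe : ((g • z : ℍ) : ℂ) = ((g 0 0 : ℂ) * z + g 0 1) / ((g 1 0 : ℂ) * z + g 1 1) := by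
    rw [coe_specialLinearGroup_apply]
    simp
  rw [h10, h00, h11] at hcoe
  have := congrArg Complex.re hcoe
  simpa using this

/-- The indicator of the strip is a weight of the stabiliser of `(0, n)`. -/
lemma isWeight_strip (n : {n : ℕ // 0 < n ∧ n.Coprime N}) :
    IsWeight (MulAction.stabilizer (Gamma0 N) (repD n)) (strip.indicator (1 : ℍ → ℝ≥0∞)) where
  meas := measurable_one.indicator measurableSet_strip
  sum_eq z := by
    classical
    let T : ℤ → SL(2, ℤ) := fun k => ⟨!![1, k; 0, 1], by rw [Matrix.det_fin_two_of]; ring⟩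
    have hT : ∀ k, T k ∈ Gamma0 N := by
      intro k
      rw [Gamma0_mem]
      change ((0 : ℤ) : ZMod N) = 0
      exact Int.cast_zero
    set k0 : ℤ := -⌊z.re⌋ with hk0
    have hstab : (⟨T k0, hT k0⟩ : Gamma0 N) ∈ MulAction.stabilizer (Gamma0 N) (repD n) := by
      rw [MulAction.mem_stabilizer_iff]
      apply Subtype.ext
      rw [coe_smul_Del, coe_repD]
      change ((0 : ℤ) * 1 - (n.1 : ℤ) * 0, (n.1 : ℤ) * 1 - 0 * k0) = _
      simp
    rw [tsum_eq_single ⟨⟨T k0, hT k0⟩, hstab⟩]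
    · apply Set.indicator_of_mem
      have h1 : (((⟨⟨T k0, hT k0⟩, hstab⟩ : MulAction.stabilizer (Gamma0 N) (repD n)) • z : ℍ)).re
          = z.re + k0 := re_smul_of_unip (g := T k0) rfl rfl rfl z
      change 0 ≤ _ ∧ _ < _
      rw [h1, hk0]
      push_cast
      constructor
      · linarith [Int.floor_le z.re]
      · linarith [Int.lt_floor_add_one z.re]
    · intro k hk
      refine Set.indicator_of_notMem (fun hmem => hk ?_) _
      obtain ⟨h10, h00, h11, -⟩ := repD_smul (g := (k : Gamma0 N)) (n := n) (m := n) k.2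
      have h1 : ((k • z : ℍ)).re = z.re + ((k : Gamma0 N) : SL(2, ℤ)) 0 1 :=
        re_smul_of_unip h10 h00 h11 z
      have hmem' : 0 ≤ (k • z : ℍ).re ∧ (k • z : ℍ).re < 1 := hmem
      rw [h1] at hmem'
      have h2 : ((k : Gamma0 N) : SL(2, ℤ)) 0 1 = k0 := by
        have h3 : ⌊z.re⌋ = -((k : Gamma0 N) : SL(2, ℤ)) 0 1 := by
          rw [Int.floor_eq_iff]
          push_cast
          constructor <;> linarith [hmem'.1, hmem'.2]
        omega
      apply Subtype.ext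
      apply Subtype.ext
      apply Matrix.SpecialLinearGroup.ext
      intro i j
      fin_cases i <;> fin_cases j
      · exact h00
      · exact h2
      · exact h10
      · exact h11

end Fermat.Agent.LT.Period
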