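import Mathlib.Analysis.Fourier.AddCircleMulti
import Mathlib.Analysis.SpecialFunctions.ImproperIntegrals
import Mathlib.Analysis.SpecialFunctions.Pow.Real
import Mathlib.LinearAlgebra.Complex.FiniteDimensional

/-!
# Parseval bounds for bounded functions with a Fourier expansion

* `sum_sq_le_of_bounded` : if `f x = ∑ c a * e(⟨n a, x⟩)` (absolutely convergent, `n` injective)
  is bounded by `M` then `∑ ‖c a‖ ^ 2 ≤ M ^ 2` on finite sets.
* `sum_sq_le` : the same for functions `F (z, y)` on hyperbolic `3`-space with coefficients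
  `c a * (y * k (4 π ‖a‖ y))`; conclusion `∑_{‖a‖ ^ 2 ≤ Y} ‖c a‖ ^ 2 ≤ C * Y`.
* `tsum_rpow_le` : partial summation, `∑ b i * N i ^ (-s) ≤ s * C / (s - 1)`.
-/

set_option autoImplicit false

open MeasureTheory UnitAddTorus Set

noncomputable section

namespace Fermat.Agent.LT.Period

section torus

local instance : MeasureSpace UnitAddCircle := ⟨AddCircle.haarAddCircle⟩

local instance : Measure.IsAddHaarMeasure (volume : Measure UnitAddCircle) :=
  inferInstanceAs (Measure.IsAddHaarMeasure AddCircle.haarAddCircle)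

local instance : IsProbabilityMeasure (volume : Measure UnitAddCircle) :=
  inferInstanceAs (IsProbabilityMeasure AddCircle.haarAddCircle)

variable {d : Type*} [Fintype d] {A : Type*}

/-- The character `x ↦ exp (2 π i ⟨n, x⟩)` of `ℝ ^ d`. -/
def ech (n : d → ℤ) (x : d → ℝ) : ℂ := Complex.exp (2 * Real.pi * Complex.I * ∑ i, (n i * x i : ℝ))

lemma mFourier_coe (n : d → ℤ) (x : d → ℝ) :
    mFourier n (fun i => (x i : UnitAddCircle)) = ech n x := by
  change ∏ i, fourier (n i) (x i : UnitAddCircle) = _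
  rw [ech, Complex.ofReal_sum, Finset.mul_sum, Complex.exp_sum]
  refine Finset.prod_congr rfl fun i _ => ?_
  rw [fourier_coe_apply]
  congr 1
  push_cast
  ring

lemma norm_ech (n : d → ℤ) (x : d → ℝ) : ‖ech n x‖ = 1 := by
  rw [ech, show (2 * Real.pi * Complex.I * ((∑ i, (n i * x i : ℝ) : ℝ) : ℂ)) =
    ((2 * Real.pi * ∑ i, (n i * x i : ℝ) : ℝ) : ℂ) * Complex.I by push_cast; ring,
    Complex.norm_exp_ofReal_mul_I]

/-- The continuous function on the torus attached to an absolutely summable family. -/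
def torusSum (c : A → ℂ) (n : A → d → ℤ) : C(UnitAddTorus d, ℂ) := ∑' a, c a • mFourier (n a)

lemma summable_torus {c : A → ℂ} (hc : Summable fun a => ‖c a‖) (n : A → d → ℤ) :
    Summable fun a => c a • mFourier (n a) := by
  refine Summable.of_norm (hc.congr fun a => ?_)
  rw [norm_smul, mFourier_norm, mul_one]

lemma torusSum_apply {c : A → ℂ} (hc : Summable fun a => ‖c a‖) (n : A → d → ℤ) (x : d → ℝ) :
    torusSum c n (fun i => (x i : UnitAddCircle)) = ∑' a, c a * ech (n a) x := by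
  rw [torusSum, ← ContinuousMap.tsum_apply (summable_torus hc n)]
  refine tsum_congr fun a => ?_
  rw [ContinuousMap.smul_apply, mFourier_coe, smul_eq_mul]

lemma norm_torusSum_le {c : A → ℂ} (hc : Summable fun a => ‖c a‖) (n : A → d → ℤ) {M : ℝ}
    (hM : 0 ≤ M) (h : ∀ x : d → ℝ, ‖∑' a, c a * ech (n a) x‖ ≤ M) : ‖torusSum c n‖ ≤ M := by
  rw [ContinuousMap.norm_le _ hM]
  intro t
  obtain ⟨x, rfl⟩ : ∃ x : d → ℝ, (fun i => (x i : UnitAddCircle)) = t := by
    choose x hx using fun i => QuotientAddGroup.mk_surjective (t i)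
    exact ⟨x, funext hx⟩
  rw [torusSum_apply hc]
  exact h x

/-- **Bessel's inequality for bounded functions.** -/
theorem sum_sq_le_of_bounded {c : A → ℂ} (hc : Summable fun a => ‖c a‖) {n : A → d → ℤ}
    (hn : Function.Injective n) {M : ℝ} (h : ∀ x : d → ℝ, ‖∑' a, c a * ech (n a) x‖ ≤ M)
    (s : Finset A) : ∑ a ∈ s, ‖c a‖ ^ 2 ≤ M ^ 2 := by
  classical
  have hM : 0 ≤ M := (norm_nonneg _).trans (h 0)
  set g := torusSum c n with hg
  set T := ContinuousMap.toLp (E := ℂ) 2 (volume : Measure (UnitAddTorus d)) ℂ with hT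
  have ho := (orthonormal_mFourier (d := d)).comp n hn
  have h1 : T g = ∑' a, c a • mFourierLp 2 (n a) := by
    rw [hg, torusSum, T.map_tsum (summable_torus hc n)]
    exact tsum_congr fun a => T.map_smul _ _
  have hs : Summable fun a => c a • mFourierLp (d := d) 2 (n a) := by
    have := (summable_torus hc n).mapL T
    exact this.congr fun a => T.map_smul _ _
  have h2 : ∀ a, inner ℂ (mFourierLp (d := d) 2 (n a)) (T g) = c a := by
    intro a
    rw [h1]
    have h3 : HasSum (fun b => inner ℂ (mFourierLp (d := d) 2 (n a)) (c b • mFourierLp 2 (n b)))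
        (inner ℂ (mFourierLp (d := d) 2 (n a)) (∑' b, c b • mFourierLp 2 (n b))) :=
      (innerSL ℂ (mFourierLp (d := d) 2 (n a))).hasSum hs.hasSum
    refine h3.unique ?_
    convert hasSum_ite_eq a (c a) using 2 with b
    rw [inner_smul_right]
    have h4 := orthonormal_iff_ite.mp ho a b
    simp only [Function.comp_apply] at h4
    rw [h4]
    by_cases hab : b = a
    · subst hab
      simp
    · rw [if_neg hab, if_neg (Ne.symm hab), mul_zero]
  have h3 := ho.sum_inner_products_le (T g) (s := s)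
  simp only [Function.comp_apply, h2] at h3
  refine h3.trans (pow_le_pow_left₀ (norm_nonneg _) ?_ 2)
  have h4 : ‖T g‖ ≤ ‖T‖ * ‖g‖ := T.le_opNorm g
  have h5 : ‖T‖ ≤ 1 := by
    have h6 := ContinuousMap.toLp_norm_le (μ := (volume : Measure (UnitAddTorus d))) (E := ℂ)
      (p := 2) (𝕜 := ℂ)
    refine h6.trans ?_
    rw [measureUnivNNReal, measure_univ, ENNReal.toNNReal_one, NNReal.coe_one, Real.one_rpow]
  refine h4.trans ?_
  calc ‖T‖ * ‖g‖ ≤ 1 * M := mul_le_mul h5 (norm_torusSum_le hc n hM h) (norm_nonneg _) zero_le_one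
    _ = M := one_mul M

end torus

section plane

variable {A : Type*}

/-- The Fourier expansion at height `y` of a function on hyperbolic `3`-space, frequencies
`α a`, coefficients `c a`, Bessel function `k`. -/
def fourierH (k : ℝ → ℝ) (α : A → ℂ) (c : A → ℂ) (z : ℂ) (y : ℝ) : ℂ :=
  ∑' a, c a * (y * k (4 * Real.pi * ‖α a‖ * y) : ℝ) *
    Complex.exp (4 * Real.pi * Complex.I * ((α a * z).re : ℝ))

/-- **Parseval bound.** `w₁, w₂` is a basis of the lattice of periods: `2 Re (α a * wᵢ) ∈ ℤ`. -/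
theorem sum_sq_le {k : ℝ → ℝ} {κ : ℝ} (hκ : 0 < κ)
    (hk : ∀ x ∈ Ioc 0 (4 * Real.pi), κ ≤ k x) {α : A → ℂ} (h0 : ∀ a, α a ≠ 0)
    (hα : Function.Injective α) {w : Fin 2 → ℂ} (hw : LinearIndependent ℝ w)
    {n : A → Fin 2 → ℤ} (hn : ∀ a i, 2 * (α a * w i).re = n a i) {c : A → ℂ}
    (hc : ∀ y : ℝ, 0 < y → Summable fun a => ‖c a‖ * |k (4 * Real.pi * ‖α a‖ * y)|)
    {M : ℝ} (hM : ∀ (z : ℂ) (y : ℝ), 0 < y → ‖fourierH k α c z y‖ ≤ M)
    {Y : ℝ} (hY : 0 < Y) (s : Finset A) (hs : ∀ a ∈ s, ‖α a‖ ^ 2 ≤ Y) :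
    ∑ a ∈ s, ‖c a‖ ^ 2 ≤ M ^ 2 / κ ^ 2 * Y := by
  set y : ℝ := (Real.sqrt Y)⁻¹ with hy
  have hsY : 0 < Real.sqrt Y := Real.sqrt_pos.mpr hY
  have hy0 : 0 < y := inv_pos.mpr hsY
  have hyY : y ^ 2 * Y = 1 := by
    rw [hy, inv_pow, Real.sq_sqrt hY.le, inv_mul_cancel₀ hY.ne']
  set b : A → ℂ := fun a => c a * (y * k (4 * Real.pi * ‖α a‖ * y) : ℝ) with hb
  have hb' : ∀ a, ‖b a‖ = ‖c a‖ * |k (4 * Real.pi * ‖α a‖ * y)| * y := by
    intro a
    rw [hb]
    dsimp only
    rw [norm_mul, Complex.norm_real, Real.norm_eq_abs, abs_mul, abs_of_pos hy0]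
    ring
  have hbs : Summable fun a => ‖b a‖ := by
    simp_rw [hb']
    exact (hc y hy0).mul_right y
  have hn' : Function.Injective n := by
    intro a a' h
    apply hα
    -- the frequencies agree on a real basis of `ℂ`
    have h1 : ∀ i, ((α a - α a') * w i).re = 0 := by
      intro i
      have h2 := hn a i
      have h3 := hn a' i
      rw [h] at h2
      rw [sub_mul, Complex.sub_re]
      linarith
    have h2 : ∀ z : ℂ, ((α a - α a') * z).re = 0 := by
      intro z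
      have hspan : Submodule.span ℝ (Set.range w) = ⊤ :=
        hw.span_eq_top_of_card_eq_finrank (by rw [Fintype.card_fin, Complex.finrank_real_complex])
      have hz : z ∈ Submodule.span ℝ (Set.range w) := by rw [hspan]; trivial
      induction hz using Submodule.span_induction with
      | mem x hx =>
        obtain ⟨i, rfl⟩ := hx
        exact h1 i
      | zero => simp
      | add x y _ _ hx hy => rw [mul_add, Complex.add_re, hx, hy, add_zero]
      | smul r x _ hx =>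
        rw [Complex.real_smul, mul_left_comm, Complex.re_ofReal_mul, hx, mul_zero]
    have h3 := h2 (starRingEnd ℂ (α a - α a'))
    rw [Complex.mul_conj, Complex.ofReal_re, Complex.normSq_eq_zero, sub_eq_zero] at h3
    exact h3
  have hbound : ∀ x : Fin 2 → ℝ, ‖∑' a, b a * ech (n a) x‖ ≤ M := by
    intro x
    refine le_of_eq_of_le ?_ (hM (∑ i, (x i : ℂ) * w i) y hy0)
    rw [fourierH]
    congr 1
    refine tsum_congr fun a => ?_
    congr 1
    rw [ech]
    congr 1
    have h1 : (α a * ∑ i, (x i : ℂ) * w i).re = (∑ i, (n a i * x i : ℝ)) / 2 := by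
      rw [Finset.mul_sum, Complex.re_sum, Finset.sum_div]
      refine Finset.sum_congr rfl fun i _ => ?_
      rw [mul_left_comm, Complex.re_ofReal_mul, ← hn a i]
      ring
    rw [h1]
    push_cast
    ring
  have h1 := sum_sq_le_of_bounded hbs hn' hbound s
  have h2 : ∀ a ∈ s, κ ^ 2 * y ^ 2 * ‖c a‖ ^ 2 ≤ ‖b a‖ ^ 2 := by
    intro a ha
    have h3 : 0 < ‖α a‖ := norm_pos_iff.mpr (h0 a)
    have h4 : ‖α a‖ * y ≤ 1 := by
      have h5 : ‖α a‖ ≤ Real.sqrt Y := Real.le_sqrt_of_sq_le (hs a ha)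
      rw [hy, ← div_eq_mul_inv, div_le_one hsY]
      exact h5
    have h5 : κ ≤ k (4 * Real.pi * ‖α a‖ * y) := by
      apply hk
      constructor
      · positivity
      · calc 4 * Real.pi * ‖α a‖ * y = 4 * Real.pi * (‖α a‖ * y) := by ring
          _ ≤ 4 * Real.pi * 1 := mul_le_mul_of_nonneg_left h4 (by positivity)
          _ = 4 * Real.pi := mul_one _
    rw [hb', abs_of_nonneg (hκ.le.trans h5), mul_pow, mul_pow]
    have h6 : κ ^ 2 ≤ k (4 * Real.pi * ‖α a‖ * y) ^ 2 := pow_le_pow_left₀ hκ.le h5 2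
    have h7 : 0 ≤ ‖c a‖ ^ 2 * y ^ 2 := by positivity
    nlinarith [mul_le_mul_of_nonneg_right h6 h7]
  have h3 : κ ^ 2 * y ^ 2 * ∑ a ∈ s, ‖c a‖ ^ 2 ≤ M ^ 2 := by
    rw [Finset.mul_sum]
    exact (Finset.sum_le_sum h2).trans h1
  have h4 : ∑ a ∈ s, ‖c a‖ ^ 2 = (κ ^ 2 * y ^ 2 * ∑ a ∈ s, ‖c a‖ ^ 2) / κ ^ 2 * Y := by
    have : κ ^ 2 ≠ 0 := by positivity
    field_simp
    linear_combination (-(∑ a ∈ s, ‖c a‖ ^ 2)) * hyY
  rw [h4]
  gcongr

lemma hasSum_congr' {B : Type*} {f g : B → ℂ} {x : ℂ}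
    (h : HasSum f x) (hfg : ∀ b, g b = f b) : HasSum g x := by
  rwa [funext hfg]

/-- The cube root of unity `ω = (-1 + √-3) / 2`. -/
def om : ℂ := ⟨-1 / 2, Real.sqrt 3 / 2⟩

/-- `√-3`. -/
def sqrtNeg3 : ℂ := ⟨0, Real.sqrt 3⟩

lemma re_div_sqrtNeg3 (z : ℂ) : (z / sqrtNeg3).re = z.im / Real.sqrt 3 := by
  have h3 : (0 : ℝ) < Real.sqrt 3 := Real.sqrt_pos.mpr (by norm_num)
  have h : sqrtNeg3 ≠ 0 := by
    intro h
    have := congrArg Complex.im h
    exact h3.ne' this
  have h2 : z / sqrtNeg3 = ⟨z.im / Real.sqrt 3, -(z.re / Real.sqrt 3)⟩ := by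
    rw [div_eq_iff h]
    apply Complex.ext
    · simp [sqrtNeg3, Complex.mul_re]
    · simp [sqrtNeg3, Complex.mul_im]
  rw [h2]

lemma norm_sqrtNeg3 : ‖sqrtNeg3‖ = Real.sqrt 3 := by
  have h : sqrtNeg3 = (Real.sqrt 3 : ℝ) * Complex.I := by
    apply Complex.ext <;> simp [sqrtNeg3]
  rw [h, norm_mul, Complex.norm_I, mul_one, Complex.norm_real, Real.norm_eq_abs,
    abs_of_nonneg (Real.sqrt_nonneg 3)]

/-- **Parseval bound over `ℚ(√-3)`.** `F (z, y) = ∑ lam a * y k(4 π |β a| y / √3) e(Tr (β a z / √-3))`,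
`β a` Eisenstein integers; `F` bounded by `M`, `k ≥ κ` on `(0, 4 π]`. -/
theorem sum_sq_le_eisenstein {β : A → ℂ} (hβ : Function.Injective β)
    (hint : ∀ a, ∃ u v : ℤ, β a = u + v * om) {lam : A → ℝ} (hlam : ∀ a, β a = 0 → lam a = 0)
    {k : ℝ → ℝ} {κ : ℝ} (hκ : 0 < κ) (hk : ∀ x ∈ Ioc 0 (4 * Real.pi), κ ≤ k x) {F : ℂ → ℝ → ℂ}
    (hF : ∀ (z : ℂ) (y : ℝ), 0 < y → HasSum (fun a => (lam a : ℂ) *
      (y * k (4 * Real.pi * ‖β a‖ * y / Real.sqrt 3) : ℝ) *
        Complex.exp (2 * Real.pi * Complex.I * (2 * (β a * z / sqrtNeg3).re : ℝ))) (F z y))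
    {M : ℝ} (hM : ∀ (z : ℂ) (y : ℝ), 0 < y → ‖F z y‖ ≤ M) {Y : ℝ} (hY : 0 < Y) (T : Finset A)
    (hT : ∀ a ∈ T, ‖β a‖ ^ 2 ≤ Y) : ∑ a ∈ T, lam a ^ 2 ≤ M ^ 2 / κ ^ 2 * Y := by
  classical
  have hs3 : (0 : ℝ) < Real.sqrt 3 := Real.sqrt_pos.mpr (by norm_num)
  have hs0 : sqrtNeg3 ≠ 0 := by
    rw [← norm_pos_iff, norm_sqrtNeg3]
    exact hs3
  let A' := {a : A // β a ≠ 0}
  let α : A' → ℂ := fun a => β a.1 / sqrtNeg3
  have hα0 : ∀ a, α a ≠ 0 := fun a => div_ne_zero a.2 hs0
  have hα : Function.Injective α := by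
    intro a b h
    have h1 : β a.1 / sqrtNeg3 = β b.1 / sqrtNeg3 := h
    rw [div_left_inj' hs0] at h1
    exact Subtype.ext (hβ h1)
  have hnα : ∀ a : A', ‖α a‖ = ‖β a.1‖ / Real.sqrt 3 := fun a => by
    change ‖β a.1 / sqrtNeg3‖ = _
    rw [norm_div, norm_sqrtNeg3]
  let w : Fin 2 → ℂ := ![1, om]
  have hw : LinearIndependent ℝ w := by
    rw [LinearIndependent.pair_iff]
    intro s t h
    have h1 := congrArg Complex.im h
    have h2 := congrArg Complex.re h
    simp [om] at h1 h2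
    have ht : t = 0 := h1
    subst ht
    simpa using h2
  choose u v huv using hint
  have hn : ∀ (a : A') i, 2 * (α a * w i).re = ((![v a.1, u a.1 - v a.1] : Fin 2 → ℤ) i : ℤ) := by
    intro a i
    have h1 : ∀ x : ℂ, (α a * x).re = (β a.1 * x).im / Real.sqrt 3 := fun x => by
      rw [← re_div_sqrtNeg3]
      congr 1
      change β a.1 / sqrtNeg3 * x = _
      ring
    rw [h1, huv]
    fin_cases i
    · simp [w, om]
      field_simp
    · simp [w, om]
      field_simp
      have h9 : Real.sqrt 3 ^ 2 = 3 := Real.sq_sqrt (by norm_num)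
      ring
  -- the expansion over `A'`
  have hsum : ∀ (z : ℂ) (y : ℝ), 0 < y → HasSum (fun a : A' => (lam a.1 : ℂ) *
      (y * k (4 * Real.pi * ‖α a‖ * y) : ℝ) *
        Complex.exp (4 * Real.pi * Complex.I * ((α a * z).re : ℝ))) (F z y) := by
    intro z y hy
    have h1 := hF z y hy
    rw [← hasSum_subtype_iff_of_support_subset (s := {a | β a ≠ 0})] at h1
    · refine hasSum_congr' h1 fun a => ?_
      change _ = (lam a.1 : ℂ) * (y * k (4 * Real.pi * ‖β a.1‖ * y / Real.sqrt 3) : ℝ) *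
        Complex.exp (2 * Real.pi * Complex.I * (2 * (β a.1 * z / sqrtNeg3).re : ℝ))
      have h2 : 4 * Real.pi * ‖α a‖ * y = 4 * Real.pi * ‖β a.1‖ * y / Real.sqrt 3 := by
        rw [hnα]
        ring
      have h3 : (β a.1 * z / sqrtNeg3) = α a * z := by
        change _ = β a.1 / sqrtNeg3 * z
        ring
      rw [h2, h3]
      congr 2
      push_cast
      ring
    · intro a ha hb
      apply ha
      have : β a = 0 := by simpa using hb
      simp [hlam a this]
  have hc : ∀ y : ℝ, 0 < y →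
      Summable fun a : A' => ‖(lam a.1 : ℂ)‖ * |k (4 * Real.pi * ‖α a‖ * y)| := by
    intro y hy
    have h1 := ((hsum 0 y hy).summable.norm).mul_left y⁻¹
    refine h1.congr fun a => ?_
    rw [mul_zero, Complex.zero_re, Complex.ofReal_zero, mul_zero, Complex.exp_zero, mul_one,
      norm_mul, Complex.norm_real (y * _), Real.norm_eq_abs, abs_mul, abs_of_pos hy]
    field_simp
  have key := sum_sq_le (M := M) hκ hk hα0 hα hw hn (c := fun a => (lam a.1 : ℂ)) hc
    (fun z y hy => by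
      rw [fourierH, (hsum z y hy).tsum_eq]
      exact hM z y hy) hY ((T.subtype fun a => β a ≠ 0)) (fun a ha => by
        rw [Finset.mem_subtype] at ha
        rw [hnα, div_pow, Real.sq_sqrt (by norm_num)]
        have := hT a.1 ha
        have h0 : 0 ≤ ‖β a.1‖ ^ 2 := by positivity
        linarith)
  refine le_of_eq_of_le ?_ key
  have h1 : ∀ a ∈ T, a ∉ T.filter (fun a => β a ≠ 0) → lam a ^ 2 = 0 := by
    intro a ha hb
    rw [Finset.mem_filter, not_and, not_not] at hb
    rw [hlam a (hb ha), zero_pow two_ne_zero]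
  rw [← Finset.sum_subset (Finset.filter_subset _ _) h1, ← Finset.sum_subtype_eq_sum_filter]
  refine Finset.sum_congr rfl fun a _ => ?_
  rw [Complex.norm_real, Real.norm_eq_abs, sq_abs]

end plane

section partialsum

variable {ι : Type*}

/-- **Partial summation.** -/
theorem sum_rpow_le {b N : ι → ℝ} (hN : ∀ i, 1 ≤ N i) {C : ℝ}
    (h : ∀ (Y : ℝ), 1 ≤ Y → ∀ s : Finset ι, (∀ i ∈ s, N i ≤ Y) → ∑ i ∈ s, b i ≤ C * Y)
    {t : ℝ} (ht : 1 < t) (s : Finset ι) : ∑ i ∈ s, b i * N i ^ (-t) ≤ t * C / (t - 1) := by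
  classical
  have ht0 : 0 < t := zero_lt_one.trans ht
  -- `N ^ (-t) = ∫_{1}^∞ [N ≤ x] t x ^ (-t-1) dx`
  have h1 : ∀ i, N i ^ (-t) = ∫ x in Ioi (1 : ℝ),
      (Ioi (N i)).indicator (fun x => t * x ^ (-t - 1)) x := by
    intro i
    have hNi : 0 < N i := zero_lt_one.trans_le (hN i)
    rw [setIntegral_indicator measurableSet_Ioi, Ioi_inter_Ioi, max_eq_right (hN i),
      integral_const_mul, integral_Ioi_rpow_of_lt (by linarith) hNi]
    field_simp
    rw [show -t - 1 + 1 = -t by ring]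
    field_simp
  have hint : ∀ i, IntegrableOn ((Ioi (N i)).indicator (fun x => t * x ^ (-t - 1)))
      (Ioi (1 : ℝ)) := by
    intro i
    refine IntegrableOn.indicator ?_ measurableSet_Ioi
    exact (integrableOn_Ioi_rpow_of_lt (by linarith) zero_lt_one).const_mul t
  have hint2 : IntegrableOn (fun x : ℝ => t * C * x ^ (-t)) (Ioi (1 : ℝ)) :=
    (integrableOn_Ioi_rpow_of_lt (by linarith) zero_lt_one).const_mul (t * C)
  calc ∑ i ∈ s, b i * N i ^ (-t)
      = ∫ x in Ioi (1 : ℝ), ∑ i ∈ s, b i * (Ioi (N i)).indicator (fun x => t * x ^ (-t - 1)) x := by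
        rw [integral_finsetSum _ fun i _ => (hint i).const_mul (b i)]
        refine Finset.sum_congr rfl fun i _ => ?_
        rw [integral_const_mul, ← h1]
    _ ≤ ∫ x in Ioi (1 : ℝ), t * C * x ^ (-t) := by
        refine setIntegral_mono_on (integrable_finsetSum _ fun i _ => (hint i).const_mul (b i))
          hint2 measurableSet_Ioi fun x hx => ?_
        have hx1 : 1 < x := hx
        have hx0 : 0 < x := zero_lt_one.trans hx1
        have h2 : ∑ i ∈ s, b i * (Ioi (N i)).indicator (fun x => t * x ^ (-t - 1)) x =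
            (∑ i ∈ s.filter (fun i => N i < x), b i) * (t * x ^ (-t - 1)) := by
          rw [Finset.sum_mul, Finset.sum_filter]
          refine Finset.sum_congr rfl fun i _ => ?_
          by_cases hi : N i < x
          · rw [if_pos hi, indicator_of_mem (show x ∈ Ioi (N i) from hi)]
          · rw [if_neg hi, indicator_of_notMem (show x ∉ Ioi (N i) from hi), mul_zero]
        rw [h2]
        have h3 := h x hx1.le (s.filter (fun i => N i < x)) fun i hi =>
          (Finset.mem_filter.mp hi).2.le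
        calc (∑ i ∈ s.filter (fun i => N i < x), b i) * (t * x ^ (-t - 1))
            ≤ (C * x) * (t * x ^ (-t - 1)) :=
              mul_le_mul_of_nonneg_right h3 (by positivity)
          _ = t * C * (x ^ (1 : ℝ) * x ^ (-t - 1)) := by rw [Real.rpow_one]; ring
          _ = t * C * x ^ (-t) := by
              rw [← Real.rpow_add hx0]
              congr 2
              ring
    _ = t * C / (t - 1) := by
        rw [integral_const_mul, integral_Ioi_rpow_of_lt (by linarith) zero_lt_one, Real.one_rpow]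
        have : t - 1 ≠ 0 := by linarith
        have h5 : -t + 1 ≠ 0 := by intro h; apply this; linarith
        rw [show -t + 1 = -(t - 1) by ring]
        field_simp

theorem summable_rpow {b N : ι → ℝ} (hb : ∀ i, 0 ≤ b i) (hN : ∀ i, 1 ≤ N i) {C : ℝ}
    (h : ∀ (Y : ℝ), 1 ≤ Y → ∀ s : Finset ι, (∀ i ∈ s, N i ≤ Y) → ∑ i ∈ s, b i ≤ C * Y)
    {t : ℝ} (ht : 1 < t) : Summable fun i => b i * N i ^ (-t) :=
  summable_of_sum_le (fun i => mul_nonneg (hb i) (Real.rpow_nonneg (zero_le_one.trans (hN i)) _))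
    fun s => sum_rpow_le hN h ht s

theorem tsum_rpow_le {b N : ι → ℝ} (hb : ∀ i, 0 ≤ b i) (hN : ∀ i, 1 ≤ N i) {C : ℝ}
    (h : ∀ (Y : ℝ), 1 ≤ Y → ∀ s : Finset ι, (∀ i ∈ s, N i ≤ Y) → ∑ i ∈ s, b i ≤ C * Y)
    {t : ℝ} (ht : 1 < t) : ∑' i, b i * N i ^ (-t) ≤ t * C / (t - 1) :=
  (summable_rpow hb hN h ht).tsum_le_of_sum_le fun s => sum_rpow_le hN h ht s

end partialsum

end Fermat.Agent.LT.Period
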