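import Fermat.Agent.LT.KForm

/-!
# The plane `z` real in hyperbolic 3-space
-/

set_option autoImplicit false

set_option linter.unusedSectionVars false

open NumberField UpperHalfPlane Complex
open scoped MatrixGroups ComplexConjugate

namespace Fermat.Agent.LT.Period

/-- The hyperbolic plane `{z real}` of `H3`. -/
noncomputable def pl (τ : ℍ) : H3 := H3.mk (τ.re : ℂ) τ.im τ.im_pos

@[simp] lemma z_pl (τ : ℍ) : (pl τ).z = (τ.re : ℂ) := rfl
@[simp] lemma y_pl (τ : ℍ) : (pl τ).y = τ.im := rfl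

lemma continuous_pl : Continuous pl := by
  rw [H3.continuous_iff]
  exact ⟨Complex.continuous_ofReal.comp UpperHalfPlane.continuous_re, UpperHalfPlane.continuous_im⟩

variable {K : Type} [Field K] [NumberField K]

/-- `SL₂(ℤ) → GL₂(𝓞 K)`. -/
noncomputable def slK : SL(2, ℤ) →* GL (Fin 2) (𝓞 K) :=
  Matrix.SpecialLinearGroup.toGL.comp (Matrix.SpecialLinearGroup.map (Int.castRingHom (𝓞 K)))

lemma slK_apply (γ : SL(2, ℤ)) (i k : Fin 2) :
    ((slK (K := K) γ : GL (Fin 2) (𝓞 K)) : Matrix (Fin 2) (Fin 2) (𝓞 K)) i k = ((γ i k : ℤ) : 𝓞 K) := rfl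

lemma toGLC_apply (σ : K →+* ℂ) (g : GL (Fin 2) (𝓞 K)) (i k : Fin 2) :
    (toGLC σ g : Matrix (Fin 2) (Fin 2) ℂ) i k = σ ((g i k : 𝓞 K) : K) := rfl

lemma toGLC_slK_apply (σ : K →+* ℂ) (γ : SL(2, ℤ)) (i k : Fin 2) :
    (toGLC σ (slK γ) : Matrix (Fin 2) (Fin 2) ℂ) i k = ((γ i k : ℤ) : ℂ) := by
  rw [toGLC_apply, slK_apply]
  simp

/-- Equivariance of the plane. -/
lemma pl_smul (σ : K →+* ℂ) (γ : SL(2, ℤ)) (τ : ℍ) : pl (γ • τ) = toGLC σ (slK γ) • pl τ := by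
  have hdet : ((γ 0 0 : ℤ) : ℝ) * (γ 1 1 : ℤ) - ((γ 0 1 : ℤ) : ℝ) * (γ 1 0 : ℤ) = 1 := by
    have := γ.det_coe
    rw [Matrix.det_fin_two] at this
    exact_mod_cast this
  set a : ℝ := ((γ 0 0 : ℤ) : ℝ) with ha
  set b : ℝ := ((γ 0 1 : ℤ) : ℝ) with hb
  set c : ℝ := ((γ 1 0 : ℤ) : ℝ) with hc
  set d : ℝ := ((γ 1 1 : ℤ) : ℝ) with hd
  have e00 : (toGLC σ (slK γ) : Matrix (Fin 2) (Fin 2) ℂ) 0 0 = (a : ℂ) := by
    rw [toGLC_slK_apply, ha]; push_cast; rfl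
  have e01 : (toGLC σ (slK γ) : Matrix (Fin 2) (Fin 2) ℂ) 0 1 = (b : ℂ) := by
    rw [toGLC_slK_apply, hb]; push_cast; rfl
  have e10 : (toGLC σ (slK γ) : Matrix (Fin 2) (Fin 2) ℂ) 1 0 = (c : ℂ) := by
    rw [toGLC_slK_apply, hc]; push_cast; rfl
  have e11 : (toGLC σ (slK γ) : Matrix (Fin 2) (Fin 2) ℂ) 1 1 = (d : ℂ) := by
    rw [toGLC_slK_apply, hd]; push_cast; rfl
  have hadet : H3.adet (toGLC σ (slK γ)) = 1 := by
    unfold H3.adet
    rw [Matrix.det_fin_two, e00, e01, e10, e11, ← ofReal_mul, ← ofReal_mul, ← ofReal_sub, hdet]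
    simp
  have hden : H3.den (toGLC σ (slK γ)) (pl τ) = (c * τ.re + d) ^ 2 + (c * τ.im) ^ 2 := by
    unfold H3.den
    rw [e10, e11, z_pl, y_pl, ← ofReal_mul, ← ofReal_add, normSq_ofReal, normSq_ofReal]
    ring
  have hcoe : ((γ • τ : ℍ) : ℂ) = ((a : ℂ) * τ + b) / ((c : ℂ) * τ + d) := by
    rw [UpperHalfPlane.specialLinearGroup_apply]
    simp only [ha, hb, hc, hd]
    simp
  have hns : normSq ((c : ℂ) * τ + d) = (c * τ.re + d) ^ 2 + (c * τ.im) ^ 2 := by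
    rw [normSq_apply]
    simp
    ring
  have hpos : 0 < (c * τ.re + d) ^ 2 + (c * τ.im) ^ 2 := by
    rw [← hden]; exact H3.den_pos _ _
  refine H3.ext ?_ ?_
  · rw [z_pl, H3.z_smul, hden]
    unfold H3.num
    rw [e00, e01, e10, e11, z_pl, y_pl]
    have hre : (γ • τ : ℍ).re = ((a * τ.re + b) * (c * τ.re + d) + a * c * τ.im ^ 2) /
        ((c * τ.re + d) ^ 2 + (c * τ.im) ^ 2) := by
      rw [← UpperHalfPlane.coe_re, hcoe, Complex.div_re, hns]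
      simp only [add_im, mul_im, ofReal_re, ofReal_im, add_re, mul_re, UpperHalfPlane.coe_re,
        UpperHalfPlane.coe_im, zero_mul, add_zero, sub_zero]
      rw [← add_div]
      congr 1
      ring
    rw [hre]
    simp only [map_add, map_mul, conj_ofReal]
    push_cast
    ring
  · rw [y_pl, H3.y_smul, hden, hadet, y_pl]
    rw [← UpperHalfPlane.coe_im, hcoe, Complex.div_im, hns]
    simp only [add_im, mul_im, ofReal_re, ofReal_im, add_re, mul_re, UpperHalfPlane.coe_re,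
      UpperHalfPlane.coe_im, zero_mul, add_zero, sub_zero]
    rw [← sub_div]
    congr 1
    linear_combination τ.im * hdet

variable {σ : K →+* ℂ} {s : 𝓞 K} {N : ℕ}

/-- The restriction of the form to the plane. -/
noncomputable def res (F : KForm σ s N) (τ : ℍ) : ℂ := F.F (pl τ)

lemma continuous_res (F : KForm σ s N) : Continuous (res F) := F.cont.comp continuous_pl

lemma res_smul (F : KForm σ s N) {γ : SL(2, ℤ)} (hγ : γ ∈ CongruenceSubgroup.Gamma0 N) (τ : ℍ) :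
    res F (γ • τ) = res F τ := by
  unfold res
  rw [pl_smul σ, F.inv]
  rw [slK_apply]
  rw [CongruenceSubgroup.Gamma0_mem] at hγ
  have : (N : ℤ) ∣ γ 1 0 := (ZMod.intCast_zmod_eq_zero_iff_dvd _ _).mp hγ
  obtain ⟨k, hk⟩ := this
  exact ⟨(k : 𝓞 K), by rw [hk]; push_cast; ring⟩

lemma exists_res_le (F : KForm σ s N) (γ : SL(2, ℤ)) : ∃ C c : ℝ, 0 < c ∧
    ∀ τ : ℍ, 1 / 2 ≤ τ.im → ‖res F (γ • τ)‖ ≤ C * Real.exp (-(c * τ.im)) := by
  obtain ⟨C, c, hc, h⟩ := F.decay (slK γ)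
  refine ⟨C, c, hc, fun τ hτ => ?_⟩
  unfold res
  rw [pl_smul σ]
  exact h (pl τ) hτ

lemma exists_res_bdd (F : KForm σ s N) : ∃ B : ℝ, ∀ τ, ‖res F τ‖ ≤ B := by
  obtain ⟨B, hB⟩ := F.bdd
  exact ⟨B, fun τ => hB _⟩

end Fermat.Agent.LT.Period
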