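import Fermat.Agent.LT.Period.Orbits

/-!
# Unfolding the Eisenstein series of `Γ₀(N)`
-/

set_option autoImplicit false

noncomputable section

open MeasureTheory UpperHalfPlane
open scoped ENNReal MatrixGroups Modular

namespace Fermat.Agent.LT.Period

open CongruenceSubgroup

lemma measurable_term (s : ℝ) (p : ℤ × ℤ) : Measurable fun z : ℍ => term s z p := by
  unfold term
  have h1 : Measurable fun z : ℍ => (z : ℂ) := measurable_coe
  have h2 : Measurable fun z : ℍ => z.im := UpperHalfPlane.continuous_im.measurable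
  have h3 : Measurable Complex.normSq := Complex.continuous_normSq.measurable
  exact (h2.div (h3.comp ((h1.const_mul _).add_const _))).pow_const s

/-- the index set of the orbits -/
abbrev PosCop (N : ℕ) : Type := {n : ℕ // 0 < n ∧ n.Coprime N}

variable {N : ℕ}

lemma term_repD (s : ℝ) (z : ℍ) (n : PosCop N) :
    term s z (repD n).1 = (n.1 : ℝ) ^ (-(2 * s)) * z.im ^ s := by
  have hn : (0 : ℝ) < n.1 := by exact_mod_cast n.2.1
  rw [coe_repD, term]
  simp only [Int.cast_zero, zero_mul, zero_add, Int.cast_natCast]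
  have h1 : Complex.normSq ((n.1 : ℕ) : ℂ) = (n.1 : ℝ) ^ 2 := by
    rw [← Complex.ofReal_natCast, Complex.normSq_ofReal, sq]
  rw [h1, Real.div_rpow z.im_pos.le (by positivity), div_eq_mul_inv, mul_comm, ← Real.rpow_neg
    (by positivity), ← Real.rpow_natCast, ← Real.rpow_mul hn.le]
  congr 2
  push_cast
  ring

lemma summable_posCop {s : ℝ} (hs : 1 < s) :
    Summable fun n : PosCop N => (n.1 : ℝ) ^ (-(2 * s)) := by
  have h1 : Summable fun n : ℕ => (n : ℝ) ^ (-(2 * s)) :=
    Real.summable_nat_rpow.mpr (by linarith)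
  exact h1.comp_injective Subtype.coe_injective

/-- the partial zeta value -/
def zetaN (N : ℕ) (s : ℝ) : ℝ := ∑' n : PosCop N, (n.1 : ℝ) ^ (-(2 * s))

lemma one_le_zetaN {s : ℝ} (hs : 1 < s) : 1 ≤ zetaN N s := by
  have h1 := (summable_posCop (N := N) hs).le_tsum ⟨1, one_pos, Nat.coprime_one_left N⟩
    fun n _ => Real.rpow_nonneg (Nat.cast_nonneg _) _
  simpa [zetaN] using h1

variable {G : ℍ → ℂ} {w : ℍ → ℝ≥0∞}

lemma withDensity_strip :
    (volume : Measure ℍ).withDensity (strip.indicator 1) = volume.restrict strip := by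
  rw [withDensity_indicator measurableSet_strip]
  simp

lemma lintegral_repD (s : ℝ) (n : PosCop N) :
    ∫⁻ z, ‖G z * (term s z (repD n).1 : ℂ)‖ₑ ∂volume.withDensity (strip.indicator 1) =
      ENNReal.ofReal ((n.1 : ℝ) ^ (-(2 * s))) *
        ∫⁻ z in strip, ‖G z‖ₑ * ENNReal.ofReal (z.im ^ s) := by
  rw [withDensity_strip, ← lintegral_const_mul' _ _ ENNReal.ofReal_ne_top]
  refine lintegral_congr fun z => ?_
  rw [term_repD, enorm_mul]
  have h1 : ‖(((n.1 : ℝ) ^ (-(2 * s)) * z.im ^ s : ℝ) : ℂ)‖ₑ =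
      ENNReal.ofReal ((n.1 : ℝ) ^ (-(2 * s))) * ENNReal.ofReal (z.im ^ s) := by
    rw [← ENNReal.ofReal_mul (Real.rpow_nonneg (Nat.cast_nonneg _) _), ← ofReal_norm_eq_enorm,
      Complex.norm_real, Real.norm_of_nonneg]
    exact mul_nonneg (Real.rpow_nonneg (Nat.cast_nonneg _) _) (Real.rpow_nonneg z.im_pos.le _)
  rw [h1]
  ring

theorem lunf {s : ℝ} (hs : 1 < s) (hG : Measurable G)
    (hinv : ∀ γ ∈ Gamma0 N, ∀ z, G (γ • z) = G z) (hw : IsWeight (Gamma0 N) w)
    (hfin : ∫⁻ z in strip, ‖G z‖ₑ * ENNReal.ofReal (z.im ^ s) ≠ ∞) :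
    ∫⁻ z, ∑' p : Del N, ‖G z * (term s z p.1 : ℂ)‖ₑ ∂volume.withDensity w ≠ ∞ := by
  rw [lunfold_reps (μ := (volume : Measure ℍ)) (G := Gamma0 N) hw (r := repD) exists_repD
    (fun i j h => by obtain ⟨g, hg⟩ := h; exact (repD_smul hg).2.2.2)
    (wo := fun _ => strip.indicator 1) isWeight_strip
    (F := fun p z => ‖G z * (term s z p.1 : ℂ)‖ₑ)
    (fun p => (hG.mul (Complex.measurable_ofReal.comp (measurable_term s p.1))).enorm)
    (fun g p z => by
      have h1 : G (g • z) = G z := hinv g g.2 z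
      have h2 : term s (g • z) (g • p).1 = term s z p.1 := term_act s g z p.1
      rw [h1, h2])]
  simp only [lintegral_repD]
  rw [ENNReal.tsum_mul_right]
  refine ENNReal.mul_ne_top ?_ hfin
  rw [← ENNReal.ofReal_tsum_of_nonneg (fun n => Real.rpow_nonneg (Nat.cast_nonneg _) _)
    (summable_posCop hs)]
  exact ENNReal.ofReal_ne_top

/-- **Unfolding.** -/
theorem unf {s : ℝ} (hs : 1 < s) (hG : Measurable G)
    (hinv : ∀ γ ∈ Gamma0 N, ∀ z, G (γ • z) = G z) (hw : IsWeight (Gamma0 N) w)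
    (hfin : ∫⁻ z in strip, ‖G z‖ₑ * ENNReal.ofReal (z.im ^ s) ≠ ∞) :
    ∫ z, ∑' p : Del N, G z * (term s z p.1 : ℂ) ∂volume.withDensity w =
      (zetaN N s : ℂ) * ∫ z in strip, G z * ((z.im ^ s : ℝ) : ℂ) := by
  rw [unfold_reps (μ := (volume : Measure ℍ)) (G := Gamma0 N) hw (r := repD) exists_repD
    (fun i j h => by obtain ⟨g, hg⟩ := h; exact (repD_smul hg).2.2.2)
    (wo := fun _ => strip.indicator 1) isWeight_strip
    (F := fun p z => G z * (term s z p.1 : ℂ))
    (fun p => hG.mul (Complex.measurable_ofReal.comp (measurable_term s p.1)))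
    (fun g p z => by
      have h1 : G (g • z) = G z := hinv g g.2 z
      have h2 : term s (g • z) (g • p).1 = term s z p.1 := term_act s g z p.1
      rw [h1, h2]) (lunf hs hG hinv hw hfin)]
  rw [zetaN, Complex.ofReal_tsum, ← tsum_mul_right]
  refine tsum_congr fun n => ?_
  rw [withDensity_strip, ← integral_const_mul]
  refine integral_congr_ae (Filter.Eventually.of_forall fun z => ?_)
  simp only [term_repD]
  push_cast
  ring

end Fermat.Agent.LT.Period
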