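import Fermat.Agent.LT.Unfold
import Mathlib

/-!
# A weight of `SL₂(ℤ)` on the upper half plane supported in the standard fundamental domain
-/

set_option autoImplicit false

noncomputable section

open MeasureTheory UpperHalfPlane
open scoped ENNReal MatrixGroups Modular

namespace Fermat.Agent.LT.Period

instance countableSL : Countable SL(2, ℤ) := by
  have : Countable (Matrix (Fin 2) (Fin 2) ℤ) := by
    unfold Matrix
    infer_instance
  exact (Subtype.coe_injective : Function.Injective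
    (fun g : SL(2, ℤ) => (g : Matrix (Fin 2) (Fin 2) ℤ))).countable

instance measurableSL : MeasurableConstSMul SL(2, ℤ) ℍ :=
  ⟨fun g => measurable_const_smul (Matrix.SpecialLinearGroup.mapGL ℝ g)⟩

instance invariantSL : SMulInvariantMeasure SL(2, ℤ) ℍ volume :=
  ⟨fun g _ hs => SMulInvariantMeasure.measure_preimage_smul
    (Matrix.SpecialLinearGroup.mapGL ℝ g) hs⟩

/-- number of elements of `SL₂(ℤ)` moving `z` into the fundamental domain -/
def cntSL (z : ℍ) : ℝ≥0∞ := ∑' γ : SL(2, ℤ), (𝒟 : Set ℍ).indicator 1 (γ • z)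

lemma measurable_indFd : Measurable ((𝒟 : Set ℍ).indicator (1 : ℍ → ℝ≥0∞)) :=
  measurable_one.indicator ModularGroup.isClosed_fd.measurableSet

lemma measurable_cntSL : Measurable cntSL := by
  unfold cntSL
  exact Measurable.ennreal_tsum fun γ => measurable_indFd.comp (measurable_const_smul γ)

lemma one_le_cntSL (z : ℍ) : 1 ≤ cntSL z := by
  obtain ⟨g, hg⟩ := ModularGroup.exists_smul_mem_fd z
  have h1 : (𝒟 : Set ℍ).indicator (1 : ℍ → ℝ≥0∞) (g • z) ≤ cntSL z :=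
    ENNReal.le_tsum (f := fun γ : SL(2, ℤ) => (𝒟 : Set ℍ).indicator (1 : ℍ → ℝ≥0∞) (γ • z)) g
  rwa [Set.indicator_of_mem hg] at h1

lemma mapGL_inj : Function.Injective
    (Matrix.SpecialLinearGroup.mapGL ℝ : SL(2, ℤ) → GL (Fin 2) ℝ) := by
  intro a b h
  ext i j
  have h1 := congrArg (fun g : GL (Fin 2) ℝ => (g : Matrix (Fin 2) (Fin 2) ℝ) i j) h
  simpa using h1

lemma cntSL_ne_top (z : ℍ) : cntSL z ≠ ∞ := by
  obtain ⟨g, hg⟩ := ModularGroup.exists_max_im z
  set Y := (g • z).im with hY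
  have hfin := ProperlyDiscontinuousSMul.finite_disjoint_inter_image
    (Γ := (𝒮ℒ : Subgroup (GL (Fin 2) ℝ))) (K := {z}) (L := ModularGroup.truncatedFundamentalDomain Y)
    isCompact_singleton (ModularGroup.isCompact_truncatedFundamentalDomain Y)
  let i : SL(2, ℤ) → (𝒮ℒ : Subgroup (GL (Fin 2) ℝ)) := fun γ =>
    ⟨Matrix.SpecialLinearGroup.mapGL ℝ γ, γ, rfl⟩
  have hi : Function.Injective i := fun a b h => mapGL_inj (congrArg Subtype.val h)
  have hfin' := hfin.preimage (f := i) hi.injOn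
  have h0 : ∀ γ : SL(2, ℤ), γ ∉ hfin'.toFinset →
      (𝒟 : Set ℍ).indicator (1 : ℍ → ℝ≥0∞) (γ • z) = 0 := by
    intro γ hγ
    refine Set.indicator_of_notMem (fun hmem => hγ ?_) _
    rw [Set.Finite.mem_toFinset, Set.mem_preimage, Set.mem_setOf_eq]
    exact ⟨γ • z, ⟨z, rfl, rfl⟩, hmem, hg γ⟩
  unfold cntSL
  rw [tsum_eq_sum (s := hfin'.toFinset) fun γ hγ => h0 γ hγ]
  refine ENNReal.sum_ne_top.mpr fun γ _ => ?_
  by_cases h : γ • z ∈ (𝒟 : Set ℍ)
  · rw [Set.indicator_of_mem h]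
    exact ENNReal.one_ne_top
  · rw [Set.indicator_of_notMem h]
    exact ENNReal.zero_ne_top

lemma cntSL_smul (g : SL(2, ℤ)) (z : ℍ) : cntSL (g • z) = cntSL z := by
  unfold cntSL
  rw [← (Equiv.mulRight g).tsum_eq (fun γ : SL(2, ℤ) => (𝒟 : Set ℍ).indicator 1 (γ • z))]
  refine tsum_congr fun γ => ?_
  rw [Equiv.coe_mulRight, mul_smul]

/-- the weight -/
def wSL (z : ℍ) : ℝ≥0∞ := (𝒟 : Set ℍ).indicator 1 z / cntSL z

lemma isWeight_wSL : IsWeight SL(2, ℤ) wSL where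
  meas := measurable_indFd.div measurable_cntSL
  sum_eq z := by
    unfold wSL
    simp only [cntSL_smul, ENNReal.div_eq_inv_mul]
    rw [ENNReal.tsum_mul_left]
    change (cntSL z)⁻¹ * cntSL z = 1
    exact ENNReal.inv_mul_cancel (zero_lt_one.trans_le (one_le_cntSL z)).ne' (cntSL_ne_top z)

lemma wSL_eq_zero {z : ℍ} (h : z ∉ (𝒟 : Set ℍ)) : wSL z = 0 := by
  rw [wSL, Set.indicator_of_notMem h, ENNReal.zero_div]

lemma wSL_le (z : ℍ) : wSL z ≤ (𝒟 : Set ℍ).indicator 1 z := by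
  rw [wSL]
  exact ENNReal.div_le_of_le_mul (le_mul_of_one_le_right' (one_le_cntSL z))

lemma half_le_im {z : ℍ} (h : z ∈ (𝒟 : Set ℍ)) : 1 / 2 ≤ z.im := by
  have h1 := ModularGroup.three_le_four_mul_im_sq_of_mem_fd h
  nlinarith [z.im_pos]

lemma abs_re_le {z : ℍ} (h : z ∈ (𝒟 : Set ℍ)) : |z.re| ≤ 1 / 2 := h.2

end Fermat.Agent.LT.Period
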